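import Fermat.Agent.CFT.Wiles.Bound
import Fermat.Agent.CFT.TWPrimes.Cocycle
import Fermat.Agent.CFT.Tangent.LocalBasic
import Mathlib.RingTheory.Trace.Basic

/-!
# Trace zero matrices as a coefficient module

The adjoint module of a two dimensional representation of a finite group, its presentation, and
the trace form duality with functionals modulo `p`.
-/

set_option autoImplicit false
set_option linter.unusedSectionVars false
set_option linter.style.haveILetI false

noncomputable section

namespace Fermat.Agent.CFT.Wiles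

open Fermat.Agent.Deform Fermat.Agent.CFT.Euler Fermat.Agent.CFT.TWPrimes Module

variable {k : Type} [Field k] {G : Type} [Group G]

/-- The trace zero matrices. -/
def sl2 (k : Type) [Field k] : Submodule k (M2 k) := LinearMap.ker (Matrix.traceLinearMap (Fin 2) k k)

theorem mem_sl2 {X : M2 k} : X ∈ sl2 k ↔ X.trace = 0 := LinearMap.mem_ker

/-- The adjoint module of a representation. -/
def Ad0 (_rb : G →* M2 k) : Type := sl2 k

variable {rb : G →* M2 k}

instance ad0AddCommGroup : AddCommGroup (Ad0 rb) := inferInstanceAs (AddCommGroup (sl2 k))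

instance ad0Module : Module k (Ad0 rb) := inferInstanceAs (Module k (sl2 k))

/-- The underlying matrix. -/
def Ad0.mat : Ad0 rb →ₗ[k] M2 k := (sl2 k).subtype

/-- A trace zero matrix as an element of the module. -/
def Ad0.mk (X : M2 k) (hX : X.trace = 0) : Ad0 rb := ⟨X, mem_sl2.2 hX⟩

theorem Ad0.mat_injective : Function.Injective (Ad0.mat (rb := rb)) := Subtype.val_injective

@[simp] theorem Ad0.mat_mk (X : M2 k) (hX : X.trace = 0) :
    (Ad0.mk X hX : Ad0 rb).mat = X := rfl

theorem Ad0.trace_mat (a : Ad0 rb) : a.mat.trace = 0 := mem_sl2.1 a.2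

instance ad0Finite [Finite k] : Finite (Ad0 rb) := inferInstanceAs (Finite (sl2 k))

instance ad0Action : DistribMulAction G (Ad0 rb) where
  smul g a := Ad0.mk (rb g * a.mat * rb g⁻¹) (by
    rw [CFT.Tangent.trace_conj_map rb g, a.trace_mat])
  one_smul a := Ad0.mat_injective (by
    show rb 1 * a.mat * rb 1⁻¹ = a.mat
    simp)
  mul_smul g h a := Ad0.mat_injective (by
    show rb (g * h) * a.mat * rb (g * h)⁻¹ = rb g * (rb h * a.mat * rb h⁻¹) * rb g⁻¹
    simp only [map_mul, mul_inv_rev, mul_assoc])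
  smul_zero g := Ad0.mat_injective (by
    show rb g * Ad0.mat 0 * rb g⁻¹ = Ad0.mat 0
    simp)
  smul_add g a b := Ad0.mat_injective (by
    show rb g * Ad0.mat (a + b) * rb g⁻¹ =
      Ad0.mat (Ad0.mk (rb g * a.mat * rb g⁻¹) _ + Ad0.mk (rb g * b.mat * rb g⁻¹) _)
    rw [map_add, map_add, Ad0.mat_mk, Ad0.mat_mk, mul_add, add_mul])

theorem Ad0.mat_smul (g : G) (a : Ad0 rb) : (g • a).mat = rb g * a.mat * rb g⁻¹ := rfl

theorem Ad0.killed (p : ℕ) [CharP k p] (a : Ad0 rb) : p • a = 0 := by
  rw [← Nat.cast_smul_eq_nsmul k, CharP.cast_eq_zero, zero_smul]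

variable (rb) in
/-- The presentation by the module itself. -/
def adEps [Fintype G] [Fintype (Ad0 rb)] : Lat G (Ad0 rb) →+ Ad0 rb :=
  Lat.ofBasis fun a g => g • a

theorem adEps_presentation [Fintype G] [Fintype (Ad0 rb)] (p : ℕ) [CharP k p] :
    Presentation p (adEps rb) where
  surjective a := ⟨Lat.e a 1, by rw [adEps, Lat.ofBasis_e, one_smul]⟩
  map_smul g x := Lat.map_smul_of_basis _ g (fun a h => by
    rw [adEps, Lat.ofBasis_e, Lat.ofBasis_e, mul_smul]) x
  killed := Ad0.killed p

/-- The trace zero matrices fixed by a subgroup. -/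
theorem card_fixPts (H : Subgroup G) :
    Nat.card (fixPts H (Ad0 rb)) = Nat.card (CFT.Tangent.fixedOn rb H) :=
  Nat.card_congr
    { toFun := fun a => ⟨a.1.mat, a.1.trace_mat, fun s hs =>
        congrArg Ad0.mat (a.2 ⟨s, hs⟩)⟩
      invFun := fun X => ⟨Ad0.mk X.1 X.2.1, fun g => Ad0.mat_injective (X.2.2 g g.2)⟩
      left_inv := fun _ => rfl
      right_inv := fun _ => rfl }

section Duality

variable (p : ℕ) [Fact p.Prime] [Algebra (ZMod p) k]

/-- The trace form. -/
def trD : M2 k →+ (Ad0 rb →+ ZMod p) :=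
  AddMonoidHom.mk' (fun B => (Algebra.trace (ZMod p) k).toAddMonoidHom.comp
    ((Matrix.traceAddMonoidHom (Fin 2) k).comp
      ((AddMonoidHom.mulLeft B).comp Ad0.mat.toAddMonoidHom))) fun B C => by
    refine AddMonoidHom.ext fun a => ?_
    show Algebra.trace (ZMod p) k ((B + C) * a.mat).trace =
      Algebra.trace (ZMod p) k (B * a.mat).trace + Algebra.trace (ZMod p) k (C * a.mat).trace
    rw [add_mul, Matrix.trace_add, map_add]

theorem trD_apply (B : M2 k) (a : Ad0 rb) :
    trD p B a = Algebra.trace (ZMod p) k (B * a.mat).trace := rfl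

theorem trD_natSmul (n : ℕ) (B : M2 k) (a : Ad0 rb) :
    trD p ((n : k) • B) a = (n : ZMod p) * trD p B a := by
  rw [trD_apply, trD_apply, Nat.cast_smul_eq_nsmul, smul_mul_assoc, Matrix.trace_smul, map_nsmul,
    nsmul_eq_mul]

theorem trD_smul (g : G) (B : M2 k) (a : Ad0 rb) :
    trD p (rb g * B * rb g⁻¹) a = trD p B (g⁻¹ • a) := by
  rw [trD_apply, trD_apply, Ad0.mat_smul, inv_inv]
  congr 1
  rw [mul_assoc, mul_assoc, Matrix.trace_mul_comm, ← mul_assoc]
  simp only [mul_assoc]

variable [Finite k]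

theorem eq_of_trD_eq (h2 : (2 : k) ≠ 0) {B C : M2 k} (hB : B.trace = 0) (hC : C.trace = 0)
    (h : trD (rb := rb) p B = trD p C) : B = C := by
  haveI : FiniteDimensional (ZMod p) k := Module.Finite.of_finite
  haveI : CharP k p := charP_of_injective_algebraMap (algebraMap (ZMod p) k).injective p
  rw [← sub_eq_zero]
  set D := B - C with hD
  have hDt : D.trace = 0 := by rw [hD, Matrix.trace_sub, hB, hC, sub_zero]
  have h0 : ∀ (a : Ad0 rb) (x : k), Algebra.trace (ZMod p) k ((D * a.mat).trace * x) = 0 :=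
    fun a x => by
      have e := DFunLike.congr_fun h (x • a)
      rw [trD_apply, trD_apply, ← sub_eq_zero, ← map_sub, ← Matrix.trace_sub, ← sub_mul,
        map_smul, mul_smul_comm, Matrix.trace_smul, smul_eq_mul, mul_comm] at e
      exact e
  have h1 : ∀ a : Ad0 rb, (D * a.mat).trace = 0 := fun a =>
    (traceForm_nondegenerate (ZMod p) k).1 _ (h0 a)
  rw [Matrix.trace_fin_two] at hDt
  have e1 := h1 (Ad0.mk !![1, 0; 0, -1] (by simp [Matrix.trace_fin_two]))
  have e2 := h1 (Ad0.mk !![0, 1; 0, 0] (by simp [Matrix.trace_fin_two]))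
  have e3 := h1 (Ad0.mk !![0, 0; 1, 0] (by simp [Matrix.trace_fin_two]))
  rw [Ad0.mat_mk, Matrix.trace_fin_two] at e1 e2 e3
  simp [Matrix.mul_apply, Fin.sum_univ_two] at e1 e2 e3
  have h00 : D 0 0 = 0 :=
    (mul_eq_zero.1 (show (2 : k) * D 0 0 = 0 by linear_combination e1 + hDt)).resolve_left h2
  ext i j
  fin_cases i <;> fin_cases j
  · simpa using h00
  · simpa using e3
  · simpa using e2
  · simpa [h00] using hDt

/-- The trace form identifies trace zero matrices with functionals. -/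
theorem exists_trD_eq (h2 : (2 : k) ≠ 0) (ν : Ad0 rb →+ ZMod p) :
    ∃ B : M2 k, B.trace = 0 ∧ trD p B = ν := by
  haveI : CharP k p := charP_of_injective_algebraMap (algebraMap (ZMod p) k).injective p
  haveI := finite_dual (p := p) (A := Ad0 rb)
  have hinj : Function.Injective (fun a : Ad0 rb => trD (rb := rb) p a.mat) := fun a b e =>
    Ad0.mat_injective (eq_of_trD_eq p h2 a.trace_mat b.trace_mat e)
  obtain ⟨a, ha⟩ := (Function.Injective.bijective_of_nat_card_le hinj
    (card_dual (p := p) (Ad0.killed (rb := rb) p)).le).2 ν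
  exact ⟨a.mat, a.trace_mat, ha⟩

/-- Invariant functionals are the fixed trace zero matrices. -/
theorem card_fixDual (h2 : (2 : k) ≠ 0) (H : Subgroup G) :
    Nat.card (fixDual p H (Ad0 rb)) = Nat.card (CFT.Tangent.fixedOn rb H) := by
  refine (Nat.card_eq_of_bijective (fun X : CFT.Tangent.fixedOn rb H =>
    (⟨trD p X.1, fun g a => ?_⟩ : fixDual p H (Ad0 rb))) ⟨fun X Y e => ?_, fun ν => ?_⟩).symm
  · show trD p X.1 (((g : G) • a : Ad0 rb)) = trD p X.1 a
    have e := trD_smul p (g : G) X.1 ((g : G) • a)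
    rw [inv_smul_smul, X.2.2 _ g.2] at e
    exact e
  · exact Subtype.ext (eq_of_trD_eq p h2 X.2.1 Y.2.1 (congrArg Subtype.val e))
  · obtain ⟨B, hB, hBν⟩ := exists_trD_eq p h2 ν.1
    refine ⟨⟨B, hB, fun s hs => eq_of_trD_eq (rb := rb) p h2 ?_ hB
      (AddMonoidHom.ext fun a => ?_)⟩, Subtype.ext hBν⟩
    · rw [CFT.Tangent.trace_conj_map rb s, hB]
    · rw [trD_smul, hBν]
      exact ν.2 (⟨s, hs⟩⁻¹ : H) a

end Duality

end Fermat.Agent.CFT.Wiles
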