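import Fermat.Agent.CFT.Wiles.Count
import Fermat.Agent.CFT.Tangent.Classes
import Fermat.Agent.CFT.TWPrimes.Residual
import Fermat.Agent.CFT.Tangent.BaseChange
import Fermat.Prelude.Def_GaloisRep_DeformationRingData
import Mathlib.RingTheory.MvPowerSeries.Basic

/-!
# Taylor–Wiles primes for a condition at `p`

The tangent space of a deformation ring with a condition at `p` having excess one is generated by
as many elements as there are auxiliary primes.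
-/

set_option autoImplicit false
set_option linter.unusedSectionVars false
set_option linter.style.haveILetI false

noncomputable section

namespace Fermat.Agent.CFT.Wiles

open ExtCitation Fermat.Agent.Arith Fermat.Agent.Deform Fermat.Agent.CFT.Tangent
open Fermat.Agent.CFT.TWPrimes Fermat.Agent.CFT.Local Module IsLocalRing Polynomial
open scoped Pointwise

local instance factPrimeAssembly (q : Nat.Primes) : Fact (q : ℕ).Prime := ⟨q.2⟩

section Dual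

variable {k : Type} [Field k] {r : GQ →* M2 k} {b : GQ → M2 k} {ρ : GaloisRepAdic (DualNumber k)}
  {B : Basis (Fin 2) (DualNumber k) ρ.V}

/-- An unramified first order deformation. -/
theorem eq_of_unramified (hB : ∀ σ, matOf ρ B σ = (1 + epsM (b σ)) * inlM (r σ)) {σ : GQ}
    (hσ : ρ.ρ σ = 1) : r σ = 1 ∧ b σ = 0 := by
  have h : matOf ρ B σ = 1 := by
    show LinearMap.toMatrixAlgEquiv B (ρ.ρ σ) = 1
    rw [hσ, map_one]
  rw [hB] at h
  have h1 := congrArg fstM h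
  have h2 := congrArg sndM h
  simp only [fstM_mul, sndM_mul, fstM_add, sndM_add, fstM_one, sndM_one, fstM_epsM, sndM_epsM,
    fstM_inlM, sndM_inlM, add_zero, zero_add, one_mul, mul_zero] at h1 h2
  refine ⟨h1, ?_⟩
  rwa [h1, mul_one] at h2

/-- A first order deformation with unipotent characteristic polynomial. -/
theorem eq_of_unipotent (hB : ∀ σ, matOf ρ B σ = (1 + epsM (b σ)) * inlM (r σ)) {σ : GQ}
    (hσ : LinearMap.charpoly (ρ.ρ σ) = (X - 1) ^ 2) :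
    (r σ).trace = 2 ∧ (r σ).det = 1 ∧ (b σ * r σ).trace = 0 := by
  rw [← LinearMap.charpoly_toMatrix (ρ.ρ σ) B] at hσ
  change (matOf ρ B σ).charpoly = _ at hσ
  rw [hB] at hσ
  set M : M2 (DualNumber k) := (1 + epsM (b σ)) * inlM (r σ) with hM
  obtain ⟨ht, hd⟩ := TWPrimes.trace_det_of_charpoly (M := M) (α := 1) (β := 1)
    (hσ.trans (by rw [map_one, sq]))
  rw [one_add_one_eq_two] at ht
  rw [one_mul] at hd
  have hf : fstM M = r σ := by simp [hM]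
  have hs : sndM M = b σ * r σ := by simp [hM]
  refine ⟨?_, ?_, ?_⟩
  · rw [← hf]
    have e := congrArg (TrivSqZeroExt.fstHom k k k) ht
    rw [AddMonoidHom.map_trace, map_ofNat] at e
    exact e
  · rw [← hf]
    have e := congrArg (TrivSqZeroExt.fstHom k k k) hd
    rw [AlgHom.map_det, map_one] at e
    exact e
  · rw [← hs]
    have e := congrArg TrivSqZeroExt.snd ht
    rw [Matrix.trace_fin_two, TrivSqZeroExt.snd_add] at e
    rw [Matrix.trace_fin_two]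
    exact e.trans (by simp [show (2 : DualNumber k) = 1 + 1 from one_add_one_eq_two.symm])

end Dual

variable {𝒪 : Type} [CommRing 𝒪] [IsDomain 𝒪] [IsDiscreteValuationRing 𝒪]
  [IsAdicComplete (maximalIdeal 𝒪) 𝒪] [Finite (ResidueField 𝒪)]
  {p : ℕ} [Fact p.Prime] [CharP (ResidueField 𝒪) p]

/-- Inertia at a ramified prime of a residual representation acts nontrivially at the place. -/
theorem exists_inertia_matRes_ne {ρbar : ResidualGaloisRep (ResidueField 𝒪)}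
    (bb : Basis (Fin 2) (ResidueField 𝒪) ρbar.V) {q : ℕ} [Fact q.Prime]
    (h : ¬ ρbar.IsUnramifiedAt q) :
    ∃ τ ∈ (padicPlace q).inertiaSubgroupIn ℚ, matRes ρbar bb τ ≠ 1 := by
  by_contra hne
  push Not at hne
  refine h fun A hA σ hσ => ?_
  obtain ⟨g, rfl⟩ := exists_smul_eq (Local.padicPlace_liesOverPrime q) hA Fact.out
  have h1 : g⁻¹ * σ * g ∈ (padicPlace q).inertiaSubgroupIn ℚ := by
    have := (mem_inertia_smul_iff (g := g⁻¹) (σ := σ) (A := g • padicPlace q)).mpr hσ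
    rwa [inv_inv, inv_smul_smul] at this
  have h2 : ρbar.ρ (g⁻¹ * σ * g) = 1 := (LinearMap.toMatrixAlgEquiv bb).injective
    ((hne _ h1).trans (map_one _).symm)
  calc ρbar.ρ σ = ρbar.ρ g * ρbar.ρ (g⁻¹ * σ * g) * ρbar.ρ g⁻¹ := by
        rw [← map_mul, ← map_mul]; congr 1; group
    _ = 1 := by rw [h2, mul_one, ← map_mul, mul_inv_cancel, map_one]

variable (hp2 : p ≠ 2) (ρbar : ResidualGaloisRep (ResidueField 𝒪))
  (habs : ρbar.IsAbsolutelyIrreducible)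
  (hdet : (GaloisRepAdic.ofResidualGaloisRep ρbar).DetIsCyclotomic p)
  (hsplit : ∀ σ : GQ, ∃ α β : ResidueField 𝒪,
    LinearMap.charpoly (ρbar.ρ σ) = (X - C α) * (X - C β))
  (hTW : ∀ (K : Type) [Field K] [Algebra (ResidueField 𝒪) K] (G : Subgroup GQ), G.index = 2 →
    ∀ V : Submodule K (ρbar.baseChange K).V,
      (∀ σ ∈ G, ∀ x ∈ V, (ρbar.baseChange K).ρ σ x ∈ V) → V = ⊥ ∨ V = ⊤)
  {S Smin : Finset ℕ} (hpSmin : p ∈ Smin) (hSmin : Smin ⊆ S)
  (hmin : ∀ q : ℕ, q.Prime → q ≠ p → (q ∈ Smin ↔ ¬ ρbar.IsUnramifiedAt q))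

include hp2 habs hdet hsplit hTW hpSmin hSmin hmin in
/-- **Taylor–Wiles primes** for a condition `P` at `p` of excess one. -/
theorem exists_taylorWiles_surjective
    (P : ∀ ⦃A : Type⦄ [CommRing A] [IsLocalRing A], GaloisRepAdic A → Prop)
    (hbase : ∀ ⦃A B : Type⦄ [CommRing A] [IsLocalRing A] [CommRing B] [IsLocalRing B]
      (φ : A →+* B) (hφ : IsLocalHom φ) (ρ : GaloisRepAdic A), Function.Surjective φ →
        P ρ → P (ρ.baseChangeAlong φ hφ))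
    (hbound : ∀ (r : GQ →* M2 (ResidueField 𝒪)), GaloisFactorsThroughFiniteLevel r →
      (∀ (σ : GQ) (n : ℕ), (∀ μ : QBar, μ ^ p = 1 → σ μ = μ ^ n) →
        (r σ).det = (n : ResidueField 𝒪)) →
      (∀ g, ∃ α β : ResidueField 𝒪, (r g).trace = α + β ∧ (r g).det = α * β) →
      ∀ (V : Submodule (ResidueField 𝒪) (GQ → M2 (ResidueField 𝒪)))
        [Module.Finite (ResidueField 𝒪) V],
        (∀ b ∈ V, IsAdCocycle r b) → (∀ b ∈ V, IsFiniteLevel b) →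
        (∀ b ∈ V, ∀ σ, (b σ).trace = 0) →
        (∀ b ∈ V, b ≠ 0 → ∃ (ρ : GaloisRepAdic (DualNumber (ResidueField 𝒪)))
          (B : Basis (Fin 2) (DualNumber (ResidueField 𝒪)) ρ.V), P ρ ∧ ρ.DetIsCyclotomic p ∧
            ∀ σ, matOf ρ B σ = (1 + epsM (b σ)) * inlM (r σ)) →
        finrank (ResidueField 𝒪) V ≤
          finrank (ResidueField 𝒪) (V ⊓ cobdOn r ((padicPlace p).decompositionSubgroup ℚ) :
              Submodule (ResidueField 𝒪) (GQ → M2 (ResidueField 𝒪))) +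
            finrank (ResidueField 𝒪) (fixedOn r ((padicPlace p).decompositionSubgroup ℚ)) + 1) :
    ∃ r : ℕ, ∀ n : ℕ, ∃ qv : Fin r → ℕ, Function.Injective qv ∧
      (∀ i, (qv i).Prime ∧ qv i ∉ S ∧ p ^ (n + 1) ∣ qv i - 1) ∧
      (∀ i, ∀ Q : ValuationSubring QBar, Q.LiesOverPrime (qv i) →
        ∀ φ : GQ, Q.IsFrobeniusAt φ (qv i) →
          ∃ α β : ResidueField 𝒪, α ≠ β ∧
            LinearMap.charpoly (ρbar.ρ φ) = (X - C α) * (X - C β)) ∧
      ∀ (𝒟 : ∀ ⦃A : Type⦄ [CommRing A] [IsLocalRing A] [Algebra 𝒪 A], GaloisRepAdic A → Prop),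
        (∀ ⦃A : Type⦄ [CommRing A] [IsLocalRing A] [Algebra 𝒪 A] (ρ : GaloisRepAdic A),
          𝒟 ρ ↔ ((ρ.DetIsCyclotomic p ∧ P ρ ∧
            ∀ q : ℕ, q.Prime → q ∉ Smin ∪ Finset.univ.image qv → ρ.IsUnramifiedAt q) ∧
              ∀ q ∈ Smin, q.Prime → q ≠ p → ρ.IsUnipotentOnInertiaAt q)) →
        ∀ DQ : GaloisRep.DeformationRingData 𝒪 ρbar 𝒟,
          ∃ γ : MvPowerSeries (Fin r) 𝒪 →ₐ[𝒪] DQ.R, Function.Surjective γ := by
  classical
  letI : Algebra (ZMod p) (ResidueField 𝒪) := ZMod.algebra _ p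
  haveI : NeZero p := ⟨(Fact.out : p.Prime).ne_zero⟩
  set k := ResidueField 𝒪
  have h2 : (2 : k) ≠ 0 := fun h => hp2 ((Nat.prime_dvd_prime_iff_eq Fact.out Nat.prime_two).1
    ((CharP.cast_eq_zero_iff k p 2).1 (by exact_mod_cast h)))
  let bb : Basis (Fin 2) k ρbar.V := Module.finBasisOfFinrankEq k ρbar.V ρbar.finrank_eq
  set r := matRes ρbar bb with hr
  have hrfin : GaloisFactorsThroughFiniteLevel r := finiteLevel_matRes ρbar bb
  have hcyc := det_matRes_of_detIsCyclotomic ρbar bb p hdet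
  have htw : TWHyp r := twHyp_matRes ρbar bb h2 habs hsplit (hTW k)
  obtain ⟨ζ, hζ⟩ := HasEnoughRootsOfUnity.exists_primitiveRoot QBar p
  have hS₀ : ∀ ℓ : Nat.Primes, ℓ ∉ Smin.subtype Nat.Prime →
      ∀ τ ∈ (padicPlace (ℓ : ℕ)).inertiaSubgroupIn ℚ, r τ = 1 := fun ℓ hℓ τ hτ => by
    have hℓ' : (ℓ : ℕ) ∉ Smin := fun h => hℓ (Finset.mem_subtype.2 h)
    have hℓp : (ℓ : ℕ) ≠ p := fun h => hℓ' (h ▸ hpSmin)
    have hu : ρbar.IsUnramifiedAt ℓ := by
      by_contra h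
      exact hℓ' ((hmin ℓ ℓ.2 hℓp).2 h)
    show LinearMap.toMatrixAlgEquiv bb (ρbar.ρ τ) = 1
    rw [hu _ (Local.padicPlace_liesOverPrime (ℓ : ℕ)) τ hτ, map_one]
  obtain ⟨R, hR⟩ := exists_primes_count htw hrfin hp2 hζ hcyc (Smin.subtype Nat.Prime) hS₀
  refine ⟨R, fun n => ?_⟩
  obtain ⟨q, hinj, hq, hinert, hfrob, hcount⟩ := hR n S
  refine ⟨fun i => (q i : ℕ), fun i j e => hinj (Subtype.ext e),
    fun i => ⟨(q i).2, (hq i).1, (hq i).2.2.2⟩, fun i Q hQ φ hφ => ?_, fun 𝒟 h𝒟 DQ => ?_⟩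
  · obtain ⟨α, β, hαβ, hchar⟩ := hfrob i Q hQ φ hφ
    refine ⟨α, β, hαβ, ?_⟩
    rw [← LinearMap.charpoly_toMatrix (ρbar.ρ φ) bb]
    exact hchar
  obtain ⟨V, hVfin, hVsurj, hV, hVcob⟩ := exists_tangent_classes DQ bb fun A _ _ _ φ hφ hsurj => by
    obtain ⟨⟨h1, h2', h3⟩, h4⟩ := (h𝒟 DQ.ρ).1 DQ.isOfType
    exact (h𝒟 _).2 ⟨⟨CFT.Tangent.DetIsCyclotomic.baseChange _ hφ h1, hbase _ hφ _ hsurj h2',
      fun ℓ hℓ hℓS => CFT.Tangent.IsUnramifiedAt.baseChange _ hφ (h3 ℓ hℓ hℓS)⟩,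
      fun ℓ hℓS hℓ hℓp => CFT.Tangent.IsUnipotentOnInertiaAt.baseChange _ hφ (h4 ℓ hℓS hℓ hℓp)⟩
  refine hVsurj R ?_
  have hcls : ∀ b ∈ V, b ≠ 0 → ∃ (ρ : GaloisRepAdic (DualNumber k))
      (B : Basis (Fin 2) (DualNumber k) ρ.V), (ρ.DetIsCyclotomic p ∧ P ρ ∧
        ∀ ℓ : ℕ, ℓ.Prime → ℓ ∉ Smin ∪ Finset.univ.image (fun i => (q i : ℕ)) →
          ρ.IsUnramifiedAt ℓ) ∧
      (∀ ℓ ∈ Smin, ℓ.Prime → ℓ ≠ p → ρ.IsUnipotentOnInertiaAt ℓ) ∧
      ∀ σ, matOf ρ B σ = (1 + epsM (b σ)) * inlM (r σ) := fun b hb hb0 => by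
    obtain ⟨ρ, B, hD, hB⟩ := (hV b hb).2.2 hb0
    letI := dualAlgebra 𝒪
    exact ⟨ρ, B, ((h𝒟 ρ).1 hD).1, ((h𝒟 ρ).1 hD).2, hB⟩
  have htr : ∀ b ∈ V, ∀ σ, (b σ).trace = 0 := fun b hb σ => by
    by_cases hb0 : b = 0
    · simp [hb0]
    · obtain ⟨ρ, B, hD, -, hB⟩ := hcls b hb hb0
      exact trace_eq_zero_of_det p hD.1 hB σ
  have hcoc : ∀ b ∈ V, IsAdCocycle r b := fun b hb => (hV b hb).1
  have hlev : ∀ b ∈ V, IsFiniteLevel b := fun b hb => (hV b hb).2.1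
  have hspace : IsClassSpace r (Smin.subtype Nat.Prime) q V :=
    ⟨hcoc, hlev, htr, hVcob, fun ℓ hℓ hℓq b hb τ hτ => by
      by_cases hb0 : b = 0
      · simp [hb0]
      obtain ⟨ρ, B, hD, -, hB⟩ := hcls b hb hb0
      refine (eq_of_unramified hB (hD.2.2 ℓ ℓ.2 (fun h => ?_) _
        (Local.padicPlace_liesOverPrime (ℓ : ℕ)) τ hτ)).2
      rcases Finset.mem_union.1 h with h' | h'
      · exact hℓ (Finset.mem_subtype.2 h')
      · obtain ⟨i, -, hi⟩ := Finset.mem_image.1 h'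
        exact hℓq i (Subtype.ext hi.symm)⟩
  let p' : Nat.Primes := ⟨p, Fact.out⟩
  have h := hcount V hspace (fun ℓ => if ℓ = p' then 1 else 0) fun ℓ hℓ => by
    by_cases hℓp : ℓ = p'
    · subst hℓp
      rw [if_pos rfl]
      exact_mod_cast hbound r hrfin hcyc htw.split V hcoc hlev htr fun b hb hb0 => by
        obtain ⟨ρ, B, hD, -, hB⟩ := hcls b hb hb0
        exact ⟨ρ, B, hD.2.1, hD.1, hB⟩
    · rw [if_neg hℓp, add_zero]
      have hne : (ℓ : ℕ) ≠ p := fun h => hℓp (Subtype.ext h)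
      have hℓS : (ℓ : ℕ) ∈ Smin := Finset.mem_subtype.1 hℓ
      by_cases hV0 : V = ⊥
      · subst hV0
        rw [finrank_bot]
        positivity
      obtain ⟨b₀, hb₀, hb₀0⟩ := Submodule.exists_mem_ne_zero_of_ne_bot hV0
      obtain ⟨ρ₀, B₀, -, hU₀, hB₀⟩ := hcls b₀ hb₀ hb₀0
      have hu : ∀ τ ∈ (padicPlace (ℓ : ℕ)).inertiaSubgroupIn ℚ,
          (r τ).trace = 2 ∧ (r τ).det = 1 := fun τ hτ => by
        have e := eq_of_unipotent hB₀
          (hU₀ ℓ hℓS ℓ.2 hne _ (Local.padicPlace_liesOverPrime (ℓ : ℕ)) τ hτ)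
        exact ⟨e.1, e.2.1⟩
      have hb' : ∀ b ∈ V, ∀ τ ∈ (padicPlace (ℓ : ℕ)).inertiaSubgroupIn ℚ,
          (b τ * r τ).trace = 0 := fun b hb τ hτ => by
        by_cases hb0 : b = 0
        · simp [hb0]
        obtain ⟨ρ, B, -, hU, hB⟩ := hcls b hb hb0
        exact (eq_of_unipotent hB
          (hU ℓ hℓS ℓ.2 hne _ (Local.padicPlace_liesOverPrime (ℓ : ℕ)) τ hτ)).2.2
      exact_mod_cast finrank_le_unipotent p h2 hne hrfin V hcoc hlev htr hu
        (exists_inertia_matRes_ne bb ((hmin ℓ ℓ.2 hne).1 hℓS)) hb'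
  rw [Finset.sum_eq_single p' (fun ℓ _ hℓ => if_neg hℓ)
    (fun hp' => absurd (Finset.mem_subtype.2 hpSmin) hp'), if_pos rfl] at h
  exact_mod_cast (add_le_add_iff_right (1 : ℤ)).1 h

end Fermat.Agent.CFT.Wiles
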