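import Fermat.Agent.CFT.Wiles.TUnits
import Mathlib.NumberTheory.NumberField.Units.DirichletTheorem
import Mathlib.NumberTheory.NumberField.InfinitePlace.Ramification
import Mathlib.LinearAlgebra.Dimension.RankNullity
import Mathlib.LinearAlgebra.Dimension.Torsion.Finite

/-!
# The regular lattice of the infinite places inside the units

A unit which is small away from one place gives, up to finite index, the units as the functions on
the infinite places modulo constants.
-/

set_option autoImplicit false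
set_option linter.unusedSectionVars false
set_option linter.style.haveILetI false

noncomputable section

namespace Fermat.Agent.CFT.Wiles

open ExtCitation Fermat.Agent.Arith Fermat.Agent.CFT.Local Fermat.Agent.CFT.Idele
open Fermat.Agent.CFT.Duality Fermat.Agent.CFT.Euler
open NumberField
open scoped NumberField

local instance factPrimeMink (q : Nat.Primes) : Fact (q : ℕ).Prime := ⟨q.2⟩

variable {K : IntermediateField ℚ QBar} [FiniteDimensional ℚ K] [Normal ℚ K]

local instance numberFieldMink : NumberField K := {}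

/-- The logarithm of an element at an infinite place. -/
def logAt (v : InfinitePlace K) : Additive Kˣ →+ ℝ :=
  AddMonoidHom.mk' (fun x => Real.log (v (x.toMul : K))) fun _ _ => by
    rw [toMul_add, Units.val_mul, map_mul, Real.log_mul
      (by simp) (by simp)]

theorem logAt_smul (v : InfinitePlace K) (σ : K ≃ₐ[ℚ] K) (x : Additive Kˣ) :
    logAt v (σ • x) = logAt (σ⁻¹ • v) x := by
  show Real.log (v _) = Real.log ((σ⁻¹ • v) _)
  rw [InfinitePlace.smul_apply]
  rfl

theorem exists_smul_place (v w : InfinitePlace K) : ∃ σ : K ≃ₐ[ℚ] K, σ • v = w := by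
  haveI : IsGalois ℚ K := ⟨⟩
  exact InfinitePlace.exists_smul_eq_of_comap_eq (Subsingleton.elim _ _)

/-- An element of finite index in the units. -/
def ofInt (K : IntermediateField ℚ QBar) : Additive (𝓞 K)ˣ →+ Additive Kˣ :=
  MonoidHom.toAdditive (Units.map (algebraMap (𝓞 K) K).toMonoidHom)

theorem ofInt_injective : Function.Injective (ofInt K) := fun _x _y h =>
  Additive.toMul.injective (Units.ext (NumberField.RingOfIntegers.coe_injective
    (congrArg Units.val (congrArg Additive.toMul h))))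

theorem sum_logAt_ofInt (x : Additive (𝓞 K)ˣ) :
    ∑ v : InfinitePlace K, (v.mult : ℝ) * logAt v (ofInt K x) = 0 := by
  haveI : NumberField K := {}
  exact NumberField.Units.sum_mult_mul_log x.toMul

/-- A fixed unit is killed by two. -/
theorem two_nsmul_eq_zero_of_fixed (x : Additive (𝓞 K)ˣ)
    (hfix : ∀ σ : K ≃ₐ[ℚ] K, σ • ofInt K x = ofInt K x) :
    (∀ v, logAt v (ofInt K x) = 0) ∧ 2 • ofInt K x = 0 := by
  haveI : NumberField K := {}
  haveI : IsGalois ℚ K := ⟨⟩
  obtain ⟨w⟩ := (inferInstance : Nonempty (InfinitePlace K))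
  have hc : ∀ v, logAt v (ofInt K x) = logAt w (ofInt K x) := fun v => by
    obtain ⟨σ, rfl⟩ := exists_smul_place w v
    conv_lhs => rw [← hfix σ]
    rw [logAt_smul, inv_smul_smul]
  have hsum := sum_logAt_ofInt x
  simp only [hc, ← Finset.sum_mul] at hsum
  have h0 : logAt w (ofInt K x) = 0 := by
    refine (mul_eq_zero.1 hsum).resolve_left (ne_of_gt ?_)
    exact Finset.sum_pos (fun v _ => by exact_mod_cast InfinitePlace.mult_pos)
      Finset.univ_nonempty
  refine ⟨fun v => (hc v).trans h0, ?_⟩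
  obtain ⟨r, hr⟩ := IntermediateField.mem_bot.1 ((IsGalois.mem_bot_iff_fixed
    ((ofInt K x).toMul : K)).2 fun σ => congrArg (fun z : Additive Kˣ => (z.toMul : K)) (hfix σ))
  have h1 : w ((ofInt K x).toMul : K) = 1 := by
    rcases Real.log_eq_zero.1 h0 with h | h | h
    · exact absurd h (by simp)
    · exact h
    · linarith [apply_nonneg w ((ofInt K x).toMul : K)]
  rw [← hr, ← w.norm_embedding_eq, eq_ratCast, map_ratCast, Complex.norm_ratCast] at h1
  refine Additive.toMul.injective (Units.ext ?_)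
  rw [toMul_nsmul, Units.val_pow_eq_pow_val, ← hr, ← map_pow]
  have h2 : r ^ 2 = 1 := by
    have : |r| = 1 := by exact_mod_cast h1
    rw [← sq_abs, this, one_pow]
  rw [h2, map_one]
  rfl

variable (p : ℕ) {ζ : QBar}

/-- The twisted regular lattice mapping into units. -/
def regMap (c : Subgroup (K ≃ₐ[ℚ] K)) (u : Additive Kˣ) :
    CoInd c (TrivZ c) →+ Additive Kˣ :=
  AddMonoidHom.mk' (fun F => ∑ g : K ≃ₐ[ℚ] K, TrivZ.of.symm (CoInd.fn F g⁻¹) • (g • u))
    fun F F' => by
      rw [← Finset.sum_add_distrib]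
      refine Finset.sum_congr rfl fun g _ => ?_
      rw [map_add CoInd.fn, Pi.add_apply, map_add]
      exact add_zsmul _ _ _

theorem regMap_smul (c : Subgroup (K ≃ₐ[ℚ] K)) (u : Additive Kˣ) (g : K ≃ₐ[ℚ] K)
    (F : CoInd c (TrivZ c)) : regMap c u (g • F) = g • regMap c u F := by
  show ∑ h : K ≃ₐ[ℚ] K, _ = g • ∑ h : K ≃ₐ[ℚ] K, _
  rw [Finset.smul_sum]
  refine Fintype.sum_equiv (Equiv.mulLeft g⁻¹) _ _ fun h => ?_
  simp only [Equiv.coe_mulLeft, CoInd.fn_smul, mul_inv_rev, inv_inv]
  rw [smul_comm g (TrivZ.of.symm _), smul_smul, mul_inv_cancel_left]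

theorem regMap_const (c : Subgroup (K ≃ₐ[ℚ] K)) (u : Additive Kˣ) (n : TrivZ (K ≃ₐ[ℚ] K)) :
    regMap c u (constCoInd c n) = TrivZ.of.symm n • ∑ g : K ≃ₐ[ℚ] K, g • u := by
  refine Eq.trans ?_ (map_sum (zsmulAddGroupHom (α := Additive Kˣ) (TrivZ.of.symm n)) _ _).symm
  rfl

/-- The functions on the infinite places. -/
def placesEquiv (w : InfinitePlace K) :
    CoInd (MulAction.stabilizer (K ≃ₐ[ℚ] K) w) (TrivZ (MulAction.stabilizer (K ≃ₐ[ℚ] K) w))
      ≃ₗ[ℤ] (InfinitePlace K → ℤ) :=
  AddEquiv.toIntLinearEquiv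
    { toFun := fun F v => TrivZ.of.symm (CoInd.fn F (exists_smul_place w v).choose⁻¹)
      invFun := fun f => CoInd.mk (fun x => TrivZ.of (f (x⁻¹ • w))) fun h x => by
        show TrivZ.of (f (((h : K ≃ₐ[ℚ] K) * x)⁻¹ • w)) = TrivZ.of (f (x⁻¹ • w))
        rw [mul_inv_rev, mul_smul, MulAction.mem_stabilizer_iff.1 (inv_mem h.2)]
      left_inv := fun F => CoInd.ext fun x => by
        show TrivZ.of (TrivZ.of.symm (CoInd.fn F _)) = CoInd.fn F x
        rw [AddEquiv.apply_symm_apply]
        have hs := (exists_smul_place w (x⁻¹ • w)).choose_spec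
        set g := (exists_smul_place w (x⁻¹ • w)).choose
        have hm : g⁻¹ * x⁻¹ ∈ MulAction.stabilizer (K ≃ₐ[ℚ] K) w := by
          rw [MulAction.mem_stabilizer_iff, mul_smul, ← hs, inv_smul_smul]
        have := CoInd.fn_equi F ⟨_, hm⟩ x
        rwa [TrivZ.smul_eq, show g⁻¹ * x⁻¹ * x = g⁻¹ by group] at this
      right_inv := fun f => funext fun v => by
        show TrivZ.of.symm (TrivZ.of (f ((exists_smul_place w v).choose⁻¹⁻¹ • w))) = f v
        rw [AddEquiv.symm_apply_apply, inv_inv, (exists_smul_place w v).choose_spec]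
      map_add' := fun F F' => funext fun v => by
        rw [map_add CoInd.fn]
        rfl }

theorem finrank_coInd_stabilizer (w : InfinitePlace K) :
    Module.finrank ℤ (CoInd (MulAction.stabilizer (K ≃ₐ[ℚ] K) w)
      (TrivZ (MulAction.stabilizer (K ≃ₐ[ℚ] K) w))) =
      @Fintype.card (InfinitePlace K) (Fintype.ofFinite _) := by
  letI : Fintype (InfinitePlace K) := Fintype.ofFinite _
  rw [(placesEquiv w).finrank_eq, Module.finrank_pi]

/-- A unit whose conjugates give the regular lattice modulo constants. -/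
theorem exists_regular_unit (w : InfinitePlace K) :
    ∃ u : Additive (𝓞 K)ˣ, (regMap (MulAction.stabilizer (K ≃ₐ[ℚ] K) w) (ofInt K u)).ker =
      (constCoInd (MulAction.stabilizer (K ≃ₐ[ℚ] K) w)).range := by
  haveI : NumberField K := {}
  obtain ⟨u₀, hu₀⟩ := NumberField.Units.dirichletUnitTheorem.exists_unit K w
  refine ⟨2 • Additive.ofMul u₀, ?_⟩
  set u := ofInt K (2 • Additive.ofMul u₀) with hu
  have hneg : ∀ v, v ≠ w → logAt v u < 0 := fun v hv => by
    rw [hu, map_nsmul, map_nsmul]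
    exact nsmul_neg (hu₀ v hv) two_ne_zero
  -- the norm of the unit
  have hmap : ∀ (σ : K ≃ₐ[ℚ] K) (x : Additive (𝓞 K)ˣ), ∃ y, ofInt K y = σ • ofInt K x :=
    fun σ x => ⟨Additive.ofMul (Units.map (RingOfIntegers.mapRingHom σ).toMonoidHom x.toMul),
      Additive.toMul.injective (Units.ext rfl)⟩
  choose σu hσu using fun σ : K ≃ₐ[ℚ] K => hmap σ (Additive.ofMul u₀)
  have hN : ∑ g : K ≃ₐ[ℚ] K, g • u = 2 • ofInt K (∑ g, σu g) := by
    rw [map_sum]
    refine Eq.trans ?_ (map_sum (nsmulAddMonoidHom 2) _ _).symm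
    refine Finset.sum_congr rfl fun g _ => ?_
    show g • u = 2 • ofInt K (σu g)
    rw [hσu, hu, map_nsmul]
    exact map_nsmul (DistribSMul.toAddMonoidHom (Additive Kˣ) g) 2 _
  obtain ⟨hlog, htwo⟩ := two_nsmul_eq_zero_of_fixed (K := K) (∑ g, σu g) fun τ => by
    rw [map_sum, Finset.smul_sum]
    refine Fintype.sum_equiv (Equiv.mulLeft τ) _ _ fun g => ?_
    rw [Equiv.coe_mulLeft, hσu, hσu, smul_smul]
  rw [htwo] at hN
  ext F
  constructor
  · intro hF
    -- the largest value
    obtain ⟨g₁, -, hmax⟩ := Finset.exists_max_image Finset.univ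
      (fun g : K ≃ₐ[ℚ] K => TrivZ.of.symm (CoInd.fn F g)) Finset.univ_nonempty
    set M := TrivZ.of.symm (CoInd.fn F g₁) with hM
    refine ⟨TrivZ.of M, CoInd.ext fun x => ?_⟩
    rw [fn_constCoInd, AddEquiv.symm_apply_apply]
    set v := g₁⁻¹ • w
    have hv : ∑ g : K ≃ₐ[ℚ] K,
        (((TrivZ.of.symm (CoInd.fn F g⁻¹) - M : ℤ)) : ℝ) * logAt (g⁻¹ • v) u = 0 := by
      simp only [Int.cast_sub, sub_mul, Finset.sum_sub_distrib, ← Finset.mul_sum, ← logAt_smul]
      rw [← map_sum, hN, map_zero, mul_zero, sub_zero]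
      have h := congrArg (logAt v) (show regMap _ u F = 0 from hF)
      rw [map_zero] at h
      refine (Eq.trans ?_ h)
      show _ = logAt v (∑ g : K ≃ₐ[ℚ] K, TrivZ.of.symm (CoInd.fn F g⁻¹) • (g • u))
      rw [map_sum]
      simp [zsmul_eq_mul]
    have hnn : ∀ g ∈ (Finset.univ : Finset (K ≃ₐ[ℚ] K)), 0 ≤
        (((TrivZ.of.symm (CoInd.fn F g⁻¹) - M : ℤ)) : ℝ) * logAt (g⁻¹ • v) u := fun g _ => by
      by_cases hg : g⁻¹ • v = w
      · have hm : g⁻¹ * g₁⁻¹ ∈ MulAction.stabilizer (K ≃ₐ[ℚ] K) w := by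
          rw [MulAction.mem_stabilizer_iff, mul_smul]; exact hg
        have := CoInd.fn_equi F ⟨_, hm⟩ g₁
        rw [TrivZ.smul_eq, inv_mul_cancel_right] at this
        simp [hM, this]
      · refine mul_nonneg_of_nonpos_of_nonpos ?_ (hneg _ hg).le
        exact_mod_cast sub_nonpos.2 (hmax g⁻¹ (Finset.mem_univ _))
    have hz := (Finset.sum_eq_zero_iff_of_nonneg hnn).1 hv x⁻¹ (Finset.mem_univ _)
    rw [inv_inv] at hz
    refine TrivZ.of.symm.injective ?_
    rw [AddEquiv.symm_apply_apply]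
    by_cases hg : x • v = w
    · have hm : x * g₁⁻¹ ∈ MulAction.stabilizer (K ≃ₐ[ℚ] K) w := by
        rw [MulAction.mem_stabilizer_iff, mul_smul]; exact hg
      have := CoInd.fn_equi F ⟨_, hm⟩ g₁
      rw [TrivZ.smul_eq, inv_mul_cancel_right] at this
      rw [this]
    · have := (mul_eq_zero.1 hz).resolve_right (hneg _ hg).ne
      exact (sub_eq_zero.1 (by exact_mod_cast this : TrivZ.of.symm (CoInd.fn F x) - M = 0)).symm
  · rintro ⟨n, rfl⟩
    show regMap _ u _ = 0
    rw [regMap_const, hN, smul_zero]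

theorem ofInt_mem_unitsL (x : Additive (𝓞 K)ˣ) : (ofInt K x).toMul ∈ unitsL K := by
  rw [unitsL_eq_range]; exact ⟨x.toMul, rfl⟩

theorem isReal_place_rat (v : InfinitePlace ℚ) : v.IsReal :=
  InfinitePlace.isReal_iff.2 (ComplexEmbedding.isReal_iff.2 (Subsingleton.elim _ _))

variable {p} in
theorem isComplex_of_root [hp : Fact p.Prime] (hp2 : p ≠ 2) (hζ : IsPrimitiveRoot ζ p)
    (hζK : ζ ∈ K) (w : InfinitePlace K) : w.IsComplex := by
  classical
  haveI : NumberField K := {}
  have hζ' : IsPrimitiveRoot (⟨ζ, hζK⟩ : K) p :=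
    IsPrimitiveRoot.of_map_of_injective (f := K.val) hζ K.val.injective
  have h0 := InfinitePlace.IsPrimitiveRoot.nrRealPlaces_eq_zero_of_two_lt
    (lt_of_le_of_ne hp.out.two_le (Ne.symm hp2)) hζ'
  rw [← InfinitePlace.not_isReal_iff_isComplex]
  exact fun h => Fintype.card_eq_zero_iff.1 h0 |>.false ⟨w, h⟩

/-- The stabiliser of an infinite place is generated by a conjugation. -/
theorem card_stabilizer_place [hp : Fact p.Prime] (hp2 : p ≠ 2) (hζ : IsPrimitiveRoot ζ p)
    (hζK : ζ ∈ K) (w : InfinitePlace K) :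
    Nat.card (MulAction.stabilizer (K ≃ₐ[ℚ] K) w) = 2 ∧
      ∀ σ ∈ MulAction.stabilizer (K ≃ₐ[ℚ] K) w, σ ≠ 1 →
        σ (⟨ζ, hζK⟩ : K) = (⟨ζ, hζK⟩ : K)⁻¹ := by
  haveI : IsGalois ℚ K := ⟨⟩
  refine ⟨InfinitePlace.not_isUnramified_iff_card_stabilizer_eq_two.1
    (InfinitePlace.not_isUnramified_iff.2 ⟨isComplex_of_root hp2 hζ hζK w, isReal_place_rat _⟩),
    fun σ hσ h1 => ?_⟩
  have hconj : ComplexEmbedding.IsConj w.embedding σ := by
    rw [← InfinitePlace.mk_embedding w] at hσ
    exact ((InfinitePlace.mem_stabilizer_mk_iff _ σ).1 hσ).resolve_left h1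
  apply w.embedding.injective
  have h := hconj.eq (⟨ζ, hζK⟩ : K)
  rw [h, map_inv₀]
  have hpow : w.embedding (⟨ζ, hζK⟩ : K) ^ p = 1 := by
    rw [← map_pow, show (⟨ζ, hζK⟩ : K) ^ p = 1 from Subtype.ext hζ.pow_eq_one, map_one]
  show starRingEnd ℂ _ = _
  rw [← Complex.inv_eq_conj (Complex.norm_eq_one_of_pow_eq_one hpow hp.out.ne_zero)]

/-- A map of full rank has finite coindex. -/
theorem index_range_ne_zero_of_finrank {M N : Type*} [AddCommGroup M] [AddCommGroup N]
    [Module.Finite ℤ M] [Module.Finite ℤ N] (φ : M →ₗ[ℤ] N)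
    (h : Module.finrank ℤ M = Module.finrank ℤ (LinearMap.ker φ) + Module.finrank ℤ N) :
    φ.toAddMonoidHom.range.index ≠ 0 := by
  have h1 := Submodule.finrank_quotient_add_finrank (LinearMap.ker φ)
  rw [φ.quotKerEquivRange.finrank_eq] at h1
  have h2 := Submodule.finrank_quotient_add_finrank (LinearMap.range φ)
  have h3 : Module.finrank ℤ (N ⧸ LinearMap.range φ) = 0 := by omega
  haveI : AddGroup.FG (N ⧸ LinearMap.range φ) :=
    Module.Finite.iff_addGroup_fg.mp inferInstance
  haveI : Finite (N ⧸ LinearMap.range φ) :=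
    AddCommGroup.finite_of_fg_isAddTorsion _ fun x => by
      obtain ⟨⟨n, hn⟩, hx⟩ := (Module.finrank_eq_zero_iff_isTorsion.1 h3) (x := x)
      exact isOfFinAddOrder_iff_zsmul_eq_zero.2 ⟨n, mem_nonZeroDivisors_iff_ne_zero.1 hn, hx⟩
  rw [← LinearMap.range_toAddSubgroup]
  exact @AddSubgroup.index_ne_zero_of_finite _ _ _ ‹Finite (N ⧸ LinearMap.range φ)›

theorem finrank_range_constCoInd (c : Subgroup (K ≃ₐ[ℚ] K)) :
    Module.finrank ℤ (LinearMap.range (constCoInd c).toIntLinearMap) = 1 := by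
  rw [LinearMap.finrank_range_of_inj (constCoInd_injective c),
    ← (TrivZ.of (G := K ≃ₐ[ℚ] K)).toIntLinearEquiv.finrank_eq, Module.finrank_self]

theorem finrank_units_add_one :
    Module.finrank ℤ (Additive (𝓞 K)ˣ) + 1 =
      @Fintype.card (InfinitePlace K) (Fintype.ofFinite _) := by
  rw [NumberField.Units.finrank_eq, NumberField.Units.rank]
  have h : 0 < @Fintype.card (InfinitePlace K) (Fintype.ofFinite _) := by
    letI : Fintype (InfinitePlace K) := Fintype.ofFinite _
    exact Fintype.card_pos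
  simp only [Fintype.card_eq_nat_card] at h ⊢
  exact Nat.sub_add_cancel h

variable (K) in
/-- The units of the ring of integers inside the units outside `T`. -/
def intT (T : Finset Nat.Primes) : Additive (𝓞 K)ˣ →+ (ordT K T).ker :=
  ((ofInt K).codRestrict (tUnits K T)
    (fun x => mem_tUnits_of_mem_unitsL (ofInt_mem_unitsL x))).codRestrict _
    fun x => funext fun q => CoInd.ext fun σ => by
      show TrivZ.of (G := decomp K q.1)
        (ordZ (E K q.1) (val (prinL K (ofInt K x).toMul) q.1 σ)) = 0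
      rw [(ordZ_eq_zero_iff _).2 (mem_unitIdl.1 (ofInt_mem_unitsL x) q.1 σ), map_zero]

theorem intT_bijective (T : Finset Nat.Primes) : Function.Bijective (intT K T) := by
  refine ⟨fun x y h => ofInt_injective (congrArg Subtype.val (congrArg Subtype.val h)), fun y => ?_⟩
  have h := mem_unitsL_of_ordT (x := y.1) y.2
  rw [unitsL_eq_range] at h
  obtain ⟨z, hz⟩ := h
  exact ⟨Additive.ofMul z, Subtype.ext (Subtype.ext (congrArg Additive.ofMul hz))⟩

instance intUnits_finite : Module.Finite ℤ (Additive (𝓞 K)ˣ) :=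
  Module.Finite.iff_addGroup_fg.mpr (AddGroup.fg_iff_addMonoid_fg.mpr inferInstance)

/-- The units outside `T` have the character of the places. -/
theorem unitChar_tUnits [hp : Fact p.Prime]
    (w : InfinitePlace K) (T : Finset Nat.Primes)
    [∀ i : {q // q ∈ T}, Fintype (decomp K i.1)]
    [Fintype (MulAction.stabilizer (K ≃ₐ[ℚ] K) w)] :
    UnitChar p (fun i : {q // q ∈ T} => decomp K i.1) (MulAction.stabilizer (K ≃ₐ[ℚ] K) w)
      (tUnits K T) := by
  classical
  haveI : NumberField K := {}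
  obtain ⟨u, hker⟩ := exists_regular_unit w
  set c := MulAction.stabilizer (K ≃ₐ[ℚ] K) w
  have hmem : ∀ F, (regMap c (ofInt K u) F).toMul ∈ unitsL K := fun F => by
    show (∑ g : K ≃ₐ[ℚ] K, _ • (g • ofInt K u)).toMul ∈ unitsL K
    rw [toMul_sum]
    exact Subgroup.prod_mem _ fun g _ =>
      zpow_mem (smul_mem_unitsL g (ofInt_mem_unitsL u)) _
  let Φ : CoInd c (TrivZ c) →+ tUnits K T :=
    (regMap c (ofInt K u)).codRestrict _ fun F => mem_tUnits_of_mem_unitsL (hmem F)
  have hord : ∀ F, ordT K T (Φ F) = 0 := fun F => funext fun q => CoInd.ext fun σ => by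
    show TrivZ.of (G := decomp K q.1)
      (ordZ (E K q.1) (val (prinL K (regMap c (ofInt K u) F).toMul) q.1 σ)) = 0
    rw [(ordZ_eq_zero_iff _).2 (mem_unitIdl.1 (hmem F) q.1 σ), map_zero]
  have hΦker : Φ.ker = (constCoInd c).range := by
    rw [← hker]
    exact AddSubgroup.ext fun F => Subtype.ext_iff
  refine unitChar_of_maps (fun i : {q // q ∈ T} => decomp K i.1) c modPFinite_tUnits (ordT K T)
    ordT_smul index_ordT_range Φ (fun g F => Subtype.ext (regMap_smul c _ g F)) hΦker hord ?_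
  -- the ranks
  let eι : Additive (𝓞 K)ˣ ≃ₗ[ℤ] (ordT K T).ker :=
    (AddEquiv.ofBijective (intT K T) (intT_bijective T)).toIntLinearEquiv
  haveI : Module.Finite ℤ (ordT K T).ker := Module.Finite.equiv eι
  haveI := coInd_finite (K := K) c
  let φ : CoInd c (TrivZ c) →ₗ[ℤ] (ordT K T).ker :=
    (Φ.codRestrict (ordT K T).ker hord).toIntLinearMap
  have e : LinearMap.ker φ = LinearMap.range (constCoInd c).toIntLinearMap := by
    ext F
    show Φ.codRestrict (ordT K T).ker hord F = 0 ↔ F ∈ (constCoInd c).range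
    rw [← hΦker]
    exact Subtype.ext_iff
  have h := index_range_ne_zero_of_finrank φ (by
    rw [e, finrank_range_constCoInd, ← eι.finrank_eq, finrank_coInd_stabilizer w,
      ← finrank_units_add_one, add_comm])
  rw [AddSubgroup.relIndex, show Φ.range.addSubgroupOf (ordT K T).ker =
    φ.toAddMonoidHom.range by
      rw [show φ.toAddMonoidHom = Φ.codRestrict (ordT K T).ker hord from
        AddMonoidHom.ext fun _ => rfl]
      ext x
      exact exists_congr fun F => (Subtype.ext_iff (a1 := Φ.codRestrict (ordT K T).ker hord F)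
        (a2 := x)).symm]
  exact h

end Fermat.Agent.CFT.Wiles
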