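import Fermat.Agent.CFT.LocalClass.Element
import Fermat.Agent.CFT.Euler.ModP
import Fermat.Agent.CFT.Duality.Semilocal
import Fermat.Agent.CFT.Local.PowIndex
import Fermat.Agent.CFT.Local.Fixed

/-!
# Local multiplicative groups as modules over decomposition groups
-/

set_option autoImplicit false
set_option linter.unusedSectionVars false
set_option linter.style.haveILetI false

noncomputable section

namespace Fermat.Agent.CFT

namespace Wiles

open ExtCitation Fermat.Agent.Arith IntermediateField Fermat.Agent.CFT.Local Fermat.Agent.CFT.Idele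
open Fermat.Agent.CFT.Duality Fermat.Agent.CFT.Euler

local instance factPrimeLocalData (q : Nat.Primes) : Fact (q : ℕ).Prime := ⟨q.2⟩

variable (K : IntermediateField ℚ QBar) [FiniteDimensional ℚ K] [Normal ℚ K] (q : Nat.Primes)

/-- The multiplicative group of the completion, additively. -/
def LocMod : Type := Additive (E K q)ˣ

instance locModAddCommGroup : AddCommGroup (LocMod K q) :=
  inferInstanceAs (AddCommGroup (Additive (E K q)ˣ))

/-- The element of a local unit. -/
def LocMod.of : Additive (E K q)ˣ ≃+ LocMod K q := AddEquiv.refl _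

/-- The decomposition group is the local Galois group. -/
def decompEquiv : (E K q ≃ₐ[ℚ_[(q : ℕ)]] E K q) ≃* decomp K q :=
  MonoidHom.ofInjective (toGlobal_injective (q : ℕ) K)

theorem coe_decompEquiv (t : E K q ≃ₐ[ℚ_[(q : ℕ)]] E K q) :
    (decompEquiv K q t : K ≃ₐ[ℚ] K) = toGlobal (q : ℕ) K t := rfl

instance locModAction : DistribMulAction (decomp K q) (LocMod K q) where
  smul d y := LocMod.of K q ((decompEquiv K q).symm d • (LocMod.of K q).symm y)
  one_smul y := by
    show LocMod.of K q ((decompEquiv K q).symm 1 • _) = y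
    rw [map_one, one_smul]
    exact (LocMod.of K q).apply_symm_apply y
  mul_smul a b y := by
    show LocMod.of K q ((decompEquiv K q).symm (a * b) • _) = _
    rw [map_mul, mul_smul]
    rfl
  smul_zero d := congrArg (LocMod.of K q) (smul_zero _)
  smul_add d x y := congrArg (LocMod.of K q) (smul_add _ _ _)

variable {K q}

theorem smul_of (d : decomp K q) (y : Additive (E K q)ˣ) :
    d • LocMod.of K q y = LocMod.of K q ((decompEquiv K q).symm d • y) := rfl

variable (K q)

/-- The local class formation on the decomposition group. -/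
theorem exists_locClassFormation (p : ℕ) [Fact p.Prime] [Fintype (decomp K q)] :
    ∃ u : NormCocycle (decomp K q) (LocMod K q), IsClassFormation p u := by
  obtain ⟨u, hu⟩ := LocalClass.exists_classFormation (E K q) p
  letI : DistribMulAction (E K q ≃ₐ[ℚ_[(q : ℕ)]] E K q) (LocMod K q) :=
    inferInstanceAs (DistribMulAction _ (Additive (E K q)ˣ))
  let u' : NormCocycle (E K q ≃ₐ[ℚ_[(q : ℕ)]] E K q) (LocMod K q) := u
  exact ⟨pullCocycle (decompEquiv K q).symm.toMonoidHom (fun _ _ => rfl) u',
    isClassFormation_pullCocycle (decompEquiv K q).symm.toMonoidHom (fun _ _ => rfl)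
      (decompEquiv K q).symm.injective (show IsClassFormation p u' from hu)⟩

variable {p : ℕ} [hp : Fact p.Prime]

theorem finite_ker_pow : Finite (powMonoidHom p : (E K q)ˣ →* (E K q)ˣ).ker := by
  haveI : NeZero p := ⟨hp.out.ne_zero⟩
  exact Finite.of_injective (fun x => (⟨x.1, x.2⟩ : rootsOfUnity p (E K q)))
    fun x y h => Subtype.ext (congrArg (fun z : rootsOfUnity p (E K q) => (z : (E K q)ˣ)) h)

/-- The local groups have finite torsion and quotient by `p`. -/
theorem modPFinite_locMod (hp2 : p ≠ 2) : ModPFinite p (LocMod K q) := by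
  refine ModPFinite.congr (LocMod.of K q) ⟨?_, ?_⟩
  · haveI := finite_ker_pow K q (p := p)
    exact Finite.of_injective
      (fun x => (⟨x.1.toMul, congrArg Additive.toMul x.2⟩ :
        (powMonoidHom p : (E K q)ˣ →* (E K q)ˣ).ker))
      fun x y h => Subtype.ext (Additive.toMul.injective (congrArg Subtype.val h))
  · haveI := finite_ker_pow K q (p := p)
    show (powMonoidHom p : (E K q)ˣ →* (E K q)ˣ).range.index ≠ 0
    rw [index_range_pow (E := E K q) hp2]
    refine mul_ne_zero (mul_ne_zero hp.out.ne_zero Nat.card_pos.ne') ?_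
    split_ifs
    · exact pow_ne_zero _ hp.out.ne_zero
    · exact one_ne_zero

end Wiles

end Fermat.Agent.CFT
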