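import Fermat.Agent.CFT.Coh.H2

/-!
# Class formations modulo a cohomologically trivial submodule

If `0 → W → C → D → 0` is equivariant, `W` has trivial `H¹` and surjective norms at all subgroups,
and `C` has a fundamental class, then its image is a fundamental class of `D`.
-/

set_option autoImplicit false
set_option linter.unusedSectionVars false
set_option linter.style.haveILetI false

noncomputable section

namespace Fermat.Agent.CFT

open groupCohomology

variable {p : ℕ} [hp : Fact p.Prime] {G : Type*} [Group G] [Fintype G]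

section Trivial

variable {W : Type*} [AddCommGroup W] [DistribMulAction G W]
  (h1 : ∀ H : Subgroup G, IsPGroup p H → H1Zero H W)
  (hN : ∀ (H : Subgroup G) [Fintype H], IsPGroup p H → NormSurj H W)

/-- The sum over a `p`-group, through a step. -/
theorem IsStep.normSum_eq {H K : Subgroup G} {g : G} (hs : IsStep p H K g) [Fintype H]
    [Fintype K] (w : W) : normSum H W w = stepNorm p g (normSum K W w) := by
  classical
  obtain ⟨χ, hχ, hker, hg⟩ := hs.exists_char
  let e : χ.ker ≃ K :=
    (Equiv.setCongr (congrArg _ hker)).trans (Subgroup.subgroupOfEquivOfLe hs.le).toEquiv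
  rw [normSum, ← (Equiv.ofBijective _ (bijective_pow_mul χ hg)).sum_comp, Fintype.sum_prod_type,
    stepNorm, ← Fin.sum_univ_eq_sum_range fun i => g ^ i • normSum K W w]
  refine Finset.sum_congr rfl fun i _ => ?_
  rw [normSum, Finset.smul_sum, ← e.sum_comp]
  exact Finset.sum_congr rfl fun k _ => mul_smul (g ^ (i : ℕ)) ((k : H) : G) w

include hN in
/-- Fixed elements of a step are norms of fixed elements. -/
theorem IsStep.exists_stepNorm_eq {H K : Subgroup G} {g : G} (hs : IsStep p H K g) (w : W)
    (hw : ∀ h ∈ H, h • w = w) :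
    ∃ y : W, (∀ k ∈ K, k • y = y) ∧ stepNorm p g y = w := by
  classical
  haveI : Fintype H := Fintype.ofFinite H
  haveI : Fintype K := Fintype.ofFinite K
  obtain ⟨z, hz⟩ := hN H hs.isPGroup w fun h => hw h h.2
  exact ⟨normSum K W z, fun k hk => smul_normSum (⟨k, hk⟩ : K) z, by rw [← hs.normSum_eq, hz]⟩

include h1 hN in
/-- Trivial `H¹` and surjective norms at `p`-subgroups give trivial `H²`. -/
theorem h2Zero_of_normSurj : ∀ H : Subgroup G, IsPGroup p H → H2Zero H W := by
  suffices key : ∀ (n : ℕ) (H : Subgroup G), Nat.card H = n → IsPGroup p H → H2Zero H W from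
    fun H hH => key _ H rfl hH
  intro n
  induction n using Nat.strong_induction_on with
  | _ n ih =>
  intro H hn hH c hc
  rcases subsingleton_or_nontrivial H with hs | hs
  · refine ⟨fun _ => c (1, 1), fun a b => ?_⟩
    rw [Subsingleton.elim a 1, Subsingleton.elim b 1, one_smul, mul_one, sub_self, zero_add]
  obtain ⟨K, g, hs⟩ := exists_isStep hH
  obtain ⟨χ, hχ, hker, hg⟩ := hs.exists_char
  have hK : H2Zero K W := ih _ (by
    rw [← hn, hs.card_eq]
    exact lt_mul_left Nat.card_pos hp.out.one_lt) K rfl hs.isPGroup_left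
  obtain ⟨x, hx, hcx⟩ := exists_carry_congr hs (h1 K hs.isPGroup_left) χ hχ hker hg c hc
    (hK _ fun a b d => hc ⟨a.1, hs.le a.2⟩ ⟨b.1, hs.le b.2⟩ ⟨d.1, hs.le d.2⟩)
  obtain ⟨y, hy, hyx⟩ := hs.exists_stepNorm_eq hN x hx
  have h := carry_stepNorm_mem hs χ hker hg y hy
  rw [hyx] at h
  have h' := add_mem hcx h
  rwa [sub_add_cancel] at h'

end Trivial

variable {W C D : Type*} [AddCommGroup W] [DistribMulAction G W] [AddCommGroup C]
  [DistribMulAction G C] [AddCommGroup D] [DistribMulAction G D]

/-- The image of a normalised cocycle. -/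
def NormCocycle.map (u : NormCocycle G C) (q : C →+ D) (hq : ∀ (g : G) (x : C), q (g • x) = g • q x) :
    NormCocycle G D where
  toFun := fun x => q (u.toFun x)
  isCocycle g h j := by
    show q _ + q _ = g • q _ + q _
    rw [← hq, ← map_add, ← map_add, u.isCocycle g h j]
  one_left g := by
    show q _ = 0
    rw [u.one_left, map_zero]

variable (i : W →+ C) (q : C →+ D) (hi : Function.Injective i)
  (hig : ∀ (g : G) (x : W), i (g • x) = g • i x) (hqg : ∀ (g : G) (x : C), q (g • x) = g • q x)
  (hq : Function.Surjective q) (hex : ∀ y, q y = 0 → ∃ x, i x = y) (hqi : ∀ x, q (i x) = 0)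
  (h1 : ∀ H : Subgroup G, IsPGroup p H → H1Zero H W)
  (hN : ∀ (H : Subgroup G) [Fintype H], IsPGroup p H → NormSurj H W)

include hi hig hqg hq hex hqi h1 in
/-- Invariants lift. -/
theorem exists_fixed_lift_quotient (K : Subgroup G) (hK : IsPGroup p K) (a : D)
    (ha : ∀ k ∈ K, k • a = a) : ∃ x : C, q x = a ∧ ∀ k ∈ K, k • x = x := by
  obtain ⟨x, rfl⟩ := hq a
  have h : ∀ k : K, ∃ w, i w = (k : G) • x - x := fun k =>
    hex _ (by rw [map_sub, hqg, ha k k.2, sub_self])
  choose c hc using h
  obtain ⟨y, hy⟩ := h1 K hK c fun a b => hi (by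
    simp only [map_add, Subgroup.smul_def, hig, hc, Subgroup.coe_mul, mul_smul, smul_sub]
    abel)
  refine ⟨x - i y, ?_, fun k hk => ?_⟩
  · rw [map_sub, hqi, sub_zero]
  · have e := congrArg i (hy ⟨k, hk⟩)
    simp only [map_sub, Subgroup.smul_def, hig, hc] at e
    rw [smul_sub, ← sub_eq_zero]
    rw [← sub_eq_zero] at e
    rw [← neg_eq_zero, ← e]
    abel

include hi hig hqg hq hex hqi h1 hN in
/-- A class formation modulo a cohomologically trivial submodule. -/
theorem IsClassFormation.quotient (hA : StepAxioms p G C) {u : NormCocycle G C}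
    (hu : IsClassFormation p u) :
    StepAxioms p G D ∧ IsClassFormation p (u.map q hqg) := by
  have hstep : StepAxioms p G D := by
    refine ⟨fun H K g hs a ha hNa => ?_, fun H K g hs => ?_⟩
    · obtain ⟨x, rfl, hx⟩ :=
        exists_fixed_lift_quotient i q hi hig hqg hq hex hqi h1 K hs.isPGroup_left a ha
      have hqN : ∀ x : C, q (stepNorm p g x) = stepNorm p g (q x) := fun x => by
        simp only [stepNorm, map_sum, hqg]
      obtain ⟨w, hw⟩ := hex (stepNorm p g x) (by rw [hqN]; exact hNa)
      have hfixN : ∀ h ∈ H, h • stepNorm p g x = stepNorm p g x := fun h hh => by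
        obtain ⟨χ, -, hker, hg⟩ := hs.exists_char
        have hg' : g • stepNorm p g x = stepNorm p g x := by
          simp only [stepNorm, Finset.smul_sum, smul_smul, ← pow_succ']
          have h1 := Finset.sum_range_succ' (fun j => g ^ j • x) p
          rw [Finset.sum_range_succ, hx _ hs.pow_mem, pow_zero, one_smul] at h1
          exact (add_right_cancel h1).symm
        refine Eq.trans ?_ ((MulAction.stabilizer G (stepNorm p g x)).pow_mem hg'
          (Multiplicative.toAdd (χ ⟨h, hh⟩)).val)
        simp only [stepNorm, Finset.smul_sum]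
        exact Finset.sum_congr rfl fun j _ => hs.smul_pow_smul χ hker hg hx ⟨h, hh⟩ j
      obtain ⟨y, hy, hyw⟩ := hs.exists_stepNorm_eq hN w fun h hh => hi (by
        rw [hig, hw, hfixN h hh])
      obtain ⟨b, hb, hgb⟩ := hA.h1 H K g hs (x - i y) (fun k hk => by
        rw [smul_sub, hx k hk, ← hig, hy k hk]) (by
        have e : stepNorm p g (i y) = i (stepNorm p g y) := by
          simp only [stepNorm, map_sum, hig]
        simp only [stepNorm] at e ⊢
        simp only [smul_sub, Finset.sum_sub_distrib]
        rw [e]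
        change stepNorm p g x - i (stepNorm p g y) = 0
        rw [hyw, hw, sub_self])
      exact ⟨q b, fun k hk => by rw [← hqg, hb k hk],
        by rw [← hqg, ← map_sub, hgb, map_sub, hqi, sub_zero]⟩
    · obtain ⟨x₀, hx₀, hgen⟩ := hA.index_le H K g hs
      refine ⟨q x₀, fun h hh => by rw [← hqg, hx₀ h hh], fun a ha => ?_⟩
      obtain ⟨x, rfl, hx⟩ :=
        exists_fixed_lift_quotient i q hi hig hqg hq hex hqi h1 H hs.isPGroup a ha
      obtain ⟨m, b, hb, rfl⟩ := hgen x hx
      exact ⟨m, q b, fun k hk => by rw [← hqg, hb k hk],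
        by simp only [map_add, map_zsmul, stepNorm, map_sum, hqg]⟩
  refine ⟨hstep, hstep.isClassFormation _ fun P k hk => ?_⟩
  obtain ⟨b, hb⟩ := hk
  choose b' hb' using fun x => hq (b x)
  have hw : ∀ gh : ↥(P : Subgroup G) × ↥(P : Subgroup G), ∃ w,
      i w = k • u.toFun ((gh.1 : G), (gh.2 : G)) - dOne b' gh := fun gh => hex _ (by
    have e := hb gh.1 gh.2
    simp only [dOne, map_sub, map_add, map_zsmul, Subgroup.smul_def, hqg, hb'] at e ⊢
    rw [e]
    exact sub_self _)
  choose w hwc using hw
  have huP : IsCocycle₂ fun gh : ↥(P : Subgroup G) × ↥(P : Subgroup G) =>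
      k • u.toFun ((gh.1 : G), (gh.2 : G)) := fun a b d => by
    have e := isCocycle₂_zsmul (c := fun gh : ↥(P : Subgroup G) × ↥(P : Subgroup G) =>
      u.toFun ((gh.1 : G), (gh.2 : G))) (fun a b d => u.isCocycle (a : G) (b : G) (d : G)) k a b d
    exact e
  obtain ⟨z, hz⟩ := h2Zero_of_normSurj h1 hN _ P.isPGroup' w fun a b d => hi (by
    rw [map_add, map_add, Subgroup.smul_def, hig, hwc, hwc, hwc, hwc]
    exact isCocycle₂_sub huP (isCocycle₂_dOne b') a b d)
  refine hu.order _ P.isPGroup' k ⟨fun x => b' x + i (z x), fun g h => ?_⟩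
  have e := congrArg i (hz g h)
  simp only [map_add, map_sub, Subgroup.smul_def, hig, hwc, dOne] at e
  rw [← sub_eq_zero]
  rw [← sub_eq_zero] at e
  rw [← e]
  simp only [smul_add, Subgroup.smul_def]
  abel

end Fermat.Agent.CFT
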