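import Fermat.Agent.CFT.Wiles.TUnits
import Fermat.Agent.CFT.Wiles.LocalData
import Fermat.Agent.CFT.Wiles.Quotient
import Fermat.Agent.CFT.Duality.Units
import Fermat.Agent.CFT.Idele.SecondIneq

/-!
# The sequence of a finite set of primes generating the classes

`U → ∏ local groups over T → classes modulo unit families outside T`.
-/

set_option autoImplicit false
set_option linter.unusedSectionVars false
set_option linter.style.haveILetI false

noncomputable section

namespace Fermat.Agent.CFT.Wiles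

open ExtCitation Fermat.Agent.Arith IntermediateField Fermat.Agent.CFT.Local Fermat.Agent.CFT.Idele
open Fermat.Agent.CFT.Duality Fermat.Agent.CFT.Euler

local instance factPrimeSequence (q : Nat.Primes) : Fact (q : ℕ).Prime := ⟨q.2⟩

variable (K : IntermediateField ℚ QBar) [FiniteDimensional ℚ K] [Normal ℚ K]
  (T : Finset Nat.Primes)

/-- Every idele is a principal one times a unit outside `T`. -/
def GenClasses : Prop :=
  ∀ f : J K, ∃ a : Additive Kˣ, ∀ q ∉ T, ∀ σ, val (f + diag K a).toMul q σ ∈ unitGroup (E K q)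

/-- The unit families outside `T` inside the classes. -/
def offClasses : AddSubgroup (C K) := (unitsOff K (T : Set Nat.Primes)).map (proj K)

theorem isStable_offClasses : IsStable (K ≃ₐ[ℚ] K) (offClasses K T) := by
  rintro σ _ ⟨w, hw, rfl⟩
  exact ⟨σ • w, smul_mem_unitsOff σ hw, proj_smul K σ w⟩

/-- The classes modulo unit families outside `T`. -/
def DT : Type := C K ⧸ offClasses K T

instance dtAddCommGroup : AddCommGroup (DT K T) :=
  inferInstanceAs (AddCommGroup (C K ⧸ offClasses K T))

instance dtAction : DistribMulAction (K ≃ₐ[ℚ] K) (DT K T) :=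
  quotAction (isStable_offClasses K T)

/-- The projection of the classes. -/
def toDT : C K →+ DT K T := QuotientAddGroup.mk' (offClasses K T)

theorem toDT_smul (σ : K ≃ₐ[ℚ] K) (x : C K) : toDT K T (σ • x) = σ • toDT K T x := rfl

theorem toDT_surjective : Function.Surjective (toDT K T) := QuotientAddGroup.mk'_surjective _

/-- The product of the local groups over `T`. -/
abbrev Mid : Type := ∀ i : {q // q ∈ T}, CoInd (decomp K i.1) (LocMod K i.1)

variable {K T}

theorem midFam_equi (F : Mid K T) (q : Nat.Primes) (t : E K q ≃ₐ[ℚ_[(q : ℕ)]] E K q)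
    (σ : K ≃ₐ[ℚ] K) (hq : q ∈ T) :
    ((LocMod.of K q).symm (CoInd.fn (F ⟨q, hq⟩) (toGlobal (q : ℕ) K t * σ))).toMul =
      t • ((LocMod.of K q).symm (CoInd.fn (F ⟨q, hq⟩) σ)).toMul := by
  have h := CoInd.fn_equi (F ⟨q, hq⟩) (decompEquiv K q t) σ
  rw [coe_decompEquiv] at h
  rw [h]
  show ((decompEquiv K q).symm (decompEquiv K q t) • (LocMod.of K q).symm _).toMul = _
  rw [MulEquiv.symm_apply_apply]
  rfl

open scoped Classical in
/-- The idele with given values at the places over `T`. -/
def famOf (F : Mid K T) : Family K where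
  toFun q σ := if h : q ∈ T then ((LocMod.of K q).symm (CoInd.fn (F ⟨q, h⟩) σ)).toMul else 1
  equi q t σ := by
    by_cases h : q ∈ T
    · simp only [dif_pos h]
      exact midFam_equi F q t σ h
    · simp only [dif_neg h, smul_one]
  cofinite := ⟨T, fun q hq σ => by rw [dif_neg hq]; exact one_mem _⟩

variable (K T) in
/-- Local values as ideles. -/
def midJ : Mid K T →+ J K :=
  AddMonoidHom.mk' (fun F => Additive.ofMul (famOf F).toIdl) fun F F' => J_ext fun q σ => by
    classical
    rw [val_toMul_add, toMul_ofMul, toMul_ofMul, toMul_ofMul, Family.val_toIdl, Family.val_toIdl,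
      Family.val_toIdl]
    simp only [famOf]
    by_cases h : q ∈ T
    · simp only [dif_pos h, Pi.add_apply, map_add CoInd.fn, map_add, toMul_add]
    · simp only [dif_neg h, mul_one]

theorem val_midJ_mem (F : Mid K T) {q : Nat.Primes} (hq : q ∈ T) (σ : K ≃ₐ[ℚ] K) :
    val (midJ K T F).toMul q σ =
      ((LocMod.of K q).symm (CoInd.fn (F ⟨q, hq⟩) σ)).toMul := by
  classical
  show val (famOf F).toIdl q σ = _
  rw [Family.val_toIdl]
  exact dif_pos hq

theorem val_midJ_notMem (F : Mid K T) {q : Nat.Primes} (hq : q ∉ T) (σ : K ≃ₐ[ℚ] K) :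
    val (midJ K T F).toMul q σ = 1 := by
  classical
  show val (famOf F).toIdl q σ = _
  rw [Family.val_toIdl]
  exact dif_neg hq

theorem midJ_smul (g : K ≃ₐ[ℚ] K) (F : Mid K T) : midJ K T (g • F) = g • midJ K T F :=
  J_ext fun q σ => by
    rw [val_smul_J]
    by_cases hq : q ∈ T
    · rw [val_midJ_mem _ hq, val_midJ_mem _ hq, Pi.smul_apply, CoInd.fn_smul]
    · rw [val_midJ_notMem _ hq, val_midJ_notMem _ hq]

variable (K) in
/-- The value at a place as an element of the local module. -/
def valMod (q : Nat.Primes) (σ : K ≃ₐ[ℚ] K) : J K →+ LocMod K q :=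
  (LocMod.of K q).toAddMonoidHom.comp (MonoidHom.toAdditive (valHom q σ))

theorem valMod_apply (q : Nat.Primes) (σ : K ≃ₐ[ℚ] K) (f : J K) :
    valMod K q σ f = LocMod.of K q (Additive.ofMul (val f.toMul q σ)) := rfl

theorem valMod_equi (q : Nat.Primes) (h : decomp K q) (σ : K ≃ₐ[ℚ] K) (f : J K) :
    valMod K q ((h : K ≃ₐ[ℚ] K) * σ) f = h • valMod K q σ f := by
  obtain ⟨t, rfl⟩ := (decompEquiv K q).surjective h
  rw [valMod_apply, valMod_apply, coe_decompEquiv, val_toGlobal_mul, smul_of,
    MulEquiv.symm_apply_apply]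
  rfl

variable (K) in
/-- The local values at the places over one prime. -/
def jComp (q : Nat.Primes) : J K →+ CoInd (decomp K q) (LocMod K q) :=
  AddMonoidHom.mk' (fun f => CoInd.mk (fun σ => valMod K q σ f) fun h σ => valMod_equi q h σ f)
    fun f g => CoInd.ext fun σ => by
      rw [map_add CoInd.fn, Pi.add_apply]
      exact map_add (valMod K q σ) f g

theorem fn_jComp (q : Nat.Primes) (f : J K) (σ : K ≃ₐ[ℚ] K) :
    CoInd.fn (jComp K q f) σ = LocMod.of K q (Additive.ofMul (val f.toMul q σ)) := rfl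

variable (K T) in
/-- The local values of an idele at the places over `T`. -/
def jMid : J K →+ Mid K T := AddMonoidHom.pi fun i => jComp K i.1

theorem jMid_smul (g : K ≃ₐ[ℚ] K) (f : J K) : jMid K T (g • f) = g • jMid K T f :=
  funext fun i => CoInd.ext fun σ => by
    show CoInd.fn (jComp K i.1 (g • f)) σ = CoInd.fn (g • jComp K i.1 f) σ
    rw [CoInd.fn_smul, fn_jComp, fn_jComp, val_smul_J]

theorem sub_midJ_jMid_mem {f : J K}
    (hf : ∀ q ∉ T, ∀ σ, val f.toMul q σ ∈ unitGroup (E K q)) :
    f - midJ K T (jMid K T f) ∈ unitsOff K (T : Set Nat.Primes) := fun q σ => by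
  rw [val_toMul_sub]
  by_cases hq : q ∈ T
  · rw [val_midJ_mem _ hq, show ((LocMod.of K q).symm (CoInd.fn (jMid K T f ⟨q, hq⟩) σ)).toMul =
      val f.toMul q σ from rfl, div_self']
    exact ⟨one_mem _, fun _ => rfl⟩
  · rw [val_midJ_notMem _ hq, div_one]
    exact ⟨hf q hq σ, fun h => absurd h hq⟩

variable (K T) in
/-- The inclusion of the units outside `T`. -/
def iU : tUnits K T →+ Mid K T := (jMid K T).comp ((diag K).comp (tUnits K T).subtype)

theorem iU_smul (g : K ≃ₐ[ℚ] K) (x : tUnits K T) : iU K T (g • x) = g • iU K T x := by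
  show jMid K T (diag K (g • (x : Additive Kˣ))) = g • jMid K T (diag K (x : Additive Kˣ))
  rw [diag_smul, jMid_smul]

theorem eq_zero_of_val_eq_one {a : Additive Kˣ} {q : Nat.Primes} {σ : K ≃ₐ[ℚ] K}
    (h : val (prinL K a.toMul) q σ = 1) : a = 0 := by
  have h1 := congrArg (fun u : (E K q)ˣ => (u : E K q)) h
  simp only [val_prinL, Units.val_one] at h1
  rw [← map_one (localEmb (q : ℕ) K)] at h1
  have h2 := (localEmb (q : ℕ) K).injective h1
  rw [← map_one σ] at h2
  exact Additive.toMul.injective (Units.ext (σ.injective h2))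

theorem iU_injective (hT : T.Nonempty) : Function.Injective (iU K T) := by
  obtain ⟨q, hq⟩ := hT
  refine (injective_iff_map_eq_zero _).2 fun x hx => Subtype.ext ?_
  refine eq_zero_of_val_eq_one (q := q) (σ := 1) ?_
  have h := congrFun (congrArg CoInd.fn (congrFun hx ⟨q, hq⟩)) 1
  exact congrArg Additive.toMul
    ((LocMod.of K q).injective ((h : CoInd.fn (jComp K q (diag K (x : Additive Kˣ))) 1 = 0).trans
      (map_zero (LocMod.of K q)).symm))

variable (K T) in
/-- The map from the local groups. -/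
def qD : Mid K T →+ DT K T := (toDT K T).comp ((proj K).comp (midJ K T))

theorem qD_smul (g : K ≃ₐ[ℚ] K) (F : Mid K T) : qD K T (g • F) = g • qD K T F := by
  show toDT K T (proj K (midJ K T (g • F))) = g • toDT K T (proj K (midJ K T F))
  rw [midJ_smul, proj_smul, toDT_smul]

theorem toDT_eq_zero_iff {x : C K} :
    toDT K T x = 0 ↔ x ∈ offClasses K T := QuotientAddGroup.eq_zero_iff x

theorem qD_iU (x : tUnits K T) : qD K T (iU K T x) = 0 := by
  refine toDT_eq_zero_iff.2 ⟨_, neg_mem (sub_midJ_jMid_mem (f := diag K (x : Additive Kˣ)) x.2), ?_⟩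
  rw [neg_sub, map_sub, proj_diag, sub_zero]
  rfl

theorem qD_exact (F : Mid K T) (h : qD K T F = 0) : ∃ x, iU K T x = F := by
  obtain ⟨w, hw, e⟩ := toDT_eq_zero_iff.1 h
  obtain ⟨a, ha⟩ := (proj_eq_zero_iff K (x := midJ K T F - w)).1 (by
    rw [map_sub, e]; exact sub_self _)
  have hd : diag K (Additive.ofMul a) = midJ K T F - w := congrArg Additive.ofMul ha
  have hmem : Additive.ofMul a ∈ tUnits K T := fun q hq σ => by
    show val (diag K (Additive.ofMul a)).toMul q σ ∈ _
    rw [hd, val_toMul_sub, val_midJ_notMem F hq, one_div]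
    exact inv_mem (hw q σ).1
  refine ⟨⟨_, hmem⟩, funext fun i => CoInd.ext fun σ => ?_⟩
  show LocMod.of K i.1 (Additive.ofMul (val (diag K (Additive.ofMul a)).toMul i.1 σ)) = _
  rw [hd, val_toMul_sub, (hw i.1 σ).2 i.2, div_one, val_midJ_mem F i.2, ofMul_toMul,
    AddEquiv.apply_symm_apply]

theorem qD_surjective (hgen : GenClasses K T) : Function.Surjective (qD K T) := fun y => by
  obtain ⟨c, rfl⟩ := toDT_surjective K T y
  obtain ⟨f, rfl⟩ := proj_surjective K c
  obtain ⟨a, ha⟩ := hgen f
  refine ⟨jMid K T (f + diag K a), ?_⟩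
  show toDT K T (proj K (midJ K T _)) = toDT K T (proj K f)
  rw [← sub_eq_zero, ← map_sub, toDT_eq_zero_iff]
  refine ⟨_, neg_mem (sub_midJ_jMid_mem ha), ?_⟩
  rw [neg_sub, map_sub, map_add (proj K) f (diag K a), proj_diag, add_zero]

theorem proj_unitsOff_injective (hT : T.Nonempty) :
    Function.Injective ((proj K).comp (unitsOff K (T : Set Nat.Primes)).subtype) := by
  obtain ⟨q, hq⟩ := hT
  refine (injective_iff_map_eq_zero _).2 fun w hw => Subtype.ext ?_
  obtain ⟨a, ha⟩ := (proj_eq_zero_iff K (x := (w : J K))).1 hw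
  have h0 := eq_zero_of_val_eq_one (a := Additive.ofMul a) (q := q) (σ := 1) (by
    rw [toMul_ofMul, ha]; exact (w.2 q 1).2 hq)
  rw [show a = 1 from Additive.ofMul.injective h0, map_one] at ha
  exact congrArg Additive.ofMul ha.symm

/-- The classes modulo unit families outside `T` form a class formation. -/
theorem exists_classFormation_DT {p : ℕ} [Fact p.Prime] (hp2 : p ≠ 2) {ζ : K}
    (hζ : IsPrimitiveRoot ζ p) (hT : T.Nonempty)
    (hram : ∀ q ∉ T, inertia (E K q) = ⊥) {u : NormCocycle (K ≃ₐ[ℚ] K) (C K)}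
    (hu : IsClassFormation p u) :
    ∃ uD : NormCocycle (K ≃ₐ[ℚ] K) (DT K T), IsClassFormation p uD :=
  ⟨_, (IsClassFormation.quotient ((proj K).comp (unitsOff K (T : Set Nat.Primes)).subtype)
    (toDT K T) (proj_unitsOff_injective hT) (fun g w => proj_smul K g (w : J K))
    (toDT_smul K T) (toDT_surjective K T)
    (fun y hy => by
      obtain ⟨w, hw, e⟩ := toDT_eq_zero_iff.1 hy
      exact ⟨⟨w, hw⟩, e⟩)
    (fun w => toDT_eq_zero_iff.2 ⟨(w : J K), w.2, rfl⟩)
    (fun H _ => h1Zero_unitsOff hram H) (fun H _ _ => normSurj_unitsOff hram H)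
    (Idele.stepAxioms K hp2 hζ) hu).2⟩

theorem modPFinite_mid {p : ℕ} [Fact p.Prime] (hp2 : p ≠ 2) : ModPFinite p (Mid K T) :=
  ModPFinite.pi fun i => CoInd.modPFinite (modPFinite_locMod K i.1 hp2)

/-- Quotients of finite type by subgroups of finite type. -/
theorem modPFinite_quotient {p : ℕ} {A B C : Type*} [AddCommGroup A] [AddCommGroup B]
    [AddCommGroup C] (i : A →+ B) (q : B →+ C) (hex : ∀ y, q y = 0 → ∃ x, i x = y)
    (hqi : ∀ x, q (i x) = 0) (hq : Function.Surjective q)
    (hA : ModPFinite p A) (hB : ModPFinite p B) : ModPFinite p C := by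
  refine ⟨?_, hB.of_surjective q hq⟩
  let μB := (nsmulAddMonoidHom p : B →+ B)
  let μC := (nsmulAddMonoidHom p : C →+ C)
  let S : AddSubgroup B := i.range.comap μB
  haveI := hB.tors
  have hle : i.range ≤ S := by
    rintro _ ⟨x, rfl⟩
    exact ⟨p • x, map_nsmul i p x⟩
  have hker : μB.ker ≤ S := fun x hx => by
    show μB x ∈ i.range
    rw [show μB x = 0 from hx]
    exact zero_mem _
  have h1 : (i.range.map μB).relIndex (S.map μB) ≠ 0 := by
    have hμi : (i.range.map μB).relIndex i.range ≠ 0 := by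
      intro h0
      apply hA.quot
      have hsub : (nsmulAddMonoidHom p : A →+ A).range.map i ≤ i.range.map μB := by
        rintro _ ⟨_, ⟨a, rfl⟩, rfl⟩
        exact ⟨i a, ⟨a, rfl⟩, (map_nsmul i p a).symm⟩
      have h := AddSubgroup.relIndex_dvd_of_le_left (L := i.range) hsub
      rw [h0, zero_dvd_iff, AddMonoidHom.range_eq_map i, AddSubgroup.relIndex_map_map, top_sup_eq,
        AddSubgroup.relIndex_top_right] at h
      exact Nat.eq_zero_of_zero_dvd (h ▸ AddSubgroup.index_dvd_of_le
        (le_sup_left : (nsmulAddMonoidHom p : A →+ A).range ≤ _ ⊔ i.ker))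
    exact fun h0 => hμi (AddSubgroup.relIndex_eq_zero_of_le_right
      (AddSubgroup.map_comap_le μB i.range) h0)
  rw [AddSubgroup.relIndex_map_map, sup_eq_left.2 hker] at h1
  have h2 : i.range.relIndex (i.range ⊔ μB.ker) ≠ 0 := by
    rw [sup_comm, AddSubgroup.relIndex_sup_right, AddSubgroup.relIndex]
    exact AddSubgroup.index_ne_zero_of_finite
  have h3 : i.range.relIndex S ≠ 0 := AddSubgroup.relIndex_ne_zero_trans h2 h1
  haveI : Finite (S ⧸ i.range.addSubgroupOf S) := Nat.finite_of_card_ne_zero h3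
  let φ : S →+ μC.ker := (q.comp S.subtype).codRestrict μC.ker fun x => by
    show p • q (x : B) = 0
    obtain ⟨a, ha⟩ := x.2
    rw [← map_nsmul, show p • (x : B) = i a from ha.symm, hqi]
  have hφ : Function.Surjective φ := fun c => by
    obtain ⟨b, hb⟩ := hq c.1
    exact ⟨⟨b, hex _ ((map_nsmul q p b).trans (by rw [hb]; exact c.2))⟩, Subtype.ext hb⟩
  refine Finite.of_surjective (QuotientAddGroup.lift (i.range.addSubgroupOf S) φ fun x hx => ?_)
    fun c => ?_
  · obtain ⟨a, ha⟩ := hx
    refine Subtype.ext ?_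
    show q (S.subtype x) = 0
    rw [← ha, hqi]
  · obtain ⟨x, rfl⟩ := hφ c
    exact ⟨QuotientAddGroup.mk x, rfl⟩

theorem modPFinite_DT {p : ℕ} [hp : Fact p.Prime] (hp2 : p ≠ 2) (hgen : GenClasses K T) :
    ModPFinite p (DT K T) :=
  modPFinite_quotient (iU K T) (qD K T) qD_exact qD_iU (qD_surjective hgen) modPFinite_tUnits
    (modPFinite_mid hp2)

end Fermat.Agent.CFT.Wiles
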