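import Fermat.Agent.CFT.Wiles.Inequality
import Fermat.Agent.CFT.Wiles.Minkowski
import Fermat.Agent.CFT.Wiles.Sequence
import Fermat.Agent.CFT.Euler.Count
import Fermat.Agent.CFT.Duality.Main
import Fermat.Agent.CFT.Formation.Global

/-!
# The bound on a group of cocycles unramified outside `T`

The duality map, local conditions at the places over `T` and the Euler count bound a group of
cocycles whose dual classes are detected at the auxiliary primes.
-/

set_option autoImplicit false
set_option linter.unusedSectionVars false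
set_option linter.style.haveILetI false

noncomputable section

namespace Fermat.Agent.CFT.Wiles

open ExtCitation Fermat.Agent.Arith IntermediateField Fermat.Agent.CFT.Local Fermat.Agent.CFT.Idele
open Fermat.Agent.CFT.Duality Fermat.Agent.CFT.Euler

local instance factPrimeBound (q : Nat.Primes) : Fact (q : ℕ).Prime := ⟨q.2⟩

variable {G : Type} [Group G] [Fintype G] {A : Type} [AddCommGroup A] [DistribMulAction G A]
  {ι : Type} [Fintype ι] {p : ℕ} [hp : Fact p.Prime] {ε : Lat G ι →+ A}

/-- A lattice presentation as a presentation for the Euler index. -/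
def presOf (hε : Presentation p ε) : Pres p G A where
  P := Lat G ι
  induced := Lat.isInduced
  K := ⊤
  S := ε.ker
  hK := fun _ _ _ => trivial
  hS := hε.isStable_ker
  le := le_top
  level := hε.smul_mem
  π := ε.comp (⊤ : AddSubgroup (Lat G ι)).subtype
  surj := fun a => by
    obtain ⟨x, hx⟩ := hε.surjective a
    exact ⟨⟨x, trivial⟩, hx⟩
  ker := fun _ => Iff.rfl
  equi := fun g x => hε.map_smul g x.1

theorem presOf_full (hε : Presentation p ε) (x : (presOf hε).P) : x ∈ (presOf hε).K := trivial

/-- An extension at one place is the value of a global extension. -/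
theorem exists_res_single (X : Pres p G A) {κ : Type} [DecidableEq κ] {H : κ → Subgroup G}
    [∀ i, Fintype (H i)] {E : κ → Type} [∀ i, AddCommGroup (E i)]
    [∀ i, DistribMulAction (H i) (E i)] (i : κ)
    (y : equivHom (C := E i) (X.restrict (H i)).hK) :
    ∃ Y : equivHom (C := ∀ i, CoInd (H i) (E i)) X.hK,
      evMap X X.hS (X.res (∀ i, CoInd (H i) (E i)) Y) =
        Pi.single i ((X.restrict (H i)).res (E i) y) := by
  obtain ⟨Y, hY⟩ := (evMap_bijective X X.hK).2 (Pi.single i y)
  refine ⟨Y, ?_⟩
  rw [evMap_res, hY]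
  funext i'
  exact Pi.apply_single (fun i => (X.restrict (H i)).res (E i)) (fun i => map_zero _) i y i'

/-- The functionals vanishing on a subgroup. -/
theorem lpN_index_ker_le {B V : Type} [AddCommGroup B] [AddCommGroup V] [Finite V]
    (hV : ∀ v : V, p • v = 0) (φ : B →+ V →+ ZMod p) (V₀ : AddSubgroup V)
    (h : ∀ b, ∀ v ∈ V₀, φ b v = 0) : lpN p φ.ker.index ≤ lpN p V₀.index := by
  have hQ : ∀ x : V ⧸ V₀, p • x = 0 := fun x => by
    induction x using QuotientAddGroup.induction_on with
    | H v => exact congrArg QuotientAddGroup.mk (hV v)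
  haveI := finite_dual (p := p) (A := V ⧸ V₀)
  haveI := finite_dual (p := p) (A := V)
  let ψ : B →+ (V ⧸ V₀ →+ ZMod p) :=
    AddMonoidHom.mk' (fun b => QuotientAddGroup.lift V₀ (φ b) fun v hv => h b v hv) fun b b' => by
      ext v
      exact DFunLike.congr_fun (map_add φ b b') v
  have hker : φ.ker = ψ.ker := by
    ext b
    refine ⟨fun hb => ?_, fun hb => ?_⟩
    · ext v
      exact DFunLike.congr_fun hb v
    · ext v
      exact DFunLike.congr_fun hb (QuotientAddGroup.mk v)
  rw [hker, AddSubgroup.index_ker]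
  refine lpN_mono p ?_ AddSubgroup.index_ne_zero_of_finite
  rw [show V₀.index = Nat.card (V ⧸ V₀) from rfl, ← card_dual (p := p) hQ]
  exact AddSubgroup.card_addSubgroup_dvd_card ψ.range

/-- Extension of functionals on a group of cocycles. -/
theorem exists_extend_functional {B : Type*} [AddCommGroup B] (hB : ∀ b : B, p • b = 0)
    (V S : AddSubgroup B) (hVS : Disjoint V S) (μ : V →+ ZMod p) :
    ∃ ν : B →+ ZMod p, (∀ v : V, ν v = μ v) ∧ ∀ s ∈ S, ν s = 0 := by
  have hQ : ∀ x : B ⧸ S, p • x = 0 := fun x => by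
    induction x using QuotientAddGroup.induction_on with
    | H b => exact congrArg QuotientAddGroup.mk (hB b)
  letI : Module (ZMod p) (B ⧸ S) := AddCommGroup.zmodModule hQ
  obtain ⟨L, hL⟩ := exists_functional_comp ((QuotientAddGroup.mk' S).comp V.subtype) μ fun v hv =>
    by rw [show v = 0 from Subtype.ext (AddSubgroup.disjoint_def.1 hVS v.2
      ((QuotientAddGroup.eq_zero_iff _).1 hv)), map_zero]
  exact ⟨L.toAddMonoidHom.comp (QuotientAddGroup.mk' S), hL, fun s hs => by
    show L (QuotientAddGroup.mk s) = 0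
    rw [(QuotientAddGroup.eq_zero_iff s).2 hs, map_zero]⟩

variable {K L : IntermediateField ℚ QBar} [FiniteDimensional ℚ K] [Normal ℚ K]
  [FiniteDimensional ℚ L] [Normal ℚ L]

/-- The coboundaries. -/
abbrev levelCobd (h : K ≤ L) (A : Type) [AddCommGroup A] [DistribMulAction (K ≃ₐ[ℚ] K) A] :
    AddSubgroup (levelCocycles (levelRes h) A) := coboundOn (levelRes h) A ⊤

/-- The classes trivial at the decomposition group over one prime. -/
def locTriv (h : K ≤ L) {A : Type} [AddCommGroup A] [DistribMulAction (K ≃ₐ[ℚ] K) A]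
    (V : AddSubgroup (levelCocycles (levelRes h) A)) (q : Nat.Primes) : AddSubgroup V :=
  (coboundOn (levelRes h) A (decomp L q)).addSubgroupOf V

variable {A : Type} [AddCommGroup A] [DistribMulAction (K ≃ₐ[ℚ] K) A] [Finite A]
  {ι : Type} [Fintype ι] {ε : Lat (K ≃ₐ[ℚ] K) ι →+ A}

variable (hε : Presentation p ε) (h : K ≤ L) {uL : NormCocycle (L ≃ₐ[ℚ] L) (C L)}
  (huL : IsClassFormation p uL) (hk : IsPGroup p (levelRes h).ker)
  (V : AddSubgroup (levelCocycles (levelRes h) A))

/-- The duality map restricted to a group of cocycles. -/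
def dualOn : equivHom (C := C K) hε.isStable_ker →+ (V →+ ZMod p) :=
  AddMonoidHom.mk' (fun f => (dual hε h huL hk f).comp V.subtype) fun f f' =>
    AddMonoidHom.ext fun v => DFunLike.congr_fun (map_add (dual hε h huL hk) f f') v.1

theorem dualOn_apply (f : equivHom (C := C K) hε.isStable_ker) (v : V) :
    dualOn hε h huL hk V f v = dual hε h huL hk f v.1 := rfl

theorem dualOn_res (Y : equivHom (C := C K) (presOf hε).hK) :
    dualOn hε h huL hk V ((presOf hε).res (C K) Y) = 0 := by
  have e : dual hε h huL hk ((presOf hε).res (C K) Y) = 0 :=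
    theta_eq_zero_of_ext (levelSystem h huL hk) hε _
      (Y.1.comp (AddMonoidHom.codRestrict (AddMonoidHom.id (Lat (K ≃ₐ[ℚ] K) ι))
        (⊤ : AddSubgroup (Lat (K ≃ₐ[ℚ] K) ι)) fun _ => trivial))
      (fun g x => Y.2 g ⟨x, trivial⟩) fun s => rfl
  ext v
  exact DFunLike.congr_fun e v.1

include hk in
theorem dualOn_surjective (hV : Disjoint V (levelCobd h A)) :
    Function.Surjective (dualOn hε h huL hk V) := fun μ => by
  have hex := exists_extend_functional
    (fun a : levelCocycles (levelRes h) A => Subtype.ext (funext fun g => hε.killed _))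
    V (levelCobd h A) hV μ
  obtain ⟨ν, hν, hν0⟩ := hex
  have hex := exists_dual_eq hε h huL hk ν fun a x hx => hν0 a ⟨x, fun g _ => hx g⟩
  obtain ⟨f, hf⟩ := hex
  exact ⟨f, AddMonoidHom.ext fun v =>
    (dualOn_apply hε h huL hk V f v).trans ((DFunLike.congr_fun hf v.1).trans (hν v))⟩

variable {T : Finset Nat.Primes}

theorem dualOn_toDT (hT : T.Nonempty) (hTL : ∀ q ∉ T, inertia (E L q) = ⊥)
    (f : equivHom (C := C K) hε.isStable_ker)
    (hf : postHom hε.isStable_ker (toDT K T) (toDT_smul K T) f = 0) :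
    dualOn hε h huL hk V f = 0 := by
  have hex := exists_postHom_eq hε.isStable_ker
    ((proj K).comp (unitsOff K (T : Set Nat.Primes)).subtype)
    (fun g w => proj_smul K g (w : J K)) (proj_unitsOff_injective hT) f fun s => by
      obtain ⟨w, hw, e⟩ := toDT_eq_zero_iff.1 (DFunLike.congr_fun (congrArg Subtype.val hf) s)
      exact ⟨⟨w, hw⟩, e⟩
  obtain ⟨f₀, hf₀⟩ := hex
  have hw : IsEquivariantOn hε.isStable_ker
      ((unitsOff K (T : Set Nat.Primes)).subtype.comp f₀.1) :=
    fun g s => congrArg Subtype.val (f₀.2 g s)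
  have e0 : f = projHom hε ⟨(unitsOff K (T : Set Nat.Primes)).subtype.comp f₀.1, hw⟩ :=
    hf₀.symm.trans (Subtype.ext rfl)
  have e : dual hε h huL hk f = 0 := by
    rw [e0]
    exact dual_unitsOff hε h huL hk hTL _ fun s => (f₀.1 s).2
  ext v
  exact DFunLike.congr_fun e v.1

variable (K T) in
/-- Local values as classes. -/
def midC : Mid K T →+ C K := (proj K).comp (midJ K T)

theorem midC_smul (g : K ≃ₐ[ℚ] K) (x : Mid K T) : midC K T (g • x) = g • midC K T x := by
  show proj K (midJ K T (g • x)) = g • proj K (midJ K T x)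
  rw [midJ_smul, proj_smul]

/-- Maps into the product of local groups from their components. -/
def fromLocal [∀ i : {q // q ∈ T}, Fintype (decomp K i.1)] :
    (∀ i : {q // q ∈ T}, equivHom (C := LocMod K i.1)
        (IsStable.restrict hε.isStable_ker (decomp K i.1))) ≃+
      equivHom (C := Mid K T) hε.isStable_ker :=
  (AddEquiv.ofBijective (evMap (presOf hε) hε.isStable_ker)
    (evMap_bijective (presOf hε) hε.isStable_ker)).symm

theorem evMap_fromLocal [∀ i : {q // q ∈ T}, Fintype (decomp K i.1)]
    (f : ∀ i : {q // q ∈ T}, equivHom (C := LocMod K i.1)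
      (IsStable.restrict hε.isStable_ker (decomp K i.1))) :
    evMap (presOf hε) hε.isStable_ker (fromLocal hε f) = f :=
  (AddEquiv.ofBijective (evMap (presOf hε) hε.isStable_ker)
    (evMap_bijective (presOf hε) hε.isStable_ker)).apply_symm_apply f

theorem fromLocal_single_apply [∀ i : {q // q ∈ T}, Fintype (decomp K i.1)]
    (i : {q // q ∈ T}) (f : equivHom (C := LocMod K i.1)
      (IsStable.restrict hε.isStable_ker (decomp K i.1))) {i' : {q // q ∈ T}} (hne : i' ≠ i)
    (s : ε.ker) : (fromLocal hε (Pi.single i f)).1 s i' = 0 := by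
  classical
  refine CoInd.ext fun τ => ?_
  have h1 := (congrFun (evMap_fromLocal hε (Pi.single i f)) i').trans
    (Pi.single_eq_of_ne (M := fun i : {q // q ∈ T} => equivHom (C := LocMod K i.1)
      (IsStable.restrict hε.isStable_ker (decomp K i.1))) hne f)
  have h2 : CoInd.ev ((fromLocal hε (Pi.single i f)).1 (smulS hε.isStable_ker τ s) i') = 0 :=
    DFunLike.congr_fun (congrArg Subtype.val h1) (smulS hε.isStable_ker τ s)
  rw [(fromLocal hε (Pi.single i f)).2, Pi.smul_apply, CoInd.ev_smul] at h2
  rw [h2, map_zero CoInd.fn]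
  rfl

/-- The part of the duality map at one place. -/
def dualLoc [∀ i : {q // q ∈ T}, Fintype (decomp K i.1)] (i : {q // q ∈ T}) :
    equivHom (C := LocMod K i.1) (IsStable.restrict hε.isStable_ker (decomp K i.1)) →+
      (V →+ ZMod p) :=
  (dualOn hε h huL hk V).comp ((postHom hε.isStable_ker (midC K T) midC_smul).comp
    ((fromLocal hε).toAddMonoidHom.comp (AddMonoidHom.single (fun i : {q // q ∈ T} =>
      equivHom (C := LocMod K i.1) (IsStable.restrict hε.isStable_ker (decomp K i.1))) i)))

theorem dualLoc_res [∀ i : {q // q ∈ T}, Fintype (decomp K i.1)] (i : {q // q ∈ T}) :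
    (((presOf hε).restrict (decomp K i.1)).res (LocMod K i.1)).range ≤
      (dualLoc hε h huL hk V i).ker := by
  classical
  rintro _ ⟨y, rfl⟩
  have hE := exists_res_single (presOf hε) (H := fun i : {q // q ∈ T} => decomp K i.1)
    (E := fun i : {q // q ∈ T} => LocMod K i.1) i y
  refine hE.elim fun Y hY => ?_
  have hs : fromLocal hε (Pi.single i (((presOf hε).restrict (decomp K i.1)).res (LocMod K i.1) y)) =
      (presOf hε).res (Mid K T) Y :=
    (evMap_bijective (presOf hε) hε.isStable_ker).1 ((evMap_fromLocal hε _).trans hY.symm)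
  show dualOn hε h huL hk V (postHom hε.isStable_ker (midC K T) midC_smul
    (fromLocal hε (Pi.single i _))) = 0
  have e1 : postHom hε.isStable_ker (midC K T) midC_smul ((presOf hε).res (Mid K T) Y) =
      (presOf hε).res (C K) (postHom (presOf hε).hK (midC K T) midC_smul Y) :=
    postHom_res (presOf hε) (midC K T) midC_smul Y
  exact (congrArg (fun z => dualOn hε h huL hk V (postHom hε.isStable_ker (midC K T) midC_smul z))
    hs).trans ((congrArg (dualOn hε h huL hk V) e1).trans (dualOn_res hε h huL hk V _))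

theorem dualLoc_vanish [∀ i : {q // q ∈ T}, Fintype (decomp K i.1)] (i : {q // q ∈ T})
    (f : equivHom (C := LocMod K i.1) (IsStable.restrict hε.isStable_ker (decomp K i.1)))
    (a : V) (ha : a ∈ locTriv h V i.1) : dualLoc hε h huL hk V i f a = 0 := by
  classical
  have hw : IsEquivariantOn hε.isStable_ker
      ((midJ K T).comp (fromLocal hε (Pi.single i f)).1) := fun g s => by
    show midJ K T _ = g • midJ K T _
    rw [(fromLocal hε (Pi.single i f)).2 g s, midJ_smul]
  have e0 : postHom hε.isStable_ker (midC K T) midC_smul (fromLocal hε (Pi.single i f)) =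
      projHom hε ⟨(midJ K T).comp (fromLocal hε (Pi.single i f)).1, hw⟩ := Subtype.ext rfl
  refine (dualOn_apply hε h huL hk V _ a).trans ?_
  show dual hε h huL hk (postHom hε.isStable_ker (midC K T) midC_smul
    (fromLocal hε (Pi.single i f))) a.1 = 0
  rw [e0]
  refine dual_supported hε h huL hk i.1 _ (fun s q hq σ => ?_) a.1 ha
  show val (midJ K T ((fromLocal hε (Pi.single i f)).1 s)).toMul q σ = 1
  by_cases hqT : q ∈ T
  · rw [val_midJ_mem _ hqT, fromLocal_single_apply hε i f
      (fun e' => hq (Set.mem_singleton_iff.2 (congrArg Subtype.val e'))) s, map_zero CoInd.fn]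
    rfl
  · exact val_midJ_notMem _ hqT σ

theorem dualLoc_sum [∀ i : {q // q ∈ T}, Fintype (decomp K i.1)]
    (F : equivHom (C := Mid K T) hε.isStable_ker) :
    dualOn hε h huL hk V (postHom hε.isStable_ker (midC K T) midC_smul F) =
      ∑ i, dualLoc hε h huL hk V i (evMap (presOf hε) hε.isStable_ker F i) := by
  classical
  have hF : F = ∑ i, fromLocal hε (T := T) (Pi.single i ((fromLocal hε (T := T)).symm F i)) :=
    ((fromLocal hε (T := T)).apply_symm_apply F).symm.trans
      ((congrArg (fromLocal hε (T := T))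
        (Finset.univ_sum_single ((fromLocal hε (T := T)).symm F)).symm).trans (map_sum _ _ _))
  refine (congrArg (fun z => dualOn hε h huL hk V
    (postHom hε.isStable_ker (midC K T) midC_smul z)) hF).trans ?_
  refine ((congrArg (dualOn hε h huL hk V)
    (map_sum (postHom hε.isStable_ker (midC K T) midC_smul) _ _)).trans (map_sum _ _ _)).trans ?_
  exact Finset.sum_congr rfl fun i _ => rfl

include huL hk in
/-- The bound by the global index and the local conditions. -/
theorem lpN_card_add_le [∀ i : {q // q ∈ T}, Fintype (decomp K i.1)] (hp2 : p ≠ 2)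
    (hT : T.Nonempty) (hTL : ∀ q ∉ T, inertia (E L q) = ⊥) (hgen : GenClasses K T)
    (hV : Disjoint V (levelCobd h A)) (Q : Finset {q // q ∈ T})
    (hKum : ∀ κ : equivHom (C := tUnits K T) hε.isStable_ker,
      (∀ i ∈ Q, evMap (presOf hε) (presOf hε).hS (postHom hε.isStable_ker (iU K T) iU_smul κ) i ∈
        (((presOf hε).restrict (decomp K i.1)).res (LocMod K i.1)).range) →
      κ ∈ ((presOf hε).res (tUnits K T)).range) :
    lpN p (Nat.card V) +
        ∑ i : {q // q ∈ T}, ((presOf hε).restrict (decomp K i.1)).index (LocMod K i.1) ≤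
      (presOf hε).index (DT K T) + (∑ i ∈ Finset.univ \ Q, lpN p (locTriv h V i.1).index +
        ∑ i ∈ Q, lpN p (((presOf hε).restrict (decomp K i.1)).res (LocMod K i.1)).range.index) := by
  classical
  have hVp : ∀ v : V, p • v = 0 := fun v =>
    Subtype.ext (Subtype.ext (funext fun g => hε.killed _))
  haveI := finite_dual (p := p) (A := V)
  have hexΛ : ∀ i : {q // q ∈ T}, ∃ Λi : AddSubgroup (equivHom (C := LocMod K i.1)
      (IsStable.restrict (presOf hε).hS (decomp K i.1))),
      (i ∈ Q → Λi = (((presOf hε).restrict (decomp K i.1)).res (LocMod K i.1)).range) ∧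
        (i ∉ Q → Λi = (dualLoc hε h huL hk V i).ker) := fun i =>
    if hi : i ∈ Q then ⟨_, fun _ => rfl, fun hn => absurd hi hn⟩
    else ⟨_, fun hn => absurd hn hi, fun _ => rfl⟩
  choose Λ hΛ1 hΛ2 using hexΛ
  have hΛE : ∀ i, (((presOf hε).restrict (decomp K i.1)).res (LocMod K i.1)).range ≤ Λ i :=
    fun i => if hi : i ∈ Q then (hΛ1 i hi).ge
      else le_trans (dualLoc_res hε h huL hk V i) (hΛ2 i hi).ge
  have hΛβ : ∀ i, Λ i ≤ (dualLoc hε h huL hk V i).ker :=
    fun i => if hi : i ∈ Q then le_trans (hΛ1 i hi).le (dualLoc_res hε h huL hk V i)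
      else (hΛ2 i hi).le
  have hmain := lpN_card_le (presOf hε) (iU K T) iU_smul (qD K T) qD_smul (iU_injective hT)
    qD_exact qD_iU (qD_surjective hgen) (toDT K T) (toDT_smul K T) (toDT_surjective K T)
    (midC K T) midC_smul (fun _ => rfl) (dualOn hε h huL hk V) Λ
    (presOf_full hε) (modPFinite_DT hp2 hgen) (fun i => modPFinite_locMod K i.1 hp2)
    (dualOn_surjective hε h huL hk V hV) (dualOn_res hε h huL hk V)
    (dualOn_toDT hε h huL hk V hT hTL) hΛE
    (fun F hF => (dualLoc_sum hε h huL hk V F).trans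
      (Finset.sum_eq_zero fun i _ => hΛβ i (hF i)))
    fun κ hκ => hKum κ fun i hi => (hΛ1 i hi).le (hκ i)
  rw [card_dual hVp] at hmain
  have hloc : ∀ i ∈ Finset.univ \ Q, lpN p (Λ i).index ≤ lpN p (locTriv h V i.1).index :=
    fun i hi => le_trans (le_of_eq (congrArg (fun S => lpN p (AddSubgroup.index S))
      (hΛ2 i (Finset.mem_sdiff.1 hi).2)))
      (lpN_index_ker_le hVp _ _ fun f a ha => dualLoc_vanish hε h huL hk V i f a ha)
  have hsplit : ∑ i, lpN p (Λ i).index = ∑ i ∈ Finset.univ \ Q, lpN p (Λ i).index +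
      ∑ i ∈ Q, lpN p (Λ i).index := (Finset.sum_sdiff (Finset.subset_univ Q)).symm
  have hQ : ∑ i ∈ Q, lpN p (Λ i).index =
      ∑ i ∈ Q, lpN p (((presOf hε).restrict (decomp K i.1)).res (LocMod K i.1)).range.index :=
    Finset.sum_congr rfl fun i hi => congrArg (fun S => lpN p (AddSubgroup.index S)) (hΛ1 i hi)
  have hsum := Finset.sum_le_sum hloc
  linarith

omit hε h in
/-- **The bound.** -/
theorem lpN_cocycles_le (hε : Presentation p ε) (hp2 : p ≠ 2) {ζ : QBar} (hζ : IsPrimitiveRoot ζ p)
    (hζK : ζ ∈ K) (h : K ≤ L) (hk : IsPGroup p (levelRes h).ker) {T : Finset Nat.Primes}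
    [∀ i : {q // q ∈ T}, Fintype (decomp K i.1)]
    (hT : T.Nonempty) (hTK : ∀ q ∉ T, inertia (E K q) = ⊥) (hTL : ∀ q ∉ T, inertia (E L q) = ⊥)
    (hgen : GenClasses K T) (hfix : fixPts (K ≃ₐ[ℚ] K) A = ⊥)
    (w : NumberField.InfinitePlace K)
    (V : AddSubgroup (levelCocycles (levelRes h) A)) (hV : Disjoint V (levelCobd h A))
    (Q : Finset {q // q ∈ T})
    (hKum : ∀ κ : equivHom (C := tUnits K T) hε.isStable_ker,
      (∀ i ∈ Q, evMap (presOf hε) (presOf hε).hS (postHom hε.isStable_ker (iU K T) iU_smul κ) i ∈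
        (((presOf hε).restrict (decomp K i.1)).res (LocMod K i.1)).range) →
      κ ∈ ((presOf hε).res (tUnits K T)).range) :
    lpN p (Nat.card V) +
        lpN p (Nat.card (fixDual p (MulAction.stabilizer (K ≃ₐ[ℚ] K) w) A)) +
        ∑ i : {q // q ∈ T}, lpN p (Nat.card (fixPts (decomp K i.1) A)) ≤
      ∑ i ∈ Finset.univ \ Q, lpN p (locTriv h V i.1).index +
        ∑ i ∈ Q, lpN p (((presOf hε).restrict (decomp K i.1)).res (LocMod K i.1)).range.index := by
  classical
  have hζK' : IsPrimitiveRoot (⟨ζ, hζK⟩ : K) p :=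
    IsPrimitiveRoot.of_map_of_injective (f := K.val) hζ K.val.injective
  have hζL : IsPrimitiveRoot (⟨ζ, h hζK⟩ : L) p :=
    IsPrimitiveRoot.of_map_of_injective (f := L.val) hζ L.val.injective
  have hex := Formation.exists_classFormation hp2 K hζK'
  obtain ⟨uK, huK⟩ := hex
  have hex := Formation.exists_classFormation hp2 L hζL
  obtain ⟨uL, huL⟩ := hex
  have hex := exists_classFormation_DT hp2 hζK' hT hTK huK
  obtain ⟨uD, huD⟩ := hex
  choose uE huE using fun i : {q // q ∈ T} => exists_locClassFormation K i.1 p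
  have hmain := lpN_card_add_le hε h huL hk V hp2 hT hTL hgen hV Q hKum
  have hc : Nat.Coprime p (Nat.card (MulAction.stabilizer (K ≃ₐ[ℚ] K) w)) := by
    rw [(card_stabilizer_place p hp2 hζ hζK w).1]
    exact (Nat.coprime_primes hp.out Nat.prime_two).2 hp2
  haveI : Fintype (MulAction.stabilizer (K ≃ₐ[ℚ] K) w) := Fintype.ofFinite _
  have hcount := euler_count (H := fun i : {q // q ∈ T} => decomp K i.1)
    (E := fun i : {q // q ∈ T} => LocMod K i.1) hε.killed (presOf hε) (presOf_full hε) hfix huE
    (fun i => modPFinite_locMod K i.1 hp2) huD (modPFinite_DT hp2 hgen) modPFinite_tUnits hc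
    (iU K T) iU_smul (qD K T) qD_smul (iU_injective hT) qD_exact qD_iU (qD_surjective hgen)
    (unitChar_tUnits p w T)
  linarith

end Fermat.Agent.CFT.Wiles
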