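import Fermat.Agent.CFT.Wiles.KummerLocal
import Fermat.Agent.CFT.TWPrimes.Main

/-!
# Auxiliary primes detecting the Kummer classes

Finitely many Kummer classes span the group of classes of units outside a finite set, modulo
coboundaries; Taylor–Wiles primes detect them.
-/

set_option autoImplicit false
set_option linter.unusedSectionVars false
set_option linter.style.haveILetI false

noncomputable section

namespace Fermat.Agent.CFT.Wiles

open ExtCitation Fermat.Agent.Arith IntermediateField Fermat.Agent.CFT.Local Fermat.Agent.CFT.Idele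
open Fermat.Agent.CFT.Duality Fermat.Agent.CFT.Euler Fermat.Agent.CFT.TWPrimes Fermat.Agent.Deform
open Module

local instance factPrimeDetect (q : Nat.Primes) : Fact (q : ℕ).Prime := ⟨q.2⟩

section Linear

variable {G : Type*} [Group G] {k : Type} [Field k] (r : G →* M2 k)

/-- The coboundaries of trace zero matrices. -/
def cobdTw : Submodule k (G → M2 k) where
  carrier := {b | ∃ X : M2 k, X.trace = 0 ∧ b = cobd r X}
  add_mem' := by
    rintro a b ⟨X, hX, rfl⟩ ⟨Y, hY, rfl⟩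
    refine ⟨X + Y, by rw [Matrix.trace_add, hX, hY, add_zero], funext fun g => ?_⟩
    rw [Pi.add_apply, cobd, cobd, cobd, map_add]
    abel
  zero_mem' := ⟨0, by simp, funext fun g => by simp [cobd]⟩
  smul_mem' := by
    rintro c b ⟨X, hX, rfl⟩
    refine ⟨c • X, by rw [Matrix.trace_smul, hX, smul_zero], funext fun g => ?_⟩
    rw [Pi.smul_apply, cobd, cobd, map_smul, smul_sub]

/-- The cocycles. -/
def cocTw : Submodule k (G → M2 k) where
  carrier := {b | IsCocycle r b}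
  add_mem' {a b} ha hb := ⟨fun g => by rw [Pi.add_apply, Matrix.trace_add, ha.trace, hb.trace,
      add_zero], fun g h => by
    rw [Pi.add_apply, Pi.add_apply, Pi.add_apply, ha.map_mul, hb.map_mul, map_add]; abel⟩
  zero_mem' := ⟨fun g => by simp, fun g h => by simp⟩
  smul_mem' c b hb := ⟨fun g => by rw [Pi.smul_apply, Matrix.trace_smul, hb.trace, smul_zero],
    fun g h => by rw [Pi.smul_apply, Pi.smul_apply, Pi.smul_apply, hb.map_mul, smul_add, map_smul]⟩

variable (k) in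
/-- The functions of finite level. -/
def finLevel : Submodule k (GQ → M2 k) where
  carrier := {b | ∃ L : IntermediateField ℚ QBar, FiniteDimensional ℚ L ∧
    ∀ σ : GQ, (∀ x ∈ L, σ x = x) → b σ = 0}
  add_mem' := by
    rintro a b ⟨L, hL, ha⟩ ⟨L', hL', hb⟩
    refine ⟨L ⊔ L', inferInstance, fun σ hσ => ?_⟩
    rw [Pi.add_apply, ha σ fun x hx => hσ x ((le_sup_left : L ≤ L ⊔ L') hx),
      hb σ fun x hx => hσ x ((le_sup_right : L' ≤ L ⊔ L') hx), add_zero]
  zero_mem' := ⟨⊥, inferInstance, fun _ _ => rfl⟩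
  smul_mem' := by
    rintro c b ⟨L, hL, hb⟩
    exact ⟨L, hL, fun σ hσ => by rw [Pi.smul_apply, hb σ hσ, smul_zero]⟩

/-- A complement of the coboundaries in a finite dimensional space of classes. -/
theorem exists_basis_mod_cobd (W : Submodule k (G → M2 k)) [Module.Finite k W] :
    ∃ (R : ℕ) (b : Fin R → G → M2 k), (∀ i, b i ∈ W) ∧
      (∀ c : Fin R → k, ∀ X : M2 k, X.trace = 0 →
        (∀ g, ∑ i, c i • b i g = cobd r X g) → c = 0) ∧
      ∀ w ∈ W, ∃ c : Fin R → k, w - ∑ i, c i • b i ∈ cobdTw r := by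
  obtain ⟨W₁, hW₁⟩ := ((cobdTw r).comap W.subtype).exists_isCompl
  set W₂ : Submodule k (G → M2 k) := W₁.map W.subtype
  have hW₂ : W₂ ≤ W := Submodule.map_subtype_le _ _
  haveI : Module.Finite k W₂ := Submodule.finiteDimensional_of_le hW₂
  haveI : Module.Free k W₂ := Module.Free.of_divisionRing k W₂
  have hdis : ∀ z ∈ W₂, z ∈ cobdTw r → z = 0 := fun z hz hzc => by
    obtain ⟨z', hz', rfl⟩ := hz
    exact congrArg Subtype.val (Submodule.disjoint_def.1 hW₁.disjoint z' hzc hz')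
  let e := Module.finBasis k W₂
  refine ⟨_, fun i => (e i : W₂).1, fun i => hW₂ (e i).2, fun c X hX h => ?_,
    fun w hw => ?_⟩
  · have hval : (∑ i, c i • e i : W₂).1 = ∑ i, c i • (e i : W₂).1 := by
      rw [Submodule.coe_sum]
      exact Finset.sum_congr rfl fun i _ => Submodule.coe_smul _ _
    have hs : (∑ i, c i • e i : W₂) = 0 := Subtype.ext (hdis _ (∑ i, c i • e i : W₂).2
      ⟨X, hX, hval.trans (funext fun g => by
        rw [Finset.sum_apply, ← h g]
        rfl)⟩)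
    exact funext fun i => Fintype.linearIndependent_iff.1 e.linearIndependent c hs i
  · obtain ⟨a, ha, b, hb, hab⟩ := Submodule.mem_sup.1
      ((hW₁.sup_eq_top ▸ Submodule.mem_top) : (⟨w, hw⟩ : W) ∈ (cobdTw r).comap W.subtype ⊔ W₁)
    let b₂ : W₂ := ⟨b.1, b, hb, rfl⟩
    refine ⟨fun i => e.repr b₂ i, ?_⟩
    have h1 : (∑ i, e.repr b₂ i • (e i : W₂).1) = b.1 := by
      refine Eq.trans ?_ (congrArg (fun z : W₂ => (z : G → M2 k)) (e.sum_repr b₂))
      rw [Submodule.coe_sum]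
      exact Finset.sum_congr rfl fun i _ => (Submodule.coe_smul _ _).symm
    have h2 : w = a.1 + b.1 := (congrArg Subtype.val hab).symm
    rw [h1, h2, add_sub_cancel_right]
    exact ha

end Linear

variable {p : ℕ} [hp : Fact p.Prime] {ζ : QBar} (hζ : IsPrimitiveRoot ζ p)
  {K : IntermediateField ℚ QBar} [FiniteDimensional ℚ K] [Normal ℚ K]
  {k : Type} [Field k] [Finite k] [Algebra (ZMod p) k] {rb : (K ≃ₐ[ℚ] K) →* M2 k}
  {ι : Type} [Fintype ι] {ε : Lat (K ≃ₐ[ℚ] K) ι →+ Ad0 rb}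

/-- Representatives for a subgroup of finite index. -/
theorem exists_reps {A : Type*} [AddCommGroup A] (H : AddSubgroup A) (hH : H.index ≠ 0) :
    ∃ (m : ℕ) (f : Fin m → A), ∀ a, ∃ x, a - f x ∈ H := by
  haveI : H.FiniteIndex := ⟨hH⟩
  haveI : Finite (A ⧸ H) := AddSubgroup.finite_quotient_of_finiteIndex
  obtain ⟨m, ⟨e⟩⟩ := Finite.exists_equiv_fin (A ⧸ H)
  refine ⟨m, fun x => (e.symm x).out, fun a => ⟨e (QuotientAddGroup.mk a), ?_⟩⟩
  refine QuotientAddGroup.eq_iff_sub_mem.1 ?_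
  simp only [e.symm_apply_apply]
  exact (QuotientAddGroup.out_eq' _).symm

omit [Finite k] in
theorem index_res_ne_zero [Finite (Ad0 rb)] (hε : Presentation p ε) (T₀ : Finset Nat.Primes) :
    ((presOf hε).res (tUnits K T₀)).range.index ≠ 0 :=
  (Pres.finiteIndexHom (presOf hε) (M := tUnits K T₀) modPFinite_tUnits).index

variable (k) in
/-- Representatives of the classes have finitely generated Kummer cocycles. -/
theorem exists_kummer_span (hε : Presentation p ε) (h2 : (2 : k) ≠ 0) (T₀ : Finset Nat.Primes)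
    {r : GQ →* M2 k} (hrb : ∀ g, rb (res K g) = r g)
    (hcyc : ∀ (σ : GQ) (a : ℕ), (∀ μ : QBar, μ ^ p = 1 → σ μ = μ ^ a) → (r σ).det = (a : k)) :
    ∃ W : Submodule k (GQ → M2 k), Module.Finite k W ∧ W ≤ cocTw r ∧ W ≤ finLevel k ∧
      ∀ κ : equivHom (C := tUnits K T₀) (presOf hε).hS, ∃ ρ y B,
        IsKummer hζ ((tUnits K T₀).subtype.comp (Subtype.val ρ)) y B ∧ B ∈ W ∧
          κ - ρ ∈ ((presOf hε).res (tUnits K T₀)).range := by
  refine (exists_reps _ (index_res_ne_zero hε T₀)).elim fun m hm => hm.elim fun f hf => ?_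
  have hrep : ∀ x, ∃ y B, IsKummer hζ ((tUnits K T₀).subtype.comp (f x).1) y B := fun x =>
    exists_kummer hε h2 _ fun g s => congrArg Subtype.val ((f x).2 g s)
  choose y B hB using hrep
  refine ⟨Submodule.span k (Set.range B), Module.Finite.span_of_finite k (Set.finite_range B),
    Submodule.span_le.2 ?_, Submodule.span_le.2 ?_, fun κ => ?_⟩
  · rintro _ ⟨x, rfl⟩
    exact (hB x).isCocycle hε h2 hrb hcyc
  · rintro _ ⟨x, rfl⟩
    exact (hB x).finiteLevel hε h2 hrb hcyc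
  · exact (hf κ).elim fun x hx =>
      ⟨f x, y x, B x, hB x, Submodule.subset_span (Set.mem_range_self x), hx⟩

variable {hζ}

/-- A class whose representative is locally extendable at the detecting primes. -/
theorem locExt_rep (hε : Presentation p ε) {T₀ : Finset Nat.Primes} {q : Nat.Primes}
    {κ ρ : equivHom (C := tUnits K T₀) (presOf hε).hS}
    (hκ : LocExt q ((tUnits K T₀).subtype.comp κ.1))
    {Y : equivHom (C := tUnits K T₀) (presOf hε).hK}
    (hY : (presOf hε).res (tUnits K T₀) Y = κ - ρ) :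
    LocExt q ((tUnits K T₀).subtype.comp ρ.1) :=
  locExt_sub hε κ Y hκ _ fun s => by
    have e : (((presOf hε).res (tUnits K T₀) Y).1 s : tUnits K T₀) = κ.1 s - ρ.1 s :=
      DFunLike.congr_fun (congrArg Subtype.val hY) s
    exact congrArg Subtype.val (show ρ.1 s = κ.1 s - Y.1 ⟨(s : Lat (K ≃ₐ[ℚ] K) ι), trivial⟩ from
      eq_sub_of_add_eq' ((congrArg (· + ρ.1 s) e).trans (sub_add_cancel _ _)))

/-- Detection by the trace functions of independent classes. -/
theorem eq_cobd_of_detect (hε : Presentation p ε) (h2 : (2 : k) ≠ 0) {r : GQ →* M2 k}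
    (hrb : ∀ g, rb (res K g) = r g)
    (hcyc : ∀ (σ : GQ) (a : ℕ), (∀ μ : QBar, μ ^ p = 1 → σ μ = μ ^ a) → (r σ).det = (a : k))
    {J : Type} [Fintype J] (Q : J → Nat.Primes) (φ : J → GQ)
    (hφ : ∀ i, φ i ∈ (padicPlace (Q i : ℕ)).decompositionSubgroup ℚ)
    (hd : ∀ i, (r (φ i)).det = 1) (b : J → GQ → M2 k)
    (hdet : ∀ c : J → k, (∀ i, ∑ j, c j * phi r (b j) (φ i) = 0) → c = 0)
    {κ : ε.ker →+ Additive Kˣ} (hloc : ∀ i, LocExt (Q i) κ)
    {y : Lat (K ≃ₐ[ℚ] K) ι →+ Additive QBarˣ} {B : GQ → M2 k} (hB : IsKummer hζ κ y B)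
    (hspan : ∃ c : J → k, B - ∑ i, c i • b i ∈ cobdTw r) :
    ∃ X : M2 k, ∀ σ, B σ = cobd r X σ := by
  obtain ⟨c, X, hX, hc⟩ := hspan
  have hz : c = 0 := hdet c fun i => by
    have h0 : phi r B (φ i) = 0 := hB.phi_eq_zero (Q i) hε h2 hrb hcyc (hloc i) (hφ i) (hd i)
    have e := congrFun hc (φ i)
    rw [Pi.sub_apply, sub_eq_iff_eq_add, Finset.sum_apply] at e
    rw [phi, e, add_mul, Matrix.trace_add, ← phi, phi_cobd (hd i), zero_add, Finset.sum_mul,
      Matrix.trace_sum] at h0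
    rw [← h0]
    exact Finset.sum_congr rfl fun j _ => by
      rw [Pi.smul_apply, smul_mul_assoc, Matrix.trace_smul, smul_eq_mul, phi]
  refine ⟨X, fun σ => ?_⟩
  have e := congrFun hc σ
  rw [hz] at e
  simpa using e

/-- The detection for one map. -/
theorem mem_range_of_detect (hε : Presentation p ε) (h2 : (2 : k) ≠ 0) {r : GQ →* M2 k}
    (hrb : ∀ g, rb (res K g) = r g)
    (hcyc : ∀ (σ : GQ) (a : ℕ), (∀ μ : QBar, μ ^ p = 1 → σ μ = μ ^ a) → (r σ).det = (a : k))
    {J : Type} [Fintype J] (Q : J → Nat.Primes) (φ : J → GQ)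
    (hφ : ∀ i, φ i ∈ (padicPlace (Q i : ℕ)).decompositionSubgroup ℚ)
    (hd : ∀ i, (r (φ i)).det = 1) (b : J → GQ → M2 k)
    (hdet : ∀ c : J → k, (∀ i, ∑ j, c j * phi r (b j) (φ i) = 0) → c = 0)
    {T₀ : Finset Nat.Primes} {κ ρ : equivHom (C := tUnits K T₀) (presOf hε).hS}
    (hκ : ∀ i, LocExt (Q i) ((tUnits K T₀).subtype.comp κ.1))
    {y : Lat (K ≃ₐ[ℚ] K) ι →+ Additive QBarˣ} {B : GQ → M2 k}
    (hB : IsKummer hζ ((tUnits K T₀).subtype.comp ρ.1) y B)
    (hspan : ∃ c : J → k, B - ∑ i, c i • b i ∈ cobdTw r)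
    (hY' : κ - ρ ∈ ((presOf hε).res (tUnits K T₀)).range) :
    κ ∈ ((presOf hε).res (tUnits K T₀)).range := by
  refine hY'.elim fun Y hY => ?_
  refine (eq_cobd_of_detect hε h2 hrb hcyc Q φ hφ hd b hdet
    (fun i => locExt_rep hε (hκ i) hY) hB hspan).elim fun X hBX => ?_
  refine (mem_range_of_cobd hε hrb hcyc ρ hB hBX).elim fun Y₁ hY₁ => ⟨Y + Y₁, ?_⟩
  exact (map_add ((presOf hε).res (tUnits K T₀)) Y Y₁).trans
    ((congrArg₂ (· + ·) hY hY₁).trans (sub_add_cancel κ ρ))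

variable (hζ)

include hζ in
/-- **Primes detecting the units outside `T₀`**: their number does not depend on the congruence. -/
theorem exists_detecting_primes (hε : Presentation p ε) {r : GQ →* M2 k}
    (hrb : ∀ g, rb (res K g) = r g) (hr : TWHyp r) (hrfin : GaloisFactorsThroughFiniteLevel r)
    (hcyc : ∀ (σ : GQ) (a : ℕ), (∀ μ : QBar, μ ^ p = 1 → σ μ = μ ^ a) → (r σ).det = (a : k))
    (T₀ : Finset Nat.Primes) :
    ∃ R : ℕ, ∀ (n : ℕ) (S : Finset ℕ), ∃ q : Fin R → Nat.Primes, Function.Injective q ∧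
      (∀ i, (q i : ℕ) ∉ S ∧ q i ∉ T₀ ∧ (q i : ℕ) ≠ p ∧ p ^ (n + 1) ∣ (q i : ℕ) - 1) ∧
      (∀ i, ∀ P : ValuationSubring QBar, P.LiesOverPrime (q i) → ∀ τ ∈ P.inertiaSubgroupIn ℚ,
        r τ = 1) ∧
      (∀ i, ∀ P : ValuationSubring QBar, P.LiesOverPrime (q i) → ∀ φ : GQ,
        P.IsFrobeniusAt φ (q i) → (r φ).det = 1 ∧ (r φ).trace ^ 2 ≠ 4 ∧
          ∃ α β : k, α ≠ β ∧ (r φ).charpoly =
            (Polynomial.X - Polynomial.C α) * (Polynomial.X - Polynomial.C β)) ∧
      ∀ κ : equivHom (C := tUnits K T₀) (presOf hε).hS,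
        (∀ i, LocExt (q i) ((tUnits K T₀).subtype.comp κ.1)) →
          κ ∈ ((presOf hε).res (tUnits K T₀)).range := by
  classical
  haveI : CharP k p := charP_of_injective_algebraMap (algebraMap (ZMod p) k).injective p
  refine (exists_kummer_span (hζ := hζ) k hε hr.two T₀ hrb hcyc).elim fun W hW => ?_
  haveI : Module.Finite k W := hW.1
  have hWrep := hW.2.2.2
  have hex := exists_basis_mod_cobd r W
  obtain ⟨R, b, hbW, hind, hspan⟩ := hex
  refine ⟨R, fun n S => ?_⟩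
  refine (exists_taylorWilesPrimes p r hr hrfin hcyc b
    (fun i => hW.2.1 (hbW i)) (fun i => hW.2.2.1 (hbW i)) hind
    (S ∪ Finset.image (fun v : Nat.Primes => (v : ℕ)) T₀) n).elim fun q hQ => ?_
  have hinj := hQ.1
  have hq := hQ.2.1
  have hunr := hQ.2.2.1
  have hfrob := hQ.2.2.2.1
  have hdet := hQ.2.2.2.2
  refine ⟨fun i => ⟨q i, (hq i).1⟩, fun i j e => hinj (congrArg Subtype.val e), fun i => ?_,
    fun i P hP τ hτ => (hunr i P hP τ hτ).1, hfrob, fun κ hκ => ?_⟩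
  · obtain ⟨-, h1, h2, h3⟩ := hq i
    simp only [Finset.mem_union, Finset.mem_image, not_or, not_exists, not_and] at h1
    exact ⟨h1.1, fun h => h1.2 _ h rfl, h2, h3⟩
  refine (hWrep κ).elim fun ρ hρ => hρ.elim fun y hρ' => hρ'.elim fun B hB => ?_
  haveI := fun i => (⟨(hq i).1⟩ : Fact (q i).Prime)
  choose φ hφ using fun i => exists_isFrobeniusAt (Local.padicPlace_liesOverPrime (q i)) (hq i).1
  exact mem_range_of_detect hε hr.two hrb hcyc (fun i => (⟨q i, (hq i).1⟩ : Nat.Primes)) φ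
    (fun i => (isFrobeniusAt_iff_forall_mem.1 (hφ i)).1)
    (fun i => (hfrob i _ (Local.padicPlace_liesOverPrime (q i)) _ (hφ i)).1) b
    (fun c hc => hdet (fun i => padicPlace (q i)) φ
      (fun i => Local.padicPlace_liesOverPrime (q i)) hφ c hc) hκ hB.1 (hspan _ hB.2.1) hB.2.2

end Fermat.Agent.CFT.Wiles
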