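import Fermat.Agent.CFT.Wiles.Inequality
import Fermat.Agent.CFT.Wiles.LocalData
import Fermat.Agent.CFT.Euler.Coprime
import Fermat.Agent.CFT.Euler.Values
import Fermat.Agent.CFT.Euler.SplitCompare

/-!
# Extensions at a prime of order prime to `p`

For a decomposition group of order prime to `p` the maps on the relations modulo those which
extend are bounded by the equivariant maps into the quotient by `p`; for a local field containing
the `p`-th roots of unity this quotient is a plane with trivial action.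
-/

set_option autoImplicit false
set_option linter.unusedSectionVars false
set_option linter.style.haveILetI false

noncomputable section

namespace Fermat.Agent.CFT.Wiles

open ExtCitation Fermat.Agent.Arith IntermediateField Fermat.Agent.CFT.Local Fermat.Agent.CFT.Idele
open Fermat.Agent.CFT.Duality Fermat.Agent.CFT.Euler

local instance factPrimeLocalExt (q : Nat.Primes) : Fact (q : ℕ).Prime := ⟨q.2⟩

section General

variable {p : ℕ} [hp : Fact p.Prime] {G : Type} [Group G] [Fintype G] {A : Type} [AddCommGroup A]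
  [DistribMulAction G A] (X : Pres p G A) {M : Type} [AddCommGroup M] [DistribMulAction G M]
  (hG : Nat.Coprime p (Nat.card G))

include hG in
/-- Equivariant maps into `p M` are divisible by `p`. -/
theorem exists_nsmul_eq {S : AddSubgroup X.P} (hS : IsStable G S) (f : equivHom (C := M) hS)
    (hf : ∀ s, ∃ m, p • m = f.1 s) : ∃ h : equivHom (C := M) hS, p • h = f := by
  classical
  haveI := free_subgroup (P := X.P) S
  let b := Module.Free.chooseBasis ℤ S
  choose m hm using fun i => hf (b i)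
  let φ : S →+ M := (b.constr ℤ m).toAddMonoidHom
  have hφ : ∀ s, p • φ s = f.1 s := by
    have e : ((nsmulAddMonoidHom p).comp φ).toIntLinearMap = f.1.toIntLinearMap := b.ext fun i => by
      show p • b.constr ℤ m (b i) = f.1 (b i)
      rw [Module.Basis.constr_basis, hm]
    exact fun s => LinearMap.congr_fun e s
  obtain ⟨a, c, hac⟩ : IsCoprime (p : ℤ) (Nat.card G : ℤ) := Nat.isCoprime_iff_coprime.mpr hG
  refine ⟨⟨c • normOn hS φ + a • f.1, fun g s => ?_⟩, Subtype.ext (AddMonoidHom.ext fun s => ?_)⟩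
  · show c • normOn hS φ (smulS hS g s) + a • f.1 (smulS hS g s) =
      g • (c • normOn hS φ s + a • f.1 s)
    rw [isEquivariantOn_normOn hS φ g s, f.2, smul_add, smul_comm c g, smul_comm a g]
  · show p • (c • normOn hS φ s + a • f.1 s) = f.1 s
    have e : p • normOn hS φ s = (Nat.card G : ℤ) • f.1 s := by
      rw [normOn_apply, Finset.smul_sum, natCast_zsmul, Nat.card_eq_fintype_card, ← Finset.card_univ,
        ← Finset.sum_const]
      refine Finset.sum_congr rfl fun g _ => ?_
      rw [smul_comm, hφ, f.2, smul_inv_smul]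
    rw [smul_add, smul_comm p c, e, smul_comm p a, ← natCast_zsmul (f.1 s) p, smul_smul, smul_smul,
      ← add_smul, add_comm, hac, one_smul]

include hG in
/-- Extensions modulo `p` bound extensions. -/
theorem lpN_index_res_le (hfull : ∀ x : X.P, x ∈ X.K) {D : Type} [AddCommGroup D]
    [DistribMulAction G D] (q : M →+ D) (hq : ∀ (g : G) (m : M), q (g • m) = g • q m)
    (hqs : Function.Surjective q) (hqk : ∀ x, q x = 0 ↔ ∃ m, p • m = x) [Finite A] [Finite D] :
    lpN p (X.res M).range.index ≤ lpN p (Nat.card (equivFun G A D)) := by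
  have hD : ∀ d : D, p • d = 0 := fun d => by
    obtain ⟨m, rfl⟩ := hqs d
    rw [← map_nsmul]
    exact (hqk _).2 ⟨m, rfl⟩
  haveI : Finite (A →+ D) := Finite.of_injective (fun f : A →+ D => (f : A → D))
    DFunLike.coe_injective
  haveI : Finite (X.res D).ker := Nat.finite_of_card_ne_zero (by
    rw [X.card_ker_res]; exact Nat.card_pos.ne')
  have hidx := (Pres.finiteIndexHom X (M := D) ⟨Subtype.finite, fun h => by
    haveI : Finite (D ⧸ (nsmulAddMonoidHom p : D →+ D).range) := inferInstance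
    exact AddSubgroup.index_ne_zero_of_finite h⟩).index
  have h0 := X.index_eq_zero_of_killed hG hD
  rw [Pres.index, lpIndex, sub_eq_zero, X.card_ker_res] at h0
  rw [← h0]
  have hle : ((X.res D).range.comap (postHom X.hS q hq)) ≤ (X.res M).range := by
    intro f hf
    refine hf.elim fun Y hY => ?_
    refine (exists_lift_full X q hq hfull hqs Y).elim fun Y' hY' => ?_
    have hz : ∀ s, ∃ m, p • m = (f - X.res M Y').1 s := fun s => (hqk _).1 (by
      show q (f.1 s - (X.res M Y').1 s) = 0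
      rw [map_sub, sub_eq_zero]
      have e1 := DFunLike.congr_fun (congrArg Subtype.val hY) s
      have e2 := DFunLike.congr_fun (congrArg Subtype.val hY') (AddSubgroup.inclusion X.le s)
      exact e1.symm.trans e2.symm)
    refine (exists_nsmul_eq X hG X.hS _ hz).elim fun h hh => ?_
    let g : X.K →+ M := h.1.comp ((mulP X.level).comp X.K.subtype)
    have hg : IsEquivariantOn X.hK g := fun σ x => by
      show h.1 _ = σ • h.1 _
      rw [← h.2]
      exact congrArg h.1 (Subtype.ext (smul_comm σ p (x : X.P)).symm)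
    refine ⟨Y' + ⟨g, hg⟩, ?_⟩
    · refine Subtype.ext (AddMonoidHom.ext fun s => ?_)
      show Y'.1 (AddSubgroup.inclusion X.le s) + h.1 (mulP X.level (s : X.P)) = f.1 s
      have e1 : p • h.1 s = f.1 s - Y'.1 (AddSubgroup.inclusion X.le s) :=
        DFunLike.congr_fun (congrArg Subtype.val hh) s
      rw [show mulP X.level (s : X.P) = p • s from Subtype.ext rfl, map_nsmul, e1, add_sub_cancel]
  refine lpN_mono p (dvd_trans (AddSubgroup.index_dvd_of_le hle) ?_) hidx
  rw [AddSubgroup.index_comap]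
  exact AddSubgroup.relIndex_dvd_index_of_normal _ _

end General

section Plane

variable {p : ℕ} [hp : Fact p.Prime] {H : Type} [Group H] {A : Type} [AddCommGroup A]
  [DistribMulAction H A] {D : Type} [AddCommGroup D] [DistribMulAction H D]

omit [Group H] [DistribMulAction H D] in
/-- Coordinates on a plane over `ZMod p`. -/
theorem exists_coords [Finite D] [Module (ZMod p) D] (hcard : Nat.card D ∣ p ^ 2) :
    ∃ φ : D →+ (Fin 2 → ZMod p), Function.Injective φ := by
  haveI : Module.Finite (ZMod p) D := Module.Finite.of_finite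
  have hd : Module.finrank (ZMod p) D ≤ 2 := by
    rw [Module.natCard_eq_pow_finrank (K := ZMod p) (V := D), Nat.card_zmod] at hcard
    exact (Nat.pow_dvd_pow_iff_le_right hp.out.one_lt).1 hcard
  exact ⟨((Function.ExtendByZero.linearMap (ZMod p) (Fin.castLE hd)).comp
      (Module.finBasis (ZMod p) D).equivFun.toLinearMap).toAddMonoidHom,
    (Function.extend_injective (Fin.castLE_injective hd) _).comp
      (Module.finBasis (ZMod p) D).equivFun.injective⟩

/-- Equivariant maps into a plane with trivial action. -/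
theorem lpN_card_equivFun_le [Finite A] [Finite D] (hD : ∀ d : D, p • d = 0)
    (hcard : Nat.card D ∣ p ^ 2) (htriv : ∀ (h : H) (d : D), h • d = d) :
    lpN p (Nat.card (equivFun H A D)) ≤ 2 * lpN p (Nat.card (fixDual p H A)) := by
  haveI := finite_dual (p := p) (A := A)
  refine (@exists_coords p _ D _ _ (AddCommGroup.zmodModule hD) hcard).elim fun φ hφ => ?_
  let Φ : equivFun H A D →+ (Fin 2 → fixDual p H A) :=
    AddMonoidHom.mk' (fun f i => ⟨((Pi.evalAddMonoidHom _ i).comp φ).comp f.1, fun h a => by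
      show φ (f.1 (h • a)) i = φ (f.1 a) i
      rw [f.2, htriv]⟩) fun f f' => funext fun i => Subtype.ext (AddMonoidHom.ext fun a =>
        show φ (f.1 a + f'.1 a) i = φ (f.1 a) i + φ (f'.1 a) i by rw [map_add]; rfl)
  have hΦ : Function.Injective Φ := fun f f' e => Subtype.ext (AddMonoidHom.ext fun a =>
    hφ (funext fun i => DFunLike.congr_fun (congrArg Subtype.val (congrFun e i)) a))
  have h1 := lpN_mono p (AddSubgroup.card_dvd_of_injective Φ hΦ) Nat.card_pos.ne'
  rw [Nat.card_pi, Fin.prod_univ_two, lpN_mul p Nat.card_pos.ne' Nat.card_pos.ne', ← two_mul] at h1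
  exact h1

end Plane

variable {p : ℕ} [hp : Fact p.Prime] {q : ℕ} [Fact q.Prime]
  (E : IntermediateField ℚ_[q] (PadicAlgCl q)) [FiniteDimensional ℚ_[q] E] [Normal ℚ_[q] E]

/-- In an extension of degree prime to `p` containing the `p`-th roots of unity, at a prime other
than `p`, the classes modulo `p`-th powers come from the base. -/
theorem pow_range_of_roots (hp2 : p ≠ 2) (hqp : q ≠ p)
    (hdeg : Nat.Coprime p (Nat.card (E ≃ₐ[ℚ_[q]] E))) {ζ : E} (hζ : IsPrimitiveRoot ζ p)
    (hfix : ∀ σ : E ≃ₐ[ℚ_[q]] E, σ ζ = ζ) :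
    (powMonoidHom p : Eˣ →* Eˣ).range.index ∣ p ^ 2 ∧
      ∀ (σ : E ≃ₐ[ℚ_[q]] E) (x : Eˣ), σ • x / x ∈ (powMonoidHom p : Eˣ →* Eˣ).range := by
  haveI : NeZero p := ⟨hp.out.ne_zero⟩
  haveI : IsGalois ℚ_[q] E := ⟨⟩
  let B : IntermediateField ℚ_[q] (PadicAlgCl q) := ⊥
  let ι : Bˣ →* Eˣ := Units.map (IntermediateField.inclusion (bot_le : B ≤ E)).toMonoidHom
  have hι : ∀ (σ : E ≃ₐ[ℚ_[q]] E) (u : Bˣ), σ • ι u = ι u := fun σ u => by
    obtain ⟨a, ha⟩ := IntermediateField.mem_bot.mp (u : B).2
    have h : ((ι u : Eˣ) : E) = algebraMap ℚ_[q] E a := Subtype.ext ha.symm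
    refine Units.ext ?_
    show σ (ι u : E) = ι u
    rw [h, AlgEquiv.commutes]
  have hker : ∀ {F : IntermediateField ℚ_[q] (PadicAlgCl q)} [FiniteDimensional ℚ_[q] F],
      ∀ {z : F}, IsPrimitiveRoot z p → (powMonoidHom p : Fˣ →* Fˣ).range.index = p ^ 2 := by
    intro F _ z hz
    rw [index_range_pow hp2, if_neg hqp, card_ker_pow_of_primitive hz, mul_one, sq]
  obtain ⟨a, ha⟩ := (IsGalois.mem_range_algebraMap_iff_fixed (F := ℚ_[q]) ζ).mpr hfix
  have haB : IsPrimitiveRoot (algebraMap ℚ_[q] B a) p :=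
    IsPrimitiveRoot.of_map_of_injective (f := IntermediateField.inclusion (bot_le : B ≤ E))
      (by rw [AlgHom.commutes, ha]; exact hζ) (IntermediateField.inclusion_injective _)
  have hE := hker hζ
  refine ⟨hE.dvd, ?_⟩
  set P := (powMonoidHom p : Eˣ →* Eˣ).range
  have hnorm : ∀ (u : Bˣ) (y : Eˣ), ι u = y ^ p → u ∈ (powMonoidHom p : Bˣ →* Bˣ).range := by
    intro u y hy
    let N : Eˣ := ∏ σ : E ≃ₐ[ℚ_[q]] E, σ • y
    have hN : ∀ g : E ≃ₐ[ℚ_[q]] E, g (N : E) = (N : E) := fun g => congrArg Units.val (show g • N = N by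
      rw [Finset.smul_prod']
      exact Fintype.prod_equiv (Equiv.mulLeft g) _ _ fun σ => (mul_smul g σ y).symm)
    obtain ⟨c, hc⟩ := (IsGalois.mem_range_algebraMap_iff_fixed (F := ℚ_[q]) (N : E)).mpr hN
    have hc0 : algebraMap ℚ_[q] B c ≠ 0 := fun h => N.ne_zero (by
      rw [← hc, (map_eq_zero (algebraMap ℚ_[q] B)).1 h, map_zero])
    let w : Bˣ := Units.mk0 _ hc0
    have hw : ι w = N := Units.ext ((AlgHom.commutes _ c).trans hc)
    have hinj : Function.Injective ι := Units.map_injective (IntermediateField.inclusion_injective _)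
    have e : u ^ Nat.card (E ≃ₐ[ℚ_[q]] E) = w ^ p := hinj (by
      rw [map_pow, map_pow, hw, ← Finset.prod_pow, Nat.card_eq_fintype_card, ← Finset.card_univ,
        ← Finset.prod_const]
      refine Finset.prod_congr rfl fun σ _ => ?_
      rw [← smul_pow', ← hy, hι])
    obtain ⟨s, t, hst⟩ : IsCoprime (p : ℤ) (Nat.card (E ≃ₐ[ℚ_[q]] E) : ℤ) :=
      Nat.isCoprime_iff_coprime.mpr hdeg
    refine ⟨u ^ s * w ^ t, ?_⟩
    show (u ^ s * w ^ t) ^ p = u
    calc (u ^ s * w ^ t) ^ p = u ^ (s * p) * (w ^ p) ^ t := by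
          rw [mul_pow, ← zpow_natCast (u ^ s), ← zpow_natCast (w ^ t), ← zpow_mul, ← zpow_mul,
            ← zpow_natCast w p, ← zpow_mul, mul_comm t (p : ℤ)]
      _ = u ^ (s * p) * (u ^ Nat.card (E ≃ₐ[ℚ_[q]] E)) ^ t := by rw [e]
      _ = u := by
          rw [← zpow_natCast u (Nat.card (E ≃ₐ[ℚ_[q]] E)), ← zpow_mul, ← zpow_add,
            mul_comm (Nat.card (E ≃ₐ[ℚ_[q]] E) : ℤ) t, hst, zpow_one]
  have hall : ∀ x : Eˣ, ∃ u, x / ι u ∈ P := by
    haveI : P.FiniteIndex := ⟨by rw [hE]; exact pow_ne_zero _ hp.out.ne_zero⟩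
    haveI : Finite (Eˣ ⧸ P) := Subgroup.finite_quotient_of_finiteIndex
    let PB := (powMonoidHom p : Bˣ →* Bˣ).range
    have hle : PB ≤ P.comap ι := by
      rintro _ ⟨w, rfl⟩
      exact ⟨ι w, (map_pow ι w p).symm⟩
    let φ : Bˣ ⧸ PB →* Eˣ ⧸ P := QuotientGroup.map PB P ι hle
    have hinj : Function.Injective φ := (injective_iff_map_eq_one φ).2 fun z hz => by
      obtain ⟨u, rfl⟩ := QuotientGroup.mk_surjective z
      obtain ⟨y, hy⟩ := (QuotientGroup.eq_one_iff _).1 hz
      exact (QuotientGroup.eq_one_iff _).2 (hnorm u y hy.symm)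
    have hbij := hinj.bijective_of_nat_card_le (le_of_eq (hE.trans (hker haB).symm))
    intro x
    obtain ⟨z, hz⟩ := hbij.2 (QuotientGroup.mk x)
    obtain ⟨u, rfl⟩ := QuotientGroup.mk_surjective z
    exact ⟨u, QuotientGroup.eq_iff_div_mem.1 hz.symm⟩
  intro σ x
  obtain ⟨u, hu⟩ := hall x
  obtain ⟨y, hy⟩ := hu
  refine ⟨σ • y / y, ?_⟩
  show (σ • y / y) ^ p = σ • x / x
  change y ^ p = x / ι u at hy
  rw [div_pow, ← smul_pow', hy, smul_div', hι, div_div_div_cancel_right]

variable {K : IntermediateField ℚ QBar} [FiniteDimensional ℚ K] [Normal ℚ K]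
  {A : Type} [AddCommGroup A]

/-- The local group modulo `p` is a plane with trivial action. -/
theorem locMod_plane (v : Nat.Primes) (hp2 : p ≠ 2) (hvp : (v : ℕ) ≠ p)
    (hD : Nat.Coprime p (Nat.card (decomp K v))) {ζ : K} (hζ : IsPrimitiveRoot ζ p)
    (hfix : ∀ d ∈ decomp K v, d ζ = ζ) :
    (nsmulAddMonoidHom p : LocMod K v →+ LocMod K v).range.index ∣ p ^ 2 ∧
      ∀ (d : decomp K v) (x : LocMod K v),
        d • x - x ∈ (nsmulAddMonoidHom p : LocMod K v →+ LocMod K v).range := by
  have hζE : IsPrimitiveRoot (localEmb (v : ℕ) K ζ) p :=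
    hζ.map_of_injective (localEmb (v : ℕ) K).injective
  have hcard : Nat.card (E K v ≃ₐ[ℚ_[(v : ℕ)]] E K v) = Nat.card (decomp K v) :=
    Nat.card_congr (decompEquiv K v).toEquiv
  have h := pow_range_of_roots (E K v) hp2 hvp (hcard ▸ hD) hζE fun σ => by
    rw [← Local.localEmb_toGlobal, hfix _ ⟨σ, rfl⟩]
  refine ⟨h.1, fun d x => ?_⟩
  refine (h.2 ((decompEquiv K v).symm d) ((LocMod.of K v).symm x).toMul).elim fun y hy => ?_
  exact ⟨LocMod.of K v (Additive.ofMul y), congrArg (fun u => LocMod.of K v (Additive.ofMul u)) hy⟩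

set_option maxHeartbeats 800000 in
/-- Extensions at a prime other than `p` with decomposition group of order prime to `p` fixing the
`p`-th roots of unity. -/
theorem lpN_index_locMod_le (v : Nat.Primes) [Fintype (decomp K v)] [DistribMulAction (decomp K v) A]
    [Finite A] (X : Pres p (decomp K v) A) (hfull : ∀ x : X.P, x ∈ X.K) (hp2 : p ≠ 2)
    (hvp : (v : ℕ) ≠ p) (hD : Nat.Coprime p (Nat.card (decomp K v))) {ζ : K}
    (hζ : IsPrimitiveRoot ζ p) (hfix : ∀ d ∈ decomp K v, d ζ = ζ) :
    lpN p (X.res (LocMod K v)).range.index ≤ 2 * lpN p (Nat.card (fixDual p (decomp K v) A)) := by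
  have hex := locMod_plane v hp2 hvp hD hζ hfix
  obtain ⟨hidx, htriv⟩ := hex
  generalize hR' : (nsmulAddMonoidHom p : LocMod K v →+ LocMod K v).range = R at hidx htriv
  have hR : IsStable (decomp K v) R := by
    subst hR'
    rintro d _ ⟨x, rfl⟩
    exact ⟨d • x, (smul_comm d p x).symm⟩
  letI := quotAction hR
  haveI : R.FiniteIndex := ⟨fun h => by
    rw [h, zero_dvd_iff] at hidx
    exact pow_ne_zero _ hp.out.ne_zero hidx⟩
  haveI : Finite (LocMod K v ⧸ R) := AddSubgroup.finite_quotient_of_finiteIndex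
  refine le_trans (lpN_index_res_le X hD hfull (QuotientAddGroup.mk' R) (fun _ _ => rfl)
    (QuotientAddGroup.mk'_surjective R) fun x => ?_)
    (lpN_card_equivFun_le (fun z => ?_) hidx fun d z => ?_)
  · subst hR'
    exact QuotientAddGroup.eq_zero_iff x
  · subst hR'
    refine (QuotientAddGroup.mk'_surjective _ z).elim fun x hx => ?_
    rw [← hx]
    exact (QuotientAddGroup.eq_zero_iff _).2 ⟨x, rfl⟩
  · refine (QuotientAddGroup.mk'_surjective R z).elim fun x hx => ?_
    rw [← hx]
    exact QuotientAddGroup.eq_iff_sub_mem.2 (htriv d x)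

end Fermat.Agent.CFT.Wiles
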