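import Fermat.Agent.CFT.Wiles.LevelLocal
import Fermat.Agent.CFT.Wiles.Detect
import Fermat.Agent.CFT.Wiles.LocalExt
import Fermat.Agent.CFT.Tangent.LocalBounds

/-!
# The count of classes with local conditions

For auxiliary primes detecting the Kummer classes, a space of classes unramified outside a finite
set and the auxiliary primes is bounded by their number and the excesses of the local conditions.
-/

set_option autoImplicit false
set_option linter.unusedSectionVars false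
set_option linter.style.haveILetI false

noncomputable section

namespace Fermat.Agent.CFT.Wiles

open ExtCitation Fermat.Agent.Arith IntermediateField Fermat.Agent.CFT.Local Fermat.Agent.CFT.Idele
open Fermat.Agent.CFT.Duality Fermat.Agent.CFT.Euler Fermat.Agent.Deform Fermat.Agent.CFT.Tangent
open Fermat.Agent.CFT.TWPrimes Module

local instance factPrimeCount (q : Nat.Primes) : Fact (q : ℕ).Prime := ⟨q.2⟩

variable {k : Type} [Field k] [Finite k] {p : ℕ} [hp : Fact p.Prime] [CharP k p]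

/-- A space of classes unramified outside `S₀` and the auxiliary primes. -/
structure IsClassSpace (r : GQ →* M2 k) (S₀ : Finset Nat.Primes) {R : ℕ} (q : Fin R → Nat.Primes)
    (V : Submodule k (GQ → M2 k)) : Prop where
  cocycle : ∀ b ∈ V, IsAdCocycle r b
  level : ∀ b ∈ V, IsFiniteLevel b
  trace : ∀ b ∈ V, ∀ σ, (b σ).trace = 0
  disjoint : ∀ b ∈ V, ∀ X, b = cobdLin r X → b = 0
  unramified : ∀ ℓ : Nat.Primes, ℓ ∉ S₀ → (∀ i, ℓ ≠ q i) →
    ∀ b ∈ V, ∀ τ ∈ (padicPlace (ℓ : ℕ)).inertiaSubgroupIn ℚ, b τ = 0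

variable [Algebra (ZMod p) k]

variable {r : GQ →* M2 k} {ζ : QBar} {K : IntermediateField ℚ QBar} [FiniteDimensional ℚ K]
  [Normal ℚ K] (hK : K.fixingSubgroup = r.ker)

/-- No fixed vectors in the adjoint module at the level of the representation. -/
theorem fixPts_levelRep_eq_bot (hr : TWHyp r) :
    fixPts (K ≃ₐ[ℚ] K) (Ad0 (levelRep r hK.le)) = ⊥ := by
  rw [AddSubgroup.eq_bot_iff_forall]
  intro a ha
  by_contra hne
  refine hr.no_adjoint_line (Y := a.mat) (fun h => hne (Ad0.mat_injective (h.trans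
    (map_zero _).symm))) a.trace_mat fun g => ⟨1, ?_⟩
  have e' : r g * a.mat * r g⁻¹ = a.mat := by
    have e'' : levelRep r hK.le (res K g) * a.mat * levelRep r hK.le (res K g)⁻¹ = a.mat :=
      congrArg Ad0.mat (ha (res K g))
    rwa [← map_inv, levelRep_res, levelRep_res] at e''
  rw [one_smul]
  conv_rhs => rw [← e', mul_assoc, rinv_mul, mul_one]

omit hK [Fact p.Prime] [CharP k p] [Algebra (ZMod p) k] in
theorem lpN_le_of_two_mul {a b : ℕ} {x f : ℤ} (e : a = b) (h1 : x ≤ 2 * lpN p a)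
    (h3 : lpN p b ≤ f) : x ≤ lpN p b + f := by
  subst e
  linarith

variable [Fintype (Ad0 (levelRep r hK.le))]

/-- The term of an auxiliary prime. -/
theorem lpN_ext_index_le (hp2 : p ≠ 2) (h2 : (2 : k) ≠ 0) (hζ : IsPrimitiveRoot ζ p)
    (hcyc : ∀ (σ : GQ) (a : ℕ), (∀ μ : QBar, μ ^ p = 1 → σ μ = μ ^ a) → (r σ).det = (a : k))
    (ℓ : Nat.Primes) [Fintype (decomp K ℓ)] (hℓp : (ℓ : ℕ) ≠ p)
    (hI : ∀ τ ∈ (padicPlace (ℓ : ℕ)).inertiaSubgroupIn ℚ, r τ = 1) {F : GQ}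
    (hF : (padicPlace (ℓ : ℕ)).IsFrobeniusAt F (ℓ : ℕ)) (hdet : (r F).det = 1)
    (htr : (r F).trace ^ 2 ≠ 4) {α β : k} (hαβ : α ≠ β)
    (hchar : (r F).charpoly = (Polynomial.X - Polynomial.C α) * (Polynomial.X - Polynomial.C β)) :
    lpN p (((presOf (adEps_presentation (rb := levelRep r hK.le) p)).restrict (decomp K ℓ)).res
        (LocMod K ℓ)).range.index ≤
      lpN p (Nat.card (fixPts (decomp K ℓ) (Ad0 (levelRep r hK.le)))) + lpN p (Nat.card k) := by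
  have hζK := zeta_mem p hζ hcyc hK
  have hζ' : IsPrimitiveRoot (⟨ζ, hζK⟩ : K) p :=
    IsPrimitiveRoot.of_map_of_injective (f := K.val) hζ K.val.injective
  have hzfix : ∀ d ∈ decomp K ℓ, d (⟨ζ, hζK⟩ : K) = ⟨ζ, hζK⟩ := fun d hd => by
    obtain ⟨m, rfl⟩ := Subgroup.mem_zpowers_iff.1 (decomp_le_zpowers hK hI hF hd)
    have hFz : res K F ∈ MulAction.stabilizer (K ≃ₐ[ℚ] K) (⟨ζ, hζK⟩ : K) :=
      MulAction.mem_stabilizer_iff.2 (Subtype.ext
        ((AlgEquiv.restrictNormal_commutes F K ⟨ζ, hζK⟩).trans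
          (zeta_fixed_of_det p hζ hcyc F hdet)))
    exact MulAction.mem_stabilizer_iff.1 (Subgroup.zpow_mem _ hFz m)
  have e1 : Nat.card (fixDual p (decomp K ℓ) (Ad0 (levelRep r hK.le))) =
      Nat.card (fixPts (decomp K ℓ) (Ad0 (levelRep r hK.le))) :=
    (card_fixDual p h2 (decomp K ℓ)).trans (card_fixPts (decomp K ℓ)).symm
  have h1 := lpN_index_locMod_le ℓ
    ((presOf (adEps_presentation (rb := levelRep r hK.le) p)).restrict (decomp K ℓ))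
    (fun _ => trivial) hp2 hℓp (coprime_card_decomp p hK hI hF hαβ hchar) hζ' hzfix
  have h3 : lpN p (Nat.card (fixPts (decomp K ℓ) (Ad0 (levelRep r hK.le)))) ≤
      lpN p (Nat.card k) := by
    haveI : Finite (fixedOn (levelRep r hK.le) (decomp K ℓ)) := Module.finite_of_finite k
    rw [card_fixPts, lpN_card_eq p (k := k) (W := fixedOn (levelRep r hK.le) (decomp K ℓ))]
    refine mul_le_of_le_one_right (zero_le_one.trans (one_le_lpN_card p)) ?_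
    exact_mod_cast finrank_fixedOn_decomp_le hK hF h2 hdet htr
  exact lpN_le_of_two_mul e1 h1 h3

/-- A prime with regular Frobenius. -/
def IsAuxPrime (p : ℕ) (r : GQ →* M2 k) (ℓ : Nat.Primes) : Prop :=
  (ℓ : ℕ) ≠ p ∧ (∀ τ ∈ (padicPlace (ℓ : ℕ)).inertiaSubgroupIn ℚ, r τ = 1) ∧
    ∃ F : GQ, (padicPlace (ℓ : ℕ)).IsFrobeniusAt F (ℓ : ℕ) ∧ (r F).det = 1 ∧
      (r F).trace ^ 2 ≠ 4 ∧ ∃ α β : k, α ≠ β ∧ (r F).charpoly =
        (Polynomial.X - Polynomial.C α) * (Polynomial.X - Polynomial.C β)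

omit [FiniteDimensional ℚ K] [Normal ℚ K] hK [CharP k p] [Algebra (ZMod p) k]
  [Fintype (Ad0 (levelRep r hK.le))] in
theorem auxData_of_eq {R : ℕ} {q : Fin R → Nat.Primes} {j : Fin R} {ℓ : Nat.Primes} (hj : q j = ℓ)
    (hinert : ∀ i, ∀ P : ValuationSubring QBar, P.LiesOverPrime (q i) →
      ∀ τ ∈ P.inertiaSubgroupIn ℚ, r τ = 1)
    (hfrob : ∀ i, ∀ P : ValuationSubring QBar, P.LiesOverPrime (q i) → ∀ φ : GQ,
        P.IsFrobeniusAt φ (q i) → (r φ).det = 1 ∧ (r φ).trace ^ 2 ≠ 4 ∧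
          ∃ α β : k, α ≠ β ∧ (r φ).charpoly =
            (Polynomial.X - Polynomial.C α) * (Polynomial.X - Polynomial.C β))
    (hqp : (q j : ℕ) ≠ p) : IsAuxPrime p r ℓ := by
  subst hj
  have hP := Local.padicPlace_liesOverPrime (q j : ℕ)
  obtain ⟨F, hF⟩ := exists_isFrobeniusAt hP (q j).2
  exact ⟨hqp, fun τ hτ => hinert j _ hP τ hτ, F, hF, hfrob j _ hP F hF⟩

/-- The term of an auxiliary prime, from its defining property. -/
theorem lpN_ext_index_le' (hp2 : p ≠ 2) (h2 : (2 : k) ≠ 0) (hζ : IsPrimitiveRoot ζ p)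
    (hcyc : ∀ (σ : GQ) (a : ℕ), (∀ μ : QBar, μ ^ p = 1 → σ μ = μ ^ a) → (r σ).det = (a : k))
    (ℓ : Nat.Primes) [Fintype (decomp K ℓ)] (hℓ : IsAuxPrime p r ℓ) :
    lpN p (((presOf (adEps_presentation (rb := levelRep r hK.le) p)).restrict (decomp K ℓ)).res
        (LocMod K ℓ)).range.index ≤
      lpN p (Nat.card (fixPts (decomp K ℓ) (Ad0 (levelRep r hK.le)))) + lpN p (Nat.card k) :=
  hℓ.2.2.elim fun _ hF => hF.2.2.2.elim fun _ h' => h'.elim fun _ hαβ =>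
    lpN_ext_index_le hK hp2 h2 hζ hcyc ℓ hℓ.1 hℓ.2.1 hF.1 hF.2.1 hF.2.2.1 hαβ.1 hαβ.2

variable {L : IntermediateField ℚ QBar} [FiniteDimensional ℚ L] [Normal ℚ L]

/-- The term of a place with a bound up to an excess. -/
theorem lpN_locTriv_le (h : K ≤ L) (V : Submodule k (GQ → M2 k)) [Module.Finite k V]
    (hcoc : ∀ b ∈ V, IsAdCocycle r b) (htr : ∀ b ∈ V, ∀ σ, (b σ).trace = 0)
    (hL : ∀ σ, σ ∈ L.fixingSubgroup ↔ r σ = 1 ∧ ∀ b ∈ V, b σ = 0) (ℓ : Nat.Primes) (e : ℤ)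
    (he : (finrank k V : ℤ) ≤
        finrank k (V ⊓ cobdOn r ((padicPlace (ℓ : ℕ)).decompositionSubgroup ℚ) :
          Submodule k (GQ → M2 k)) +
        finrank k (fixedOn r ((padicPlace (ℓ : ℕ)).decompositionSubgroup ℚ)) + e) :
    lpN p (locTriv h (levelImg hK h V hcoc htr hL) ℓ).index ≤
      lpN p (Nat.card (fixPts (decomp K ℓ) (Ad0 (levelRep r hK.le)))) + lpN p (Nat.card k) * e := by
  have h1 := lpN_locTriv_index_le p hK h V hcoc htr hL ℓ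
  have h2 := le_lpN_fixPts p hK ℓ
  have h4 := mul_le_mul_of_nonneg_left he (zero_le_one.trans (one_le_lpN_card (k := k) p))
  rw [mul_add, mul_add] at h4
  linarith

omit [Fintype (Ad0 (levelRep r hK.le))] in
/-- The arithmetic of the count. -/
theorem le_of_sums {ι : Type*} [Fintype ι] [DecidableEq ι] (Q : Finset ι) (fix idx ext e : ι → ℤ)
    (d w f R : ℤ) (hf : 0 < f) (hQ : (Q.card : ℤ) ≤ R) (hw : f ≤ w)
    (hout : ∀ i ∈ Finset.univ \ Q, idx i ≤ fix i + f * e i) (hin : ∀ i ∈ Q, ext i ≤ fix i + f)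
    (a : ℤ) (hd : a = f * d)
    (hmain : a + w + ∑ i, fix i ≤ ∑ i ∈ Finset.univ \ Q, idx i + ∑ i ∈ Q, ext i) :
    d + 1 ≤ R + ∑ i ∈ Finset.univ \ Q, e i := by
  subst hd
  have hsum1 := Finset.sum_le_sum hout
  have hsum2 := Finset.sum_le_sum hin
  rw [Finset.sum_add_distrib, ← Finset.mul_sum] at hsum1
  rw [Finset.sum_add_distrib, Finset.sum_const, nsmul_eq_mul] at hsum2
  have hsplit := Finset.sum_sdiff (Finset.subset_univ Q) (f := fix)
  refine le_of_mul_le_mul_left ?_ hf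
  rw [mul_add, mul_one, mul_add]
  have hQf := mul_le_mul_of_nonneg_right hQ hf.le
  linarith

omit hK [Fintype (Ad0 (levelRep r hK.le))] [CharP k p] [Algebra (ZMod p) k] in
/-- Detection at the auxiliary primes descends from the larger finite set. -/
theorem kum_of_detect {A : Type} [AddCommGroup A] [DistribMulAction (K ≃ₐ[ℚ] K) A]
    {ι : Type} [Fintype ι] {ε : Lat (K ≃ₐ[ℚ] K) ι →+ A} (hε : Presentation p ε)
    {T₀ T : Finset Nat.Primes} [∀ i : {ℓ // ℓ ∈ T}, Fintype (decomp K i.1)] (hsub : T₀ ⊆ T)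
    (hgen : GenClasses K T₀) {R : ℕ} (q : Fin R → Nat.Primes) (hqmem : ∀ i, q i ∈ T)
    (hqT : ∀ i, q i ∉ T₀)
    (hdet : ∀ κ : equivHom (C := tUnits K T₀) (presOf hε).hS,
        (∀ i, LocExt (q i) ((tUnits K T₀).subtype.comp κ.1)) →
          κ ∈ ((presOf hε).res (tUnits K T₀)).range)
    (Q : Finset {ℓ // ℓ ∈ T}) (hQ : ∀ i : {ℓ // ℓ ∈ T}, i.1 ∉ T₀ → i ∈ Q)
    (κ : equivHom (C := tUnits K T) hε.isStable_ker)
    (hκ : ∀ i ∈ Q,
      evMap (presOf hε) (presOf hε).hS (postHom hε.isStable_ker (iU K T) iU_smul κ) i ∈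
        (((presOf hε).restrict (decomp K i.1)).res (LocMod K i.1)).range) :
    κ ∈ ((presOf hε).res (tUnits K T)).range :=
  mem_range_of_locExt hε hsub hgen
    (fun κ₀ hκ₀ => hdet κ₀ fun j => hκ₀ (q j) (Finset.mem_sdiff.2 ⟨hqmem j, hqT j⟩)) κ
    fun ℓ hℓ => locExt_of_mem_range hε ⟨ℓ, (Finset.mem_sdiff.1 hℓ).1⟩ κ
      (hκ _ (hQ _ (Finset.mem_sdiff.1 hℓ).2))

omit hK [Fintype (Ad0 (levelRep r hK.le))] [Fact p.Prime] [CharP k p] [Algebra (ZMod p) k] in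
theorem sum_excess_eq {S₀ T₀ T : Finset Nat.Primes} (s : Finset {ℓ // ℓ ∈ T})
    (hmap : s.map ⟨Subtype.val, Subtype.val_injective⟩ = T₀) (hS₀T₀ : S₀ ⊆ T₀)
    (e : Nat.Primes → ℤ) :
    ∑ i ∈ s, (if i.1 ∈ S₀ then e i.1 else 0) = ∑ ℓ ∈ S₀, e ℓ := by
  have h1 := Finset.sum_map s ⟨Subtype.val, Subtype.val_injective⟩
    fun ℓ => if ℓ ∈ S₀ then e ℓ else 0
  rw [hmap, ← Finset.sum_subset hS₀T₀ fun ℓ _ hℓ => if_neg hℓ] at h1
  exact h1.symm.trans (Finset.sum_congr rfl fun ℓ hℓ => if_pos hℓ)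

/-- The bound for a space of classes at given auxiliary primes. -/
theorem finrank_add_one_le (hr : TWHyp r) (hrfin : GaloisFactorsThroughFiniteLevel r) (hp2 : p ≠ 2)
    (hζ : IsPrimitiveRoot ζ p)
    (hcyc : ∀ (σ : GQ) (a : ℕ), (∀ μ : QBar, μ ^ p = 1 → σ μ = μ ^ a) → (r σ).det = (a : k))
    {S₀ T₀ : Finset Nat.Primes}
    (hS₀ : ∀ ℓ : Nat.Primes, ℓ ∉ S₀ → ∀ τ ∈ (padicPlace (ℓ : ℕ)).inertiaSubgroupIn ℚ, r τ = 1)
    (hS₀T₀ : S₀ ⊆ T₀) (hT₀ne : T₀.Nonempty) (hgen : GenClasses K T₀) {R : ℕ}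
    (q : Fin R → Nat.Primes) (hqT : ∀ i, q i ∉ T₀) (hqp : ∀ i, (q i : ℕ) ≠ p)
    (hinert : ∀ i, ∀ P : ValuationSubring QBar, P.LiesOverPrime (q i) →
      ∀ τ ∈ P.inertiaSubgroupIn ℚ, r τ = 1)
    (hfrob : ∀ i, ∀ P : ValuationSubring QBar, P.LiesOverPrime (q i) → ∀ φ : GQ,
        P.IsFrobeniusAt φ (q i) → (r φ).det = 1 ∧ (r φ).trace ^ 2 ≠ 4 ∧
          ∃ α β : k, α ≠ β ∧ (r φ).charpoly =
            (Polynomial.X - Polynomial.C α) * (Polynomial.X - Polynomial.C β))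
    (hdet : ∀ κ : equivHom (C := tUnits K T₀)
        (presOf (adEps_presentation (rb := levelRep r hK.le) p)).hS,
        (∀ i, LocExt (q i) ((tUnits K T₀).subtype.comp κ.1)) →
          κ ∈ ((presOf (adEps_presentation (rb := levelRep r hK.le) p)).res (tUnits K T₀)).range)
    (V : Submodule k (GQ → M2 k)) [Module.Finite k V] (hV : IsClassSpace r S₀ q V)
    (e : Nat.Primes → ℤ) (he : ∀ ℓ ∈ S₀, (finrank k V : ℤ) ≤
        finrank k (V ⊓ cobdOn r ((padicPlace (ℓ : ℕ)).decompositionSubgroup ℚ) :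
          Submodule k (GQ → M2 k)) +
        finrank k (fixedOn r ((padicPlace (ℓ : ℕ)).decompositionSubgroup ℚ)) + e ℓ) :
    (finrank k V : ℤ) + 1 ≤ R + ∑ ℓ ∈ S₀, e ℓ := by
  classical
  have hζK := zeta_mem p hζ hcyc hK
  obtain ⟨L, hLf, hLn, h, hk, hL⟩ :=
    exists_cocycle_field (K := K) p hrfin V hV.cocycle hV.level hK
  haveI := hLf
  haveI := hLn
  obtain ⟨T, hT⟩ : ∃ T : Finset Nat.Primes, ∀ ℓ, ℓ ∈ T ↔ ℓ ∈ T₀ ∨ ∃ j, q j = ℓ :=
    ⟨T₀ ∪ Finset.univ.image q, fun ℓ => by simp⟩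
  have hsub : T₀ ⊆ T := fun ℓ hℓ => (hT ℓ).2 (Or.inl hℓ)
  haveI : ∀ i : {ℓ // ℓ ∈ T}, Fintype (decomp K i.1) := fun i => Fintype.ofFinite _
  have hTK : ∀ ℓ ∉ T, inertia (E K ℓ) = ⊥ := fun ℓ hℓ => inertia_eq_bot_of_fix ℓ fun g hg => by
    rw [hK]; exact hS₀ ℓ (fun h' => hℓ (hsub (hS₀T₀ h'))) g hg
  have hTL : ∀ ℓ ∉ T, inertia (E L ℓ) = ⊥ := fun ℓ hℓ => inertia_eq_bot_of_fix ℓ fun g hg => by
    have hℓ₀ : ℓ ∉ S₀ := fun h' => hℓ (hsub (hS₀T₀ h'))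
    exact (hL g).2 ⟨hS₀ ℓ hℓ₀ g hg, fun b hb => hV.unramified ℓ hℓ₀ (fun i e' => hℓ
      ((hT ℓ).2 (Or.inr ⟨i, e'.symm⟩))) b hb g hg⟩
  have hgenT : GenClasses K T := fun f =>
    (hgen f).elim fun a ha => ⟨a, fun ℓ hℓ => ha ℓ fun h' => hℓ (hsub h')⟩
  haveI : NumberField K := {}
  obtain ⟨w⟩ := (inferInstance : Nonempty (NumberField.InfinitePlace K))
  have hε := adEps_presentation (rb := levelRep r hK.le) p
  let Q : Finset {ℓ // ℓ ∈ T} := Finset.univ.filter fun i => i.1 ∉ T₀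
  have hQ : Q = Finset.univ.filter fun i => i.1 ∉ T₀ := rfl
  have hQmem : ∀ i ∈ Q, ∃ j, q j = i.1 := fun i hi => by
    rcases (hT _).1 i.2 with h' | h'
    · exact absurd h' (Finset.mem_filter.1 hi).2
    · exact h'
  have hKum := kum_of_detect hε hsub hgen q (fun j => (hT _).2 (Or.inr ⟨j, rfl⟩)) hqT hdet
    Q fun i hi => Finset.mem_filter.2 ⟨Finset.mem_univ _, hi⟩
  have hmain := lpN_cocycles_le hε hp2 hζ hζK h hk (hT₀ne.mono hsub) hTK hTL hgenT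
    (fixPts_levelRep_eq_bot hK hr) w (levelImg hK h V hV.cocycle hV.trace hL)
    (disjoint_levelImg hK h V hV.cocycle hV.trace hL hV.disjoint) Q hKum
  have hd : lpN p (Nat.card (levelImg hK h V hV.cocycle hV.trace hL)) =
      lpN p (Nat.card k) * finrank k V :=
    (congrArg (lpN p) (card_levelImg hK h V hV.cocycle hV.trace hL)).trans
      (lpN_card_eq p (k := k) (W := V))
  let e' : Nat.Primes → ℤ := fun ℓ => if ℓ ∈ S₀ then e ℓ else 0
  have hout : ∀ i ∈ Finset.univ \ Q,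
      lpN p (locTriv h (levelImg hK h V hV.cocycle hV.trace hL) i.1).index ≤
        lpN p (Nat.card (fixPts (decomp K i.1) (Ad0 (levelRep r hK.le)))) +
          lpN p (Nat.card k) * e' i.1 := fun i hi => by
    have hi₀ : i.1 ∈ T₀ := by simpa [hQ] using (Finset.mem_sdiff.1 hi).2
    refine lpN_locTriv_le hK h V hV.cocycle hV.trace hL i.1 (e' i.1) ?_
    by_cases h' : i.1 ∈ S₀
    · simp only [e', if_pos h']
      exact he _ h'
    · simp only [e', if_neg h', add_zero]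
      exact_mod_cast finrank_le_unramified hrfin V hV.cocycle hV.level hV.trace
        (hS₀ i.1 h') (hV.unramified i.1 h' fun j ej => hqT j (ej ▸ hi₀))
  have hin := fun i hi => (hQmem i hi).elim fun j hj =>
    lpN_ext_index_le' hK hp2 hr.two hζ hcyc i.1 (auxData_of_eq hj hinert hfrob (hqp j))
  have hQcard : (Q.card : ℤ) ≤ R := by
    have h0 : Q.map ⟨Subtype.val, Subtype.val_injective⟩ ⊆ Finset.univ.image q := fun ℓ hℓ => by
      obtain ⟨i, hi, rfl⟩ := Finset.mem_map.1 hℓ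
      obtain ⟨j, hj⟩ := hQmem i hi
      exact Finset.mem_image.2 ⟨j, Finset.mem_univ _, hj⟩
    have h1 := (Finset.card_le_card h0).trans Finset.card_image_le
    rw [Finset.card_map, Finset.card_univ, Fintype.card_fin] at h1
    exact_mod_cast h1
  have hmap : (Finset.univ \ Q).map ⟨Subtype.val, Subtype.val_injective⟩ = T₀ := by
    ext ℓ
    constructor
    · intro hℓ
      obtain ⟨i, hi, rfl⟩ := Finset.mem_map.1 hℓ
      simpa [hQ] using hi
    · intro hℓ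
      exact Finset.mem_map.2 ⟨⟨ℓ, hsub hℓ⟩, by simp [hQ, hℓ], rfl⟩
  have hesum : ∑ i ∈ Finset.univ \ Q, e' i.1 = ∑ ℓ ∈ S₀, e ℓ :=
    sum_excess_eq _ hmap hS₀T₀ e
  exact (le_of_sums Q _ _ _ _ _ _ _ _ (lt_of_lt_of_le zero_lt_one (one_le_lpN_card p)) hQcard
    (le_lpN_fixDual p hζ hcyc hK hp2 hr.two w) hout hin _ hd hmain).trans_eq
    (congrArg ((R : ℤ) + ·) hesum)

omit hK

/-- **The count.** -/
theorem exists_primes_count (hr : TWHyp r)
    (hrfin : GaloisFactorsThroughFiniteLevel r) (hp2 : p ≠ 2) (hζ : IsPrimitiveRoot ζ p)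
    (hcyc : ∀ (σ : GQ) (a : ℕ), (∀ μ : QBar, μ ^ p = 1 → σ μ = μ ^ a) → (r σ).det = (a : k))
    (S₀ : Finset Nat.Primes)
    (hS₀ : ∀ ℓ : Nat.Primes, ℓ ∉ S₀ → ∀ τ ∈ (padicPlace (ℓ : ℕ)).inertiaSubgroupIn ℚ, r τ = 1) :
    ∃ R : ℕ, ∀ (n : ℕ) (S : Finset ℕ), ∃ q : Fin R → Nat.Primes, Function.Injective q ∧
      (∀ i, (q i : ℕ) ∉ S ∧ q i ∉ S₀ ∧ (q i : ℕ) ≠ p ∧ p ^ (n + 1) ∣ (q i : ℕ) - 1) ∧
      (∀ i, ∀ P : ValuationSubring QBar, P.LiesOverPrime (q i) → ∀ τ ∈ P.inertiaSubgroupIn ℚ,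
        r τ = 1) ∧
      (∀ i, ∀ P : ValuationSubring QBar, P.LiesOverPrime (q i) → ∀ φ : GQ,
        P.IsFrobeniusAt φ (q i) → ∃ α β : k, α ≠ β ∧ (r φ).charpoly =
            (Polynomial.X - Polynomial.C α) * (Polynomial.X - Polynomial.C β)) ∧
      ∀ (V : Submodule k (GQ → M2 k)) [Module.Finite k V], IsClassSpace r S₀ q V →
        ∀ e : Nat.Primes → ℤ, (∀ ℓ ∈ S₀, (finrank k V : ℤ) ≤
            finrank k (V ⊓ cobdOn r ((padicPlace (ℓ : ℕ)).decompositionSubgroup ℚ) :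
              Submodule k (GQ → M2 k)) +
            finrank k (fixedOn r ((padicPlace (ℓ : ℕ)).decompositionSubgroup ℚ)) + e ℓ) →
          (finrank k V : ℤ) + 1 ≤ R + ∑ ℓ ∈ S₀, e ℓ := by
  obtain ⟨K, hKf, hKn, hK⟩ := exists_field_of_rep r hrfin
  haveI := hKf
  haveI := hKn
  obtain ⟨T₀, hS₀T₀, hT₀ne, hgen⟩ := exists_genClasses (K := K) S₀
  haveI : Fintype (Ad0 (levelRep r hK.le)) := Fintype.ofFinite _
  refine (exists_detecting_primes hζ (adEps_presentation (rb := levelRep r hK.le) p)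
    (levelRep_res r hK.le) hr hrfin hcyc T₀).elim fun R hR => ⟨R, fun n S => ?_⟩
  refine (hR n S).elim fun q hq => ⟨q, hq.1,
    fun i => ⟨(hq.2.1 i).1, fun h => (hq.2.1 i).2.1 (hS₀T₀ h), (hq.2.1 i).2.2⟩,
    hq.2.2.1, fun i P hP φ hφ => (hq.2.2.2.1 i P hP φ hφ).2.2, fun V _ hV e he => ?_⟩
  exact finrank_add_one_le hK hr hrfin hp2 hζ hcyc hS₀ hS₀T₀ hT₀ne hgen q
    (fun i => (hq.2.1 i).2.1) (fun i => (hq.2.1 i).2.2.1) hq.2.2.1 hq.2.2.2.1 hq.2.2.2.2 V hV e he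

end Fermat.Agent.CFT.Wiles
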