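import Fermat.Agent.CFT.Wiles.Bound

/-!
# Descent from units outside `T` to units outside `T₀`

If `T₀` generates the classes, a map into the units outside `T` which extends locally at the primes
of `T \ T₀` differs from an extension by a map into the units outside `T₀`.
-/

set_option autoImplicit false
set_option linter.unusedSectionVars false
set_option linter.style.haveILetI false

noncomputable section

namespace Fermat.Agent.CFT.Wiles

open ExtCitation Fermat.Agent.Arith IntermediateField Fermat.Agent.CFT.Local Fermat.Agent.CFT.Idele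
open Fermat.Agent.CFT.Duality Fermat.Agent.CFT.Euler

local instance factPrimeDescent (q : Nat.Primes) : Fact (q : ℕ).Prime := ⟨q.2⟩

variable {K : IntermediateField ℚ QBar} [FiniteDimensional ℚ K] [Normal ℚ K]
  {A : Type} [AddCommGroup A] [DistribMulAction (K ≃ₐ[ℚ] K) A]
  {ι : Type} [Fintype ι] {p : ℕ} [hp : Fact p.Prime] {ε : Lat (K ≃ₐ[ℚ] K) ι →+ A}

/-- A map into `Kˣ` extends at the distinguished place over `q`. -/
def LocExt (q : Nat.Primes) (w : ε.ker →+ Additive Kˣ) : Prop :=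
  ∃ Y : Lat (K ≃ₐ[ℚ] K) ι →+ LocMod K q,
    (∀ (d : decomp K q) x, Y ((d : K ≃ₐ[ℚ] K) • x) = d • Y x) ∧
      ∀ s : ε.ker, Y s = valMod K q 1 (diag K (w s))

theorem valMod_decomp (q : Nat.Primes) (d : decomp K q) (f : J K) :
    valMod K q 1 ((d : K ≃ₐ[ℚ] K) • f) = d • valMod K q 1 f := by
  rw [valMod_apply, val_smul_J, ← valMod_apply, one_mul, ← mul_one (d : K ≃ₐ[ℚ] K), valMod_equi]

theorem locExt_of_mem_range (hε : Presentation p ε) {T : Finset Nat.Primes}
    [∀ i : {q // q ∈ T}, Fintype (decomp K i.1)] (i : {q // q ∈ T})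
    (κ : equivHom (C := tUnits K T) hε.isStable_ker)
    (h : evMap (presOf hε) (presOf hε).hS (postHom hε.isStable_ker (iU K T) iU_smul κ) i ∈
      (((presOf hε).restrict (decomp K i.1)).res (LocMod K i.1)).range) :
    LocExt i.1 ((tUnits K T).subtype.comp κ.1) := by
  refine h.elim fun Y hY => ?_
  refine ⟨Y.1.comp ((AddMonoidHom.id (Lat (K ≃ₐ[ℚ] K) ι)).codRestrict
    (⊤ : AddSubgroup (Lat (K ≃ₐ[ℚ] K) ι)) fun _ => trivial),
    fun d x => Y.2 d ⟨x, trivial⟩, fun s => ?_⟩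
  exact DFunLike.congr_fun (congrArg Subtype.val hY) s

variable (K) in
/-- The order on the multiplicative group of a completion. -/
def ordHom (q : Nat.Primes) : LocMod K q →+ TrivZ (decomp K q) :=
  AddMonoidHom.mk' (fun x => TrivZ.of (ordZ (E K q) ((LocMod.of K q).symm x).toMul)) fun a b => by
    rw [map_add, toMul_add, ordZ_mul, map_add]

theorem ordHom_smul (q : Nat.Primes) (d : decomp K q) (x : LocMod K q) :
    ordHom K q (d • x) = ordHom K q x := by
  show TrivZ.of (G := decomp K q) (ordZ (E K q)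
    ((decompEquiv K q).symm d • ((LocMod.of K q).symm x).toMul)) = TrivZ.of _
  rw [ordZ_smul]

variable {T₀ T : Finset Nat.Primes}

theorem tUnits_mono (h : T₀ ⊆ T) : tUnits K T₀ ≤ tUnits K T :=
  fun _ hx q hq σ => hx q (fun h' => hq (h h')) σ

theorem mem_tUnits_of_ordZ {a : Additive Kˣ} (ha : a ∈ tUnits K T)
    (h : ∀ q ∈ T, q ∉ T₀ → ∀ σ, ordZ (E K q) (val (prinL K a.toMul) q σ) = 0) :
    a ∈ tUnits K T₀ := fun q hq σ => by
  by_cases hqT : q ∈ T
  · exact (ordZ_eq_zero_iff _).1 (h q hqT hq σ)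
  · exact ha q hqT σ

variable (K T₀ T) in
/-- The orders at the places of `T` outside `T₀`. -/
def ordDiff : tUnits K T →+
    ∀ i : {q // q ∈ T \ T₀}, CoInd (decomp K i.1) (TrivZ (decomp K i.1)) :=
  (ordFun (T \ T₀)).comp ((diag K).comp (tUnits K T).subtype)

theorem ordDiff_smul (g : K ≃ₐ[ℚ] K) (x : tUnits K T) :
    ordDiff K T₀ T (g • x) = g • ordDiff K T₀ T x := by
  show ordFun (T \ T₀) (diag K ((g • x : tUnits K T) : Additive Kˣ)) = _
  rw [coe_smul_tUnits, diag_smul, ordFun_smul]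
  rfl

/-- A generating set gives every order outside it. -/
theorem exists_ordDiff_eq_single (hT : T₀ ⊆ T) (hgen : GenClasses K T₀) (i : {q // q ∈ T \ T₀}) :
    ∃ x, ordDiff K T₀ T x = Pi.single i (CoInd.single (TrivZ.of (1 : ℤ))) := by
  classical
  obtain ⟨π, hπ⟩ := ord_surjective (E K i.1) (Multiplicative.ofAdd 1)
  have hπ1 : ordZ (E K i.1) π = 1 := by rw [ordZ, hπ]; rfl
  obtain ⟨a, ha⟩ := hgen (Additive.ofMul (locIdl i.1 π))
  have hval : ∀ q ∉ T₀, ∀ σ, ordZ (E K q) (val (prinL K (-a).toMul) q σ) =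
      ordZ (E K q) (val (locIdl i.1 π) q σ) := fun q hq σ => by
    have h1 := (ordZ_eq_zero_iff _).2 (ha q hq σ)
    rw [val_toMul_add, ordZ_mul] at h1
    rw [toMul_neg, map_inv, show val (prinL K a.toMul)⁻¹ q σ = (val (prinL K a.toMul) q σ)⁻¹ from
      map_inv (valHom q σ) _, ← zpow_neg_one, ordZ_zpow]
    change ordZ (E K q) (val (locIdl i.1 π) q σ) + ordZ (E K q) (val (prinL K a.toMul) q σ) = 0 at h1
    omega
  have hi : i.1 ∈ T ∧ i.1 ∉ T₀ := Finset.mem_sdiff.1 i.2
  have hmem : -a ∈ tUnits K T := fun q hq σ => by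
    rw [← ordZ_eq_zero_iff, hval q (fun h => hq (hT h)) σ,
      val_locIdl_of_ne i.1 π (fun e : q = i.1 => hq (e ▸ hi.1)), ordZ_one]
  refine ⟨⟨-a, hmem⟩, funext fun j => CoInd.ext fun σ => ?_⟩
  show TrivZ.of (G := decomp K j.1) (ordZ (E K j.1) (val (prinL K (-a).toMul) j.1 σ)) = _
  rw [hval j.1 (Finset.mem_sdiff.1 j.2).2]
  exact trivZ_ordZ_locIdl hπ1 j σ

theorem single_mem_range_ordDiff (hT : T₀ ⊆ T) (hgen : GenClasses K T₀) (i : {q // q ∈ T \ T₀})
    (g : K ≃ₐ[ℚ] K) (n : TrivZ (decomp K i.1)) :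
    Pi.single i (g • CoInd.single (H := decomp K i.1) n) ∈ (ordDiff K T₀ T).range := by
  classical
  obtain ⟨x, hx⟩ := exists_ordDiff_eq_single hT hgen i
  obtain ⟨z, rfl⟩ := TrivZ.of.surjective n
  refine ⟨g • (z • x), ?_⟩
  rw [ordDiff_smul, map_zsmul, hx]
  have e : CoInd.single (H := decomp K i.1) (TrivZ.of (G := decomp K i.1) z) =
      z • CoInd.single (H := decomp K i.1) (TrivZ.of (G := decomp K i.1) (1 : ℤ)) := by
    rw [← map_zsmul, ← map_zsmul, smul_eq_mul, mul_one]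
  rw [e]
  exact (congrArg (g • ·) (map_zsmul (AddMonoidHom.single
    (fun j : {q // q ∈ T \ T₀} => CoInd (decomp K j.1) (TrivZ (decomp K j.1))) i) z _).symm).trans
    (Pi.single_smul i g _).symm

theorem ordDiff_surjective (hT : T₀ ⊆ T) (hgen : GenClasses K T₀) :
    Function.Surjective (ordDiff K T₀ T) := by
  classical
  intro F
  suffices F ∈ (ordDiff K T₀ T).range from this
  rw [← Finset.univ_sum_single F]
  refine AddSubgroup.sum_mem _ fun i _ => ?_
  haveI : Fintype ((K ≃ₐ[ℚ] K) ⧸ decomp K i.1) := Fintype.ofFinite _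
  let S := AddMonoidHom.single
    (fun j : {q // q ∈ T \ T₀} => CoInd (decomp K j.1) (TrivZ (decomp K j.1))) i
  show S (F i) ∈ _
  rw [CoInd.eq_sum (F i), map_sum]
  exact AddSubgroup.sum_mem _ fun c _ => single_mem_range_ordDiff hT hgen i c.out _

theorem ev_ordDiff (x : tUnits K T) (i : {q // q ∈ T \ T₀}) :
    CoInd.ev (ordDiff K T₀ T x i) = ordHom K i.1 (valMod K i.1 1 (diag K (x : Additive Kˣ))) := by
  rw [CoInd.ev_apply, valMod_apply]
  rfl

/-- Local extensions give an equivariant lift of the orders of a map into the units outside `T`. -/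
theorem exists_res_eq_ordDiff (hε : Presentation p ε) (hT : T₀ ⊆ T) (hgen : GenClasses K T₀)
    (κ : equivHom (C := tUnits K T) (presOf hε).hS)
    (hκ : ∀ q ∈ T \ T₀, LocExt q ((tUnits K T).subtype.comp κ.1)) :
    ∃ Y' : equivHom (C := tUnits K T) (presOf hε).hK,
      postHom (presOf hε).hS (ordDiff K T₀ T) ordDiff_smul (κ - (presOf hε).res _ Y') = 0 := by
  classical
  haveI : ∀ i : {q // q ∈ T \ T₀}, Fintype (decomp K i.1) := fun i => Fintype.ofFinite _
  choose Y hYd hYs using fun i : {q // q ∈ T \ T₀} => hκ i.1 i.2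
  let Z : ∀ i : {q // q ∈ T \ T₀}, equivHom (C := TrivZ (decomp K i.1))
      (IsStable.restrict (presOf hε).hK (decomp K i.1)) := fun i =>
    ⟨(ordHom K i.1).comp ((Y i).comp (AddSubgroup.subtype _)),
      fun d x => (congrArg (ordHom K i.1) (hYd i d x.1)).trans (ordHom_smul i.1 d _)⟩
  have hZs : ∀ i (s : ε.ker), (Z i).1 ⟨(s : Lat (K ≃ₐ[ℚ] K) ι), trivial⟩ =
      CoInd.ev (ordDiff K T₀ T (κ.1 s) i) :=
    fun i s => (congrArg (ordHom K i.1) (hYs i s)).trans (ev_ordDiff (κ.1 s) i).symm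
  refine ((evMap_bijective (H := fun i : {q // q ∈ T \ T₀} => decomp K i.1)
    (E := fun i : {q // q ∈ T \ T₀} => TrivZ (decomp K i.1)) (presOf hε) (presOf hε).hK).2 Z).elim
    fun W hW => ?_
  refine (exists_lift_full (presOf hε) (ordDiff K T₀ T) ordDiff_smul (presOf_full hε)
    (ordDiff_surjective hT hgen) W).elim fun Y' hY' => ?_
  have hord : postHom (presOf hε).hS (ordDiff K T₀ T) ordDiff_smul κ =
      (presOf hε).res _ W := by
    refine (evMap_bijective (H := fun i : {q // q ∈ T \ T₀} => decomp K i.1)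
      (E := fun i : {q // q ∈ T \ T₀} => TrivZ (decomp K i.1)) (presOf hε) (presOf hε).hS).1 ?_
    refine funext fun i => Eq.trans ?_ (congrFun (evMap_res (presOf hε) W) i).symm
    refine Eq.trans ?_
      (congrArg (((presOf hε).restrict (decomp K i.1)).res _) (congrFun hW i)).symm
    exact Subtype.ext (AddMonoidHom.ext fun s => (hZs i s).symm)
  refine ⟨Y', ?_⟩
  exact (map_sub (postHom (presOf hε).hS (ordDiff K T₀ T) ordDiff_smul) κ
    ((presOf hε).res _ Y')).trans (sub_eq_zero.2 (hord.trans ((congrArg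
      ((presOf hε).res _) hY').symm.trans (postHom_res (presOf hε) _ _ Y').symm)))

theorem mem_tUnits_of_ordDiff {x : tUnits K T} (h : ordDiff K T₀ T x = 0) :
    (x : Additive Kˣ) ∈ tUnits K T₀ := mem_tUnits_of_ordZ x.2 fun q hq hq0 σ => by
  have h1 : TrivZ.of (G := decomp K q) (ordZ (E K q) (val (prinL K (x : Additive Kˣ).toMul) q σ)) =
      0 := congrFun (congrArg CoInd.fn (congrFun h
        (⟨q, Finset.mem_sdiff.2 ⟨hq, hq0⟩⟩ : {q // q ∈ T \ T₀}))) σ
  exact TrivZ.of.injective (h1.trans (map_zero _).symm)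

/-- Correcting by a global map preserves local extendability. -/
theorem locExt_sub (hε : Presentation p ε) (κ : equivHom (C := tUnits K T) (presOf hε).hS)
    (Y' : equivHom (C := tUnits K T) (presOf hε).hK) {q : Nat.Primes}
    (hq : LocExt q ((tUnits K T).subtype.comp κ.1)) (w : ε.ker →+ Additive Kˣ)
    (hw : ∀ s : ε.ker, w s = ((κ.1 s : tUnits K T) : Additive Kˣ) -
      ((Y'.1 ⟨(s : Lat (K ≃ₐ[ℚ] K) ι), trivial⟩ : tUnits K T) : Additive Kˣ)) :
    LocExt q w := by
  refine hq.elim fun Yq hYq => ?_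
  refine ⟨Yq - ((valMod K q 1).comp ((diag K).comp (((tUnits K T).subtype.comp Y'.1).comp
    ((AddMonoidHom.id (Lat (K ≃ₐ[ℚ] K) ι)).codRestrict
      (⊤ : AddSubgroup (Lat (K ≃ₐ[ℚ] K) ι)) fun _ => trivial)))), fun d x => ?_, fun s => ?_⟩
  · have e2 : Y'.1 (⟨(d : K ≃ₐ[ℚ] K) • x, trivial⟩ : (presOf hε).K) =
        (d : K ≃ₐ[ℚ] K) • Y'.1 ⟨x, trivial⟩ := Y'.2 (d : K ≃ₐ[ℚ] K) ⟨x, trivial⟩
    show Yq _ - valMod K q 1 (diag K ((Y'.1 ⟨(d : K ≃ₐ[ℚ] K) • x, trivial⟩ : tUnits K T) :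
      Additive Kˣ)) = d • (Yq x - valMod K q 1 (diag K ((Y'.1 ⟨x, trivial⟩ : tUnits K T) :
      Additive Kˣ)))
    rw [hYq.1, e2, coe_smul_tUnits, diag_smul, valMod_decomp, smul_sub]
  · show Yq s - valMod K q 1 (diag K ((Y'.1 ⟨(s : Lat (K ≃ₐ[ℚ] K) ι), trivial⟩ : tUnits K T) :
      Additive Kˣ)) = valMod K q 1 (diag K (w s))
    refine Eq.trans ?_ (congrArg ((valMod K q 1).comp (diag K)) (hw s)).symm
    refine Eq.trans ?_ (map_sub ((valMod K q 1).comp (diag K)) _ _).symm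
    exact congrArg₂ (· - ·) (hYq.2 s) rfl

/-- **The descent.** -/
theorem mem_range_of_locExt (hε : Presentation p ε) (hT : T₀ ⊆ T) (hgen : GenClasses K T₀)
    (hdetect : ∀ κ₀ : equivHom (C := tUnits K T₀) (presOf hε).hS,
      (∀ q ∈ T \ T₀, LocExt q ((tUnits K T₀).subtype.comp κ₀.1)) →
        κ₀ ∈ ((presOf hε).res (tUnits K T₀)).range)
    (κ : equivHom (C := tUnits K T) (presOf hε).hS)
    (hκ : ∀ q ∈ T \ T₀, LocExt q ((tUnits K T).subtype.comp κ.1)) :
    κ ∈ ((presOf hε).res (tUnits K T)).range := by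
  refine (exists_res_eq_ordDiff hε hT hgen κ hκ).elim fun Y' h0 => ?_
  let incl : tUnits K T₀ →+ tUnits K T := AddSubgroup.inclusion (tUnits_mono hT)
  have hincl : ∀ (g : K ≃ₐ[ℚ] K) (x : tUnits K T₀), incl (g • x) = g • incl x := fun g x => rfl
  refine (exists_postHom_eq (presOf hε).hS incl hincl (AddSubgroup.inclusion_injective _)
    (κ - (presOf hε).res _ Y') fun s => ?_).elim fun κ₀ hκ₀ => ?_
  · exact ⟨⟨_, mem_tUnits_of_ordDiff (DFunLike.congr_fun (congrArg Subtype.val h0) s)⟩, rfl⟩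
  · refine (hdetect κ₀ fun q hq => locExt_sub hε κ Y' (hκ q hq) _ fun s => ?_).elim
      fun Y₀ hY₀ => ?_
    · exact congrArg Subtype.val (DFunLike.congr_fun (congrArg Subtype.val hκ₀) s)
    · refine ⟨postHom (presOf hε).hK incl hincl Y₀ + Y', ?_⟩
      have e : (presOf hε).res (tUnits K T) (postHom (presOf hε).hK incl hincl Y₀) =
          κ - (presOf hε).res _ Y' :=
        ((congrArg (postHom (presOf hε).hS incl hincl) hY₀).trans hκ₀)
      exact ((map_add ((presOf hε).res (tUnits K T)) _ _).trans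
        (congrArg (· + (presOf hε).res _ Y') e)).trans (sub_add_cancel κ _)

end Fermat.Agent.CFT.Wiles
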