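import Fermat.Agent.CFT.Wiles.StrictOrdinary
import Fermat.Agent.CFT.Flat.Bound
import Fermat.Prelude.Def_GaloisRep_Flat

/-!
# Taylor–Wiles primes for flat deformations
-/

set_option autoImplicit false
set_option linter.unusedSectionVars false
set_option linter.style.haveILetI false

noncomputable section

namespace Fermat.Agent.CFT.Wiles

open ExtCitation Fermat.Agent.Arith Fermat.Agent.CFT.Tangent Module IsLocalRing Polynomial

variable {𝒪 : Type} [CommRing 𝒪] [IsDomain 𝒪] [IsDiscreteValuationRing 𝒪]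
  [IsAdicComplete (maximalIdeal 𝒪) 𝒪] [Finite (ResidueField 𝒪)]

/-- **Taylor–Wiles primes, flat case.** -/
theorem exists_taylorWiles_flat (p : ℕ) [Fact p.Prime] (hp2 : p ≠ 2)
    (hp𝒪 : (p : 𝒪) ∈ maximalIdeal 𝒪) (ρbar : ResidualGaloisRep (ResidueField 𝒪))
    (habs : ρbar.IsAbsolutelyIrreducible)
    (hdet : (GaloisRepAdic.ofResidualGaloisRep ρbar).DetIsCyclotomic p)
    (hsplit : ∀ σ : GQ, ∃ α β : ResidueField 𝒪,
      LinearMap.charpoly (ρbar.ρ σ) = (X - C α) * (X - C β))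
    (hTW : ∀ (K : Type) [Field K] [Algebra (ResidueField 𝒪) K] (G : Subgroup GQ), G.index = 2 →
      ∀ V : Submodule K (ρbar.baseChange K).V,
        (∀ σ ∈ G, ∀ x ∈ V, (ρbar.baseChange K).ρ σ x ∈ V) → V = ⊥ ∨ V = ⊤)
    (S Smin : Finset ℕ) (hpSmin : p ∈ Smin) (hSmin : Smin ⊆ S)
    (hmin : ∀ q : ℕ, q.Prime → q ≠ p → (q ∈ Smin ↔ ¬ ρbar.IsUnramifiedAt q)) :
    ∃ r : ℕ, ∀ n : ℕ, ∃ qv : Fin r → ℕ, Function.Injective qv ∧
      (∀ i, (qv i).Prime ∧ qv i ∉ S ∧ p ^ (n + 1) ∣ qv i - 1) ∧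
      (∀ i, ∀ P : ValuationSubring (AlgebraicClosure ℚ), P.LiesOverPrime (qv i) →
        ∀ φ : AlgebraicClosure ℚ ≃ₐ[ℚ] AlgebraicClosure ℚ, P.IsFrobeniusAt φ (qv i) →
          ∃ α β : ResidueField 𝒪, α ≠ β ∧
            LinearMap.charpoly (ρbar.ρ φ) = (X - C α) * (X - C β)) ∧
      ∀ DQ : GaloisRep.DeformationRingData 𝒪 ρbar (fun _A _ _ _ ρ =>
          GaloisRep.flatCondition 𝒪 p (Smin ∪ Finset.univ.image qv) ρ ∧
            ∀ q ∈ Smin, q.Prime → q ≠ p → ρ.IsUnipotentOnInertiaAt q),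
        ∃ γ : MvPowerSeries (Fin r) 𝒪 →ₐ[𝒪] DQ.R, Function.Surjective γ := by
  haveI := charP_residueField p hp𝒪
  obtain ⟨R, hR⟩ := exists_taylorWiles_surjective hp2 ρbar habs hdet hsplit hTW hpSmin hSmin hmin
    (fun A _ _ ρ => ρ.IsFlatAt p)
    (fun A B _ _ _ _ φ hφ ρ hsurj h => CFT.Tangent.IsFlatAt.baseChange φ hφ hsurj h)
    (fun r hr hcyc hspl V _ hcoc hlev htr hb =>
      Flat.finrank_le_flat hp2 hr hcyc hspl V hcoc hlev htr fun b hbV hb0 => by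
        obtain ⟨ρ, B, h1, -, h3⟩ := hb b hbV hb0
        exact ⟨ρ, B, h1, h3⟩)
  refine ⟨R, fun n => ?_⟩
  obtain ⟨qv, h1, h2', h3, h4⟩ := hR n
  exact ⟨qv, h1, h2', h3, fun DQ => h4 _ (fun A _ _ _ ρ => Iff.rfl) DQ⟩

end Fermat.Agent.CFT.Wiles
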