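import Fermat.Agent.CFT.Euler.Identity

/-!
# The counting inequality behind the bound on a Selmer group

Local conditions on equivariant maps into `∏ CoInd E i` which are killed by a surjective functional
and meet the extensions only trivially bound the target of the functional.
-/

set_option autoImplicit false
set_option linter.unusedSectionVars false
set_option linter.style.haveILetI false

noncomputable section

namespace Fermat.Agent.CFT.Wiles

open Fermat.Agent.CFT Fermat.Agent.CFT.Euler

variable {p : ℕ} [hp : Fact p.Prime] {G : Type} [Group G] [Fintype G] {A : Type} [AddCommGroup A]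
  [DistribMulAction G A] (X : Pres p G A)

section Lift

variable {M D : Type} [AddCommGroup M] [DistribMulAction G M] [AddCommGroup D]
  [DistribMulAction G D] (q : M →+ D) (hq : ∀ (g : G) (m : M), q (g • m) = g • q m)

/-- Equivariant maps from a full lattice lift along surjections. -/
theorem exists_lift_full (hfull : ∀ x : X.P, x ∈ X.K) (hqs : Function.Surjective q)
    (Y : equivHom (C := D) X.hK) : ∃ Y' : equivHom (C := M) X.hK, postHom X.hK q hq Y' = Y := by
  obtain ⟨T, hT⟩ := X.induced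
  haveI := free_subgroup (P := X.P) X.K
  let b := Module.Free.chooseBasis ℤ X.K
  let ψ : X.K →+ D := Y.1.comp ((T.comp X.K.subtype).codRestrict X.K fun _ => hfull _)
  choose m hm using fun i => hqs (ψ (b i))
  let φ : X.K →+ M := (b.constr ℤ m).toAddMonoidHom
  have hφ : ∀ s, q (φ s) = ψ s := by
    have e : (q.comp φ).toIntLinearMap = ψ.toIntLinearMap := b.ext fun i => by
      show q (b.constr ℤ m (b i)) = ψ (b i)
      rw [Module.Basis.constr_basis, hm]
    exact fun s => LinearMap.congr_fun e s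
  refine ⟨⟨normOn X.hK φ, isEquivariantOn_normOn _ _⟩, Subtype.ext (AddMonoidHom.ext fun s => ?_)⟩
  show q (normOn X.hK φ s) = Y.1 s
  rw [normOn_apply, map_sum]
  have e : ∀ g : G, q (g • φ (smulS X.hK g⁻¹ s)) =
      Y.1 ⟨g • T (g⁻¹ • (s : X.P)), hfull _⟩ := fun g => by
    rw [hq, hφ]
    exact (Y.2 g _).symm
  rw [Finset.sum_congr rfl fun g _ => e g, ← map_sum]
  refine congrArg Y.1 (Subtype.ext ?_)
  rw [AddSubgroup.val_finsetSum]
  exact hT _

theorem postHom_res (Y : equivHom (C := M) X.hK) :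
    postHom X.hS q hq (X.res M Y) = X.res D (postHom X.hK q hq Y) := rfl

theorem range_res_le_map (hfull : ∀ x : X.P, x ∈ X.K) (hqs : Function.Surjective q) :
    (X.res D).range ≤ (X.res M).range.map (postHom X.hS q hq) := by
  rintro _ ⟨Y, rfl⟩
  obtain ⟨Y', rfl⟩ := exists_lift_full X q hq hfull hqs Y
  exact ⟨X.res M Y', ⟨Y', rfl⟩, rfl⟩

end Lift

section Shapiro

variable {ι : Type} {H : ι → Subgroup G} [∀ i, Fintype (H i)]
  {E : ι → Type} [∀ i, AddCommGroup (E i)] [∀ i, DistribMulAction (H i) (E i)]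

/-- The values at `1` of maps into coinduced modules. -/
def evMap {R : AddSubgroup X.P} (hR : IsStable G R) :
    equivHom (C := ∀ i, CoInd (H i) (E i)) hR →+
      ∀ i, equivHom (C := E i) (IsStable.restrict hR (H i)) :=
  AddMonoidHom.mk' (fun F i => ⟨(CoInd.ev (H := H i) (N := E i)).comp
      ((Pi.evalAddMonoidHom (fun i => CoInd (H i) (E i)) i).comp F.1), fun h s => by
      show CoInd.ev (F.1 (smulS hR (h : G) s) i) = h • CoInd.ev (F.1 s i)
      rw [F.2, Pi.smul_apply, CoInd.ev_smul_mem]⟩)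
    fun F F' => funext fun i => Subtype.ext (AddMonoidHom.ext fun s =>
      map_add CoInd.ev (F.1 s i) (F'.1 s i))

theorem evMap_res (Y : equivHom (C := ∀ i, CoInd (H i) (E i)) X.hK) :
    evMap X X.hS (X.res (∀ i, CoInd (H i) (E i)) Y) =
      fun i => (X.restrict (H i)).res (E i) (evMap X X.hK Y i) := rfl

theorem evMap_bijective {R : AddSubgroup X.P} (hR : IsStable G R) :
    Function.Bijective (evMap X hR (H := H) (E := E)) := by
  let comp : equivHom (C := ∀ i, CoInd (H i) (E i)) hR →
      ∀ i, equivHom (C := CoInd (H i) (E i)) hR := fun F i =>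
    postHom hR (Pi.evalAddMonoidHom (fun i => CoInd (H i) (E i)) i) (fun _ _ => rfl) F
  have hcomp : Function.Bijective comp := by
    refine ⟨fun F F' h => Subtype.ext (AddMonoidHom.ext fun s => funext fun i => ?_), fun f => ?_⟩
    · exact DFunLike.congr_fun (congrArg Subtype.val (congrFun h i)) s
    · exact ⟨⟨AddMonoidHom.pi fun i => (f i).1, fun g s => funext fun i => (f i).2 g s⟩, rfl⟩
  refine ⟨fun F F' h => hcomp.1 (funext fun i => ?_), fun f => ?_⟩
  · exact (CoInd.postEv_bijective (H := H i) (N := E i) hR).1 (congrFun h i)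
  · choose f' hf' using fun i => (CoInd.postEv_bijective (H := H i) (N := E i) hR).2 (f i)
    obtain ⟨F, hF⟩ := hcomp.2 f'
    refine ⟨F, funext fun i => ?_⟩
    rw [← hf' i, ← hF]
    rfl

end Shapiro

variable {ι : Type} [Fintype ι] {H : ι → Subgroup G} [∀ i, Fintype (H i)]
  {E : ι → Type} [∀ i, AddCommGroup (E i)] [∀ i, DistribMulAction (H i) (E i)]
  {U C D : Type} [AddCommGroup U] [DistribMulAction G U] [AddCommGroup C] [DistribMulAction G C]
  [AddCommGroup D] [DistribMulAction G D]
  (iU : U →+ ∀ i, CoInd (H i) (E i)) (hiU : ∀ (g : G) (x : U), iU (g • x) = g • iU x)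
  (qD : (∀ i, CoInd (H i) (E i)) →+ D)
  (hqD : ∀ (g : G) (x : ∀ i, CoInd (H i) (E i)), qD (g • x) = g • qD x)
  (hinj : Function.Injective iU) (hex : ∀ y, qD y = 0 → ∃ x, iU x = y)
  (hqi : ∀ x, qD (iU x) = 0) (hqs : Function.Surjective qD)
  (π : C →+ D) (hπ : ∀ (g : G) (x : C), π (g • x) = g • π x) (hπs : Function.Surjective π)
  (j : (∀ i, CoInd (H i) (E i)) →+ C)
  (hj : ∀ (g : G) (x : ∀ i, CoInd (H i) (E i)), j (g • x) = g • j x)
  (hjq : ∀ x, π (j x) = qD x)
  {W : Type} [AddCommGroup W] [Finite W] (β : equivHom (C := C) X.hS →+ W)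
  (Λ : ∀ i, AddSubgroup (equivHom (C := E i) (IsStable.restrict X.hS (H i))))

include hiU hqD hinj hex hqi hqs hπ hπs hj hjq in
/-- **The counting inequality.** -/
theorem lpN_card_le (hfull : ∀ x : X.P, x ∈ X.K) (hD : ModPFinite p D)
    (hE : ∀ i, ModPFinite p (E i)) (hβs : Function.Surjective β)
    (hβC : ∀ Y, β (X.res C Y) = 0) (hβπ : ∀ f, postHom X.hS π hπ f = 0 → β f = 0)
    (hΛE : ∀ i, ((X.restrict (H i)).res (E i)).range ≤ Λ i)
    (hβΛ : ∀ F : equivHom (C := ∀ i, CoInd (H i) (E i)) X.hS,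
      (∀ i, evMap X X.hS F i ∈ Λ i) → β (postHom X.hS j hj F) = 0)
    (hKum : ∀ κ : equivHom (C := U) X.hS,
      (∀ i, evMap X X.hS (postHom X.hS iU hiU κ) i ∈ Λ i) → κ ∈ (X.res U).range) :
    lpN p (Nat.card W) + ∑ i, (X.restrict (H i)).index (E i) ≤
      X.index D + ∑ i, lpN p (Λ i).index := by
  classical
  set M := ∀ i, CoInd (H i) (E i)
  have hM : ModPFinite p M := ModPFinite.pi fun i => CoInd.modPFinite (hE i)
  have fM := X.finiteIndexHom hM
  have fD := X.finiteIndexHom hD
  set e := evMap X X.hS (H := H) (E := E)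
  set Λ' := (AddSubgroup.pi Set.univ Λ).comap e with hΛ'
  have hmemΛ : ∀ F, F ∈ Λ' ↔ ∀ i, evMap X X.hS F i ∈ Λ i := fun F => by
    rw [hΛ', AddSubgroup.mem_comap, AddSubgroup.mem_pi]
    simp
    rfl
  set θM := postHom X.hS qD hqD with hθM
  set θC := postHom X.hS π hπ with hθC
  have hEM : (X.res M).range ≤ Λ' := by
    rintro _ ⟨Y, rfl⟩
    exact (hmemΛ _).2 fun i => hΛE i ⟨evMap X X.hK Y i, (congrFun (evMap_res X Y) i).symm⟩
  -- the local conditions meet the extensions trivially
  have hinter : (X.res D).range.comap θM ⊓ Λ' ≤ (X.res M).range := by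
    rintro F ⟨⟨Y, hY⟩, hF⟩
    obtain ⟨Y', rfl⟩ := exists_lift_full X qD hqD hfull hqs Y
    rw [← postHom_res] at hY
    obtain ⟨κ, hκ⟩ := exists_postHom_eq X.hS iU hiU hinj (F - X.res M Y') fun s => hex _ (by
      have h := DFunLike.congr_fun (congrArg Subtype.val hY) s
      show qD (F.1 s - (X.res M Y').1 s) = 0
      rw [map_sub, sub_eq_zero]
      exact h.symm)
    obtain ⟨Y'', hY''⟩ := hKum κ fun i => (hmemΛ _).1 (by
      rw [hκ]; exact sub_mem hF (hEM ⟨Y', rfl⟩)) i
    refine ⟨postHom X.hK iU hiU Y'' + Y', ?_⟩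
    rw [map_add, ← postHom_res, hY'', hκ, sub_add_cancel]
  have hA : (X.res M).range.relIndex Λ' ∣ (X.res D).range.relIndex (Λ'.map θM) := by
    have e1 : (X.res D).range.relIndex (Λ'.map θM) = ((X.res D).range.comap θM).relIndex Λ' :=
      (AddSubgroup.relIndex_comap _ θM Λ').symm
    rw [e1, ← AddSubgroup.inf_relIndex_right ((X.res D).range.comap θM) Λ']
    exact AddSubgroup.relIndex_dvd_of_le_left Λ' hinter
  -- the functional
  set R := β.ker
  have hB : Nat.card W = (R.map θC).relIndex θC.range := by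
    rw [AddMonoidHom.range_eq_map, AddSubgroup.relIndex_map_map,
      sup_eq_left.2 (show θC.ker ≤ R from fun f hf => hβπ f hf), top_sup_eq,
      AddSubgroup.relIndex_top_right, AddSubgroup.index_ker,
      AddMonoidHom.range_eq_top.2 hβs, AddSubgroup.card_top]
  set S₁ := (X.res D).range ⊔ Λ'.map θM
  have hS₁ : S₁ ≤ R.map θC := by
    refine sup_le ((range_res_le_map X π hπ hfull hπs).trans (AddSubgroup.map_mono ?_)) ?_
    · rintro _ ⟨Y, rfl⟩
      exact hβC Y
    · rintro _ ⟨F, hF, rfl⟩
      exact ⟨postHom X.hS j hj F, hβΛ F ((hmemΛ F).1 hF),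
        Subtype.ext (AddMonoidHom.ext fun s => hjq _)⟩
  have hdvd : Nat.card W * (X.res M).range.relIndex Λ' ∣ (X.res D).range.index := by
    have h2 : (R.map θC).relIndex θC.range ∣ (R.map θC).index :=
      AddSubgroup.relIndex_dvd_index_of_normal _ _
    have h3 : (R.map θC).index ∣ S₁.index := AddSubgroup.index_dvd_of_le hS₁
    rw [← AddSubgroup.relIndex_mul_index (le_sup_left : (X.res D).range ≤ S₁),
      AddSubgroup.relIndex_sup_left, mul_comm, hB]
    exact mul_dvd_mul hA (h2.trans h3)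
  -- the kernels
  have hker : Nat.card (X.res D).ker ∣ Nat.card (X.res M).ker := by
    have hk : (X.res D).ker ≤ (X.res M).ker.map (postHom X.hK qD hqD) := by
      intro Y hY
      obtain ⟨Y', rfl⟩ := exists_lift_full X qD hqD hfull hqs Y
      obtain ⟨κ, hκ⟩ := exists_postHom_eq X.hS iU hiU hinj (X.res M Y') fun s => hex _
        (DFunLike.congr_fun (congrArg Subtype.val hY) s)
      obtain ⟨Y'', hY''⟩ := hKum κ fun i => (hmemΛ _).1 (by rw [hκ]; exact hEM ⟨Y', rfl⟩) i
      refine ⟨Y' - postHom X.hK iU hiU Y'', ?_, ?_⟩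
      · show X.res M (Y' - _) = 0
        rw [map_sub, ← postHom_res, hY'', hκ, sub_self]
      · rw [map_sub, sub_eq_self]
        exact Subtype.ext (AddMonoidHom.ext fun s => hqi _)
    exact (AddSubgroup.card_dvd_of_le hk).trans (AddSubgroup.card_map_dvd _ _)
  -- the indices
  have hidx : lpN p (X.res M).range.index =
      lpN p ((X.res M).range.relIndex Λ') + ∑ i, lpN p (Λ i).index ∧
        (X.res M).range.relIndex Λ' ≠ 0 := by
    have h1 := AddSubgroup.relIndex_mul_index hEM
    rw [hΛ', AddSubgroup.index_comap_of_surjective _ (evMap_bijective X X.hS).2,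
      index_pi_dep_add] at h1
    have h0 := fM.index
    rw [← h1] at h0
    refine ⟨?_, left_ne_zero_of_mul h0⟩
    rw [← h1, lpN_mul p (left_ne_zero_of_mul h0) (right_ne_zero_of_mul h0)]
    congr 1
    exact lpN_prod p _ _ fun i _ h =>
      right_ne_zero_of_mul h0 (Finset.prod_eq_zero (Finset.mem_univ i) h)
  have hW : Nat.card W ≠ 0 := Nat.card_pos.ne'
  have l1 := lpN_mono p hdvd fD.index
  rw [lpN_mul p hW hidx.2] at l1
  have l2 := lpN_mono p hker fM.card_ker_ne_zero
  have e1 : X.index M = lpN p (X.res M).range.index - lpN p (Nat.card (X.res M).ker) := rfl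
  have e2 : X.index D = lpN p (X.res D).range.index - lpN p (Nat.card (X.res D).ker) := rfl
  have e3 : X.index M = ∑ i, (X.restrict (H i)).index (E i) := by
    rw [X.index_pi fun i => CoInd.modPFinite (hE i)]
    exact Finset.sum_congr rfl fun i _ => CoInd.index_eq X
  omega

end Fermat.Agent.CFT.Wiles
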