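import Fermat.Agent.CFT.Wiles.Descent
import Fermat.Agent.CFT.Wiles.AdZero

/-!
# Kummer classes of units

An equivariant map on the relations of the adjoint module with values in units gives a cocycle
with values in the twisted adjoint module: it is a coboundary only if the map extends, and its
trace function vanishes at the Frobenius elements of the primes where the map extends locally.
-/

set_option autoImplicit false
set_option linter.unusedSectionVars false
set_option linter.style.haveILetI false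

noncomputable section

namespace Fermat.Agent.CFT.Wiles

open ExtCitation Fermat.Agent.Arith IntermediateField Fermat.Agent.CFT.Local Fermat.Agent.CFT.Idele
open Fermat.Agent.CFT.Duality Fermat.Agent.CFT.Euler Fermat.Agent.CFT.TWPrimes Fermat.Agent.Deform

local instance factPrimeKummer (q : Nat.Primes) : Fact (q : ℕ).Prime := ⟨q.2⟩

/-- The Galois action on the multiplicative group of `ℚ̄`. -/
def actUnits (σ : GQ) : Additive QBarˣ →+ Additive QBarˣ :=
  MonoidHom.toAdditive (Units.map σ.toAlgHom.toRingHom.toMonoidHom)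

theorem actUnits_mul (σ τ : GQ) (x : Additive QBarˣ) :
    actUnits (σ * τ) x = actUnits σ (actUnits τ x) := Additive.toMul.injective (Units.ext rfl)

theorem actUnits_congr {σ τ : GQ} {x : Additive QBarˣ}
    (h : σ (x.toMul : QBar) = τ (x.toMul : QBar)) : actUnits σ x = actUnits τ x :=
  Additive.toMul.injective (Units.ext h)

variable {p : ℕ} [hp : Fact p.Prime] {ζ : QBar} (hζ : IsPrimitiveRoot ζ p)

theorem actUnits_zmap {σ : GQ} {n : ℕ} (hn : σ ζ = ζ ^ n) (m : ZMod p) :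
    actUnits σ (zmap hζ m) = zmap hζ ((n : ZMod p) * m) := by
  obtain ⟨i, rfl⟩ := ZMod.intCast_surjective m
  have e : actUnits σ (Additive.ofMul (Units.mk0 ζ (hζ.ne_zero hp.out.ne_zero))) =
      (n : ℤ) • Additive.ofMul (Units.mk0 ζ (hζ.ne_zero hp.out.ne_zero)) := by
    rw [natCast_zsmul]
    exact Additive.toMul.injective (Units.ext (by simpa [actUnits] using hn))
  rw [zmap_intCast, map_zsmul, e, ← Int.cast_natCast (R := ZMod p) n, ← Int.cast_mul, zmap_intCast,
    smul_smul, mul_comm]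

variable {K : IntermediateField ℚ QBar} [FiniteDimensional ℚ K] [Normal ℚ K]

variable (K) in
/-- The inclusion of `Kˣ`. -/
def incK : Additive Kˣ →+ Additive QBarˣ :=
  MonoidHom.toAdditive (Units.map K.val.toRingHom.toMonoidHom)

theorem incK_injective : Function.Injective (incK K) := fun _a _b e =>
  Additive.toMul.injective (Units.ext (Subtype.ext
    (congrArg (fun x : Additive QBarˣ => (x.toMul : QBar)) e)))

theorem actUnits_incK (σ : GQ) (a : Additive Kˣ) :
    actUnits σ (incK K a) = incK K (res K σ • a) :=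
  Additive.toMul.injective (Units.ext (res_apply K σ (a.toMul : K)).symm)

variable {k : Type} [Field k] [Finite k] [Algebra (ZMod p) k] {rb : (K ≃ₐ[ℚ] K) →* M2 k}
  {ι : Type} [Fintype ι] {ε : Lat (K ≃ₐ[ℚ] K) ι →+ Ad0 rb}

/-- Roots of a map on the relations and their cocycle. -/
structure IsKummer (κ : ε.ker →+ Additive Kˣ) (y : Lat (K ≃ₐ[ℚ] K) ι →+ Additive QBarˣ)
    (B : GQ → M2 k) : Prop where
  root : ∀ s : ε.ker, y s = incK K (κ s)
  trace : ∀ σ, (B σ).trace = 0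
  eq : ∀ σ x, zmap hζ (trD p (B σ) (ε x)) = actUnits σ (y ((res K σ)⁻¹ • x)) - y x

omit hζ in
/-- A map killing the relations with values in a copy of `ℤ/p` is a functional of the module. -/
theorem exists_functional_of_torsion (hε : Presentation p ε) {X : Type*} [AddCommGroup X]
    (z : ZMod p →+ X) (hz : Function.Injective z) (hsur : ∀ w : X, p • w = 0 → ∃ m, z m = w)
    (d : Lat (K ≃ₐ[ℚ] K) ι →+ X) (hd : ∀ s : ε.ker, d s = 0) :
    ∃ ν : Ad0 rb →+ ZMod p, ∀ x, z (ν (ε x)) = d x := by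
  choose μ hμ using fun x => hsur (d x) (by rw [← map_nsmul]; exact hd ⟨_, hε.smul_mem x⟩)
  let μh : Lat (K ≃ₐ[ℚ] K) ι →+ ZMod p :=
    AddMonoidHom.mk' μ fun a b => hz (by rw [hμ, map_add, map_add, hμ, hμ])
  refine ⟨AddMonoidHom.liftOfSurjective ε hε.surjective ⟨μh, fun s hs => hz ?_⟩, fun x => ?_⟩
  · rw [map_zero]; exact (hμ s).trans (hd ⟨s, hs⟩)
  · rw [AddMonoidHom.liftOfRightInverse_comp_apply]; exact hμ x

include hζ in
theorem exists_det_eq {r : GQ →* M2 k}
    (hcyc : ∀ (σ : GQ) (a : ℕ), (∀ μ : QBar, μ ^ p = 1 → σ μ = μ ^ a) → (r σ).det = (a : k))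
    (σ : GQ) : ∃ n : ℕ, σ ζ = ζ ^ n ∧ (r σ).det = (n : k) := by
  haveI : NeZero p := ⟨hp.out.ne_zero⟩
  obtain ⟨n, hn⟩ := Tangent.exists_pow_eq_on_roots p σ
  exact ⟨n, hn ζ hζ.pow_eq_one, hcyc σ n hn⟩

variable {hζ}

theorem exists_kummer (hε : Presentation p ε) (h2 : (2 : k) ≠ 0) (κ : ε.ker →+ Additive Kˣ)
    (hκ : IsEquivariantOn hε.isStable_ker κ) : ∃ y B, IsKummer hζ κ y B := by
  obtain ⟨y, hy⟩ := exists_extend_units ε.ker ((incK K).comp κ)
  let c : GQ → (Lat (K ≃ₐ[ℚ] K) ι →+ Additive QBarˣ) := fun σ =>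
    ((actUnits σ).comp y).comp (DistribSMul.toAddMonoidHom _ (res K σ)⁻¹) - y
  have hc : ∀ σ, ∀ s : ε.ker, c σ s = 0 := fun σ s => by
    show actUnits σ (y ((res K σ)⁻¹ • (s : Lat (K ≃ₐ[ℚ] K) ι))) - y s = 0
    rw [hy, sub_eq_zero]
    refine (congrArg (actUnits σ) (hy (smulS hε.isStable_ker (res K σ)⁻¹ s))).trans ?_
    rw [AddMonoidHom.comp_apply, hκ (res K σ)⁻¹ s, actUnits_incK, smul_inv_smul]
    rfl
  choose ν hν using fun σ => exists_functional_of_torsion hε (zmap hζ) (zmap_injective hζ)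
    (fun w => exists_zmap_eq hζ) (c σ) (hc σ)
  choose B hB hBν using fun σ => exists_trD_eq (rb := rb) p h2 (ν σ)
  refine ⟨y, B, hy, hB, fun σ x => ?_⟩
  rw [hBν]
  exact hν σ x

section Properties

variable {κ : ε.ker →+ Additive Kˣ} {y : Lat (K ≃ₐ[ℚ] K) ι →+ Additive QBarˣ} {B : GQ → M2 k}
  (hB : IsKummer hζ κ y B) (hε : Presentation p ε) (h2 : (2 : k) ≠ 0) {r : GQ →* M2 k}
  (hrb : ∀ g, rb (res K g) = r g)
  (hcyc : ∀ (σ : GQ) (a : ℕ), (∀ μ : QBar, μ ^ p = 1 → σ μ = μ ^ a) → (r σ).det = (a : k))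

include hrb in
theorem trD_ad {σ : GQ} {n : ℕ} (hn : (r σ).det = (n : k)) (X : M2 k) (a : Ad0 rb) :
    trD p (ad r σ X) a = (n : ZMod p) * trD p X ((res K σ)⁻¹ • a) := by
  rw [ad_apply, hn, trD_natSmul, ← trD_smul p (res K σ) X a, hrb, ← map_inv (res K) σ, hrb]

include hB hε h2 hrb hcyc in
theorem IsKummer.isCocycle : IsCocycle r B where
  trace := hB.trace
  map_mul σ τ := by
    refine eq_of_trD_eq (rb := rb) p h2 (hB.trace _)
      (by rw [Matrix.trace_add, TWPrimes.trace_ad, hB.trace, hB.trace, mul_zero, add_zero])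
      (AddMonoidHom.ext fun a => ?_)
    obtain ⟨x, rfl⟩ := hε.surjective a
    obtain ⟨n, hn, hdet⟩ := exists_det_eq hζ hcyc σ
    refine zmap_injective hζ ?_
    rw [map_add (trD (rb := rb) p), AddMonoidHom.add_apply, map_add, trD_ad hrb hdet, ← hε.map_smul,
      ← actUnits_zmap hζ hn, hB.eq, hB.eq, hB.eq, map_sub, ← actUnits_mul, map_mul, mul_inv_rev,
      mul_smul]
    abel

include hB hε h2 in
theorem IsKummer.eq_of_agree {σ τ : GQ} (hres : res K σ = res K τ)
    (hy : ∀ x, σ ((y x).toMul : QBar) = τ ((y x).toMul : QBar)) : B σ = B τ := by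
  refine eq_of_trD_eq (rb := rb) p h2 (hB.trace _) (hB.trace _) (AddMonoidHom.ext fun a => ?_)
  obtain ⟨x, rfl⟩ := hε.surjective a
  refine zmap_injective hζ ?_
  rw [hB.eq, hB.eq, hres, actUnits_congr (hy _)]

omit hp in
/-- The values of a map on the lattice lie in a finite normal extension of `K`. -/
theorem exists_level_values (y : Lat (K ≃ₐ[ℚ] K) ι →+ Additive QBarˣ) :
    ∃ L : IntermediateField ℚ QBar, FiniteDimensional ℚ L ∧ Normal ℚ L ∧ K ≤ L ∧
      ∀ x, ((y x).toMul : QBar) ∈ L := by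
  classical
  haveI : Normal ℚ QBar := IsAlgClosure.normal ℚ QBar
  set V : Set QBar := Set.range fun e : ι × (K ≃ₐ[ℚ] K) => ((y (Lat.e e.1 e.2)).toMul : QBar)
  haveI : Finite V := (Set.finite_range _).to_subtype
  haveI := IntermediateField.finiteDimensional_adjoin (K := ℚ) (S := V)
    fun x _ => Algebra.IsIntegral.isIntegral x
  let L₀ : IntermediateField ℚ QBar := K ⊔ IntermediateField.adjoin ℚ V
  refine ⟨IntermediateField.normalClosure ℚ L₀ QBar, inferInstance,
    normalClosure.normal ℚ L₀ QBar, le_trans le_sup_left L₀.le_normalClosure, ?_⟩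
  intro x
  rw [Lat.eq_sum x, map_sum, toMul_sum, Units.coe_prod]
  refine prod_mem fun e _ => ?_
  rw [map_zsmul, toMul_zsmul, Units.val_zpow_eq_zpow_val]
  exact zpow_mem (L₀.le_normalClosure ((le_sup_right : IntermediateField.adjoin ℚ V ≤ L₀)
    (IntermediateField.subset_adjoin ℚ _ ⟨e, rfl⟩))) _

include hB hε h2 hrb hcyc in
theorem IsKummer.finiteLevel : ∃ L : IntermediateField ℚ QBar, FiniteDimensional ℚ L ∧
    ∀ σ : GQ, (∀ x ∈ L, σ x = x) → B σ = 0 := by
  obtain ⟨L, hLf, hLn, hKL, hyL⟩ := exists_level_values y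
  refine ⟨L, hLf, fun σ hσ => ?_⟩
  rw [hB.eq_of_agree hε h2 (τ := 1) ?_ fun x => hσ _ (hyL x),
    (hB.isCocycle hε h2 hrb hcyc).map_one]
  rw [map_one, res_eq_one_iff, IntermediateField.mem_fixingSubgroup_iff]
  exact fun x hx => hσ x (hKL hx)

theorem mem_tUnits_of_nsmul {T : Finset Nat.Primes} {a : Additive Kˣ}
    (ha : p • a ∈ tUnits K T) : a ∈ tUnits K T := fun q hq σ => by
  have h := ha q hq σ
  rw [toMul_nsmul, map_pow, show val (prinL K a.toMul ^ p) q σ = val (prinL K a.toMul) q σ ^ p from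
    map_pow (valHom q σ) _ p, mem_unitGroup, Units.val_pow_eq_pow_val, norm_pow] at h
  rw [mem_unitGroup]
  exact (pow_eq_one_iff_of_nonneg (norm_nonneg _) hp.out.ne_zero).1 h

end Properties

/-- A map whose Kummer cocycle is a coboundary extends to `Kˣ`. -/
theorem exists_ext_of_cobd (hε : Presentation p ε) {r : GQ →* M2 k}
    (hrb : ∀ g, rb (res K g) = r g)
    (hcyc : ∀ (σ : GQ) (a : ℕ), (∀ μ : QBar, μ ^ p = 1 → σ μ = μ ^ a) → (r σ).det = (a : k))
    {κ : ε.ker →+ Additive Kˣ} {y : Lat (K ≃ₐ[ℚ] K) ι →+ Additive QBarˣ} {B : GQ → M2 k}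
    (hB : IsKummer hζ κ y B) {X : M2 k} (hBX : ∀ σ, B σ = cobd r X σ) :
    ∃ Y : Lat (K ≃ₐ[ℚ] K) ι →+ Additive Kˣ, (∀ s : ε.ker, Y s = κ s) ∧
      ∀ (g : K ≃ₐ[ℚ] K) x, Y (g • x) = g • Y x := by
  let y' : Lat (K ≃ₐ[ℚ] K) ι →+ Additive QBarˣ := y - (zmap hζ).comp ((trD p X).comp ε)
  have hinv : ∀ σ x, actUnits σ (y' ((res K σ)⁻¹ • x)) = y' x := fun σ x => by
    obtain ⟨n, hn, hdet⟩ := exists_det_eq hζ hcyc σ
    have e := hB.eq σ x
    rw [hBX, cobd, map_sub (trD (rb := rb) p), AddMonoidHom.sub_apply, map_sub, trD_ad hrb hdet,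
      ← hε.map_smul, ← actUnits_zmap hζ hn] at e
    show actUnits σ (y _ - zmap hζ (trD p X (ε _))) = y x - zmap hζ (trD p X (ε x))
    rw [map_sub, eq_add_of_sub_eq e.symm]
    abel
  have hK : ∀ x, ((y' x).toMul : QBar) ∈ K := fun x => by
    refine (InfiniteGalois.fixedField_fixingSubgroup K).le ?_
    rw [IntermediateField.mem_fixedField_iff]
    intro σ hσ
    have e := hinv σ x
    rw [(res_eq_one_iff K).2 hσ, inv_one, one_smul] at e
    exact congrArg (fun z : Additive QBarˣ => (z.toMul : QBar)) e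
  let Y₀ : Lat (K ≃ₐ[ℚ] K) ι → Additive Kˣ := fun x =>
    Additive.ofMul (Units.mk0 ⟨_, hK x⟩ fun h => (y' x).toMul.ne_zero (congrArg Subtype.val h))
  have hY₀ : ∀ x, incK K (Y₀ x) = y' x := fun x => Additive.toMul.injective (Units.ext rfl)
  let Y : Lat (K ≃ₐ[ℚ] K) ι →+ Additive Kˣ :=
    AddMonoidHom.mk' Y₀ fun a b => incK_injective (by rw [map_add, hY₀, hY₀, hY₀, map_add])
  have hYs : ∀ s : ε.ker, Y s = κ s := fun s => incK_injective (by
    show incK K (Y₀ s) = _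
    rw [hY₀]
    show y s - zmap hζ (trD p X (ε s)) = _
    rw [hB.root, AddMonoidHom.mem_ker.1 s.2, map_zero, map_zero, sub_zero])
  have hYeq : ∀ (g : K ≃ₐ[ℚ] K) x, Y (g • x) = g • Y x := fun g x => incK_injective (by
    show incK K (Y₀ (g • x)) = incK K (g • Y₀ x)
    rw [hY₀, ← res_lift K g, ← actUnits_incK, hY₀, ← hinv (lift K g) (res K (lift K g) • x),
      inv_smul_smul])
  exact ⟨Y, hYs, hYeq⟩

/-- A map whose Kummer cocycle is a coboundary extends. -/
theorem mem_range_of_cobd {T : Finset Nat.Primes} (hε : Presentation p ε) {r : GQ →* M2 k}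
    (hrb : ∀ g, rb (res K g) = r g)
    (hcyc : ∀ (σ : GQ) (a : ℕ), (∀ μ : QBar, μ ^ p = 1 → σ μ = μ ^ a) → (r σ).det = (a : k))
    (κ : equivHom (C := tUnits K T) (presOf hε).hS)
    {y : Lat (K ≃ₐ[ℚ] K) ι →+ Additive QBarˣ} {B : GQ → M2 k}
    (hB : IsKummer hζ ((tUnits K T).subtype.comp κ.1) y B) {X : M2 k}
    (hBX : ∀ σ, B σ = cobd r X σ) : κ ∈ ((presOf hε).res (tUnits K T)).range := by
  refine (exists_ext_of_cobd hε hrb hcyc hB hBX).elim fun Y hY => ?_
  have hYT : ∀ x, Y x ∈ tUnits K T := fun x => mem_tUnits_of_nsmul (p := p) (by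
    rw [← map_nsmul]
    exact (hY.1 ⟨_, hε.smul_mem x⟩).symm ▸ (κ.1 ⟨_, hε.smul_mem x⟩).2)
  refine ⟨⟨(Y.codRestrict (tUnits K T) hYT).comp (AddSubgroup.subtype _),
    fun g x => Subtype.ext (hY.2 g x.1)⟩, Subtype.ext (AddMonoidHom.ext fun s =>
      Subtype.ext (hY.1 s))⟩

end Fermat.Agent.CFT.Wiles
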