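import Fermat.Agent.CFT.Wiles.Kummer

/-!
# Kummer classes of locally extendable maps

Where a map extends locally, its Kummer cocycle is a coboundary on the decomposition group, so its
trace function vanishes at elements of determinant one.
-/

set_option autoImplicit false
set_option linter.unusedSectionVars false
set_option linter.style.haveILetI false

noncomputable section

namespace Fermat.Agent.CFT.Wiles

open ExtCitation Fermat.Agent.Arith IntermediateField Fermat.Agent.CFT.Local Fermat.Agent.CFT.Idele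
open Fermat.Agent.CFT.Duality Fermat.Agent.CFT.Euler Fermat.Agent.CFT.TWPrimes Fermat.Agent.Deform

local instance factPrimeKummerLocal (q : Nat.Primes) : Fact (q : ℕ).Prime := ⟨q.2⟩

variable (q : Nat.Primes)

/-- The embedding of the multiplicative group of `ℚ̄`. -/
def embUnits : Additive QBarˣ →+ Additive (Ω q)ˣ :=
  MonoidHom.toAdditive (Units.map (padicEmbedding (q : ℕ)).toRingHom.toMonoidHom)

theorem embUnits_injective : Function.Injective (embUnits q) := fun _a _b e =>
  Additive.toMul.injective (Units.ext ((padicEmbedding (q : ℕ)).injective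
    (congrArg (fun x : Additive (Ω q)ˣ => (x.toMul : Ω q)) e)))

/-- The local Galois action. -/
def actLocal (τ : Ω q ≃ₐ[ℚ_[(q : ℕ)]] Ω q) : Additive (Ω q)ˣ →+ Additive (Ω q)ˣ :=
  MonoidHom.toAdditive (Units.map τ.toAlgHom.toRingHom.toMonoidHom)

theorem embUnits_act (τ : Ω q ≃ₐ[ℚ_[(q : ℕ)]] Ω q) (z : Additive QBarˣ) :
    embUnits q (actUnits (localGaloisToGlobal (q : ℕ) τ) z) = actLocal q τ (embUnits q z) :=
  Additive.toMul.injective (Units.ext (padicEmbedding_localGaloisToGlobal (q : ℕ) τ _))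

variable {K : IntermediateField ℚ QBar} [FiniteDimensional ℚ K] [Normal ℚ K]

variable (K) in
/-- The inclusion of a completion. -/
def incLoc : LocMod K q →+ Additive (Ω q)ˣ :=
  (MonoidHom.toAdditive (Units.map (E K q).val.toRingHom.toMonoidHom)).comp
    (LocMod.of K q).symm.toAddMonoidHom

theorem incLoc_valMod (a : Additive Kˣ) :
    incLoc q K (valMod K q 1 (diag K a)) = embUnits q (incK K a) := by
  refine Additive.toMul.injective (Units.ext ?_)
  show (((val (prinL K a.toMul) q 1 : (E K q)ˣ) : E K q) : Ω q) = _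
  rw [val_prinL]
  rfl

theorem res_mem_decomp (τ : Ω q ≃ₐ[ℚ_[(q : ℕ)]] Ω q) :
    res K (localGaloisToGlobal (q : ℕ) τ) ∈ decomp K q :=
  ⟨AlgEquiv.restrictNormalHom (localField (q : ℕ) K) τ, toGlobal_restrict (q : ℕ) K τ⟩

theorem incLoc_smul (τ : Ω q ≃ₐ[ℚ_[(q : ℕ)]] Ω q) (d : decomp K q)
    (hd : (d : K ≃ₐ[ℚ] K) = res K (localGaloisToGlobal (q : ℕ) τ)) (z : LocMod K q) :
    incLoc q K (d • z) = actLocal q τ (incLoc q K z) := by
  have e : (decompEquiv K q).symm d = AlgEquiv.restrictNormalHom (localField (q : ℕ) K) τ :=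
    (decompEquiv K q).symm_apply_eq.2 (Subtype.ext (by
      rw [coe_decompEquiv, toGlobal_restrict]; exact hd))
  refine Additive.toMul.injective (Units.ext ?_)
  show ((((decompEquiv K q).symm d • ((LocMod.of K q).symm z).toMul : (E K q)ˣ) : E K q) : Ω q) = _
  rw [e]
  exact AlgEquiv.restrictNormal_commutes τ (localField (q : ℕ) K) _

variable {p : ℕ} [hp : Fact p.Prime] {ζ : QBar} {hζ : IsPrimitiveRoot ζ p} {k : Type} [Field k]
  [Finite k] [Algebra (ZMod p) k] {rb : (K ≃ₐ[ℚ] K) →* M2 k}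
  {ι : Type} [Fintype ι] {ε : Lat (K ≃ₐ[ℚ] K) ι →+ Ad0 rb}
  {κ : ε.ker →+ Additive Kˣ} {y : Lat (K ≃ₐ[ℚ] K) ι →+ Additive QBarˣ} {B : GQ → M2 k}
  (hB : IsKummer hζ κ y B) (hε : Presentation p ε) (h2 : (2 : k) ≠ 0) {r : GQ →* M2 k}
  (hrb : ∀ g, rb (res K g) = r g)
  (hcyc : ∀ (σ : GQ) (a : ℕ), (∀ μ : QBar, μ ^ p = 1 → σ μ = μ ^ a) → (r σ).det = (a : k))

include hζ in
theorem exists_embUnits_zmap {w : Additive (Ω q)ˣ} (hw : p • w = 0) :
    ∃ m, embUnits q (zmap hζ m) = w := by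
  haveI : NeZero p := ⟨hp.out.ne_zero⟩
  obtain ⟨i, hi, e⟩ := (hζ.map_of_injective (f := padicEmbedding (q : ℕ))
    (padicEmbedding (q : ℕ)).injective).eq_pow_of_pow_eq_one (ξ := (w.toMul : Ω q))
    (by simpa using congrArg (fun x : Additive (Ω q)ˣ => (x.toMul : Ω q)) hw)
  refine ⟨i, Additive.toMul.injective (Units.ext ?_)⟩
  show padicEmbedding (q : ℕ) ((zmap hζ (i : ZMod p)).toMul : QBar) = _
  rw [coe_zmap, ZMod.val_natCast, Nat.mod_eq_of_lt hi, map_pow, e]

include hB hε in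
/-- The difference of the global roots and a local extension is a functional. -/
theorem IsKummer.exists_functional {Y : Lat (K ≃ₐ[ℚ] K) ι →+ LocMod K q}
    (hY : ∀ s : ε.ker, Y s = valMod K q 1 (diag K (κ s))) :
    ∃ ν : Ad0 rb →+ ZMod p, ∀ x,
      embUnits q (zmap hζ (ν (ε x))) = embUnits q (y x) - incLoc q K (Y x) := by
  let d : Lat (K ≃ₐ[ℚ] K) ι →+ Additive (Ω q)ˣ := (embUnits q).comp y - (incLoc q K).comp Y
  have hd0 : ∀ s : ε.ker, d s = 0 := fun s => by
    show embUnits q (y s) - incLoc q K (Y s) = 0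
    rw [hY, hB.root, incLoc_valMod, sub_self]
  exact exists_functional_of_torsion hε ((embUnits q).comp (zmap hζ))
    ((embUnits_injective q).comp (zmap_injective hζ))
    (fun w => exists_embUnits_zmap (hζ := hζ) q) d hd0

include hB hε h2 hrb hcyc in
/-- The Kummer cocycle is a coboundary on the local Galois group. -/
theorem IsKummer.exists_cobd_of_locExt (hloc : LocExt q κ) :
    ∃ X : M2 k, X.trace = 0 ∧ ∀ τ : Ω q ≃ₐ[ℚ_[(q : ℕ)]] Ω q,
      B (localGaloisToGlobal (q : ℕ) τ) = cobd r X (localGaloisToGlobal (q : ℕ) τ) := by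
  refine hloc.elim fun Y hY => (hB.exists_functional q hε hY.2).elim fun ν hν => ?_
  obtain ⟨X, hX, hXν⟩ := exists_trD_eq (rb := rb) p h2 ν
  refine ⟨X, hX, fun τ => ?_⟩
  set g := localGaloisToGlobal (q : ℕ) τ
  refine eq_of_trD_eq (rb := rb) p h2 (hB.trace g) ((isCocycle_cobd hX).trace g)
    (AddMonoidHom.ext fun a => ?_)
  obtain ⟨x, rfl⟩ := hε.surjective a
  obtain ⟨n, hn, hdet⟩ := exists_det_eq hζ hcyc g
  refine zmap_injective hζ (embUnits_injective q ?_)
  rw [cobd, map_sub (trD (rb := rb) p), AddMonoidHom.sub_apply, trD_ad hrb hdet, ← hε.map_smul,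
    hXν, map_sub, map_sub, hν x, ← actUnits_zmap hζ hn, embUnits_act, hν, hB.eq, map_sub,
    embUnits_act, map_sub (actLocal q τ)]
  have e : actLocal q τ (incLoc q K (Y ((res K g)⁻¹ • x))) = incLoc q K (Y x) := by
    rw [← incLoc_smul q τ ⟨res K g, res_mem_decomp q τ⟩ rfl, ← hY.1]
    show incLoc q K (Y (res K g • (res K g)⁻¹ • x)) = _
    rw [smul_inv_smul]
  rw [e]
  abel

include hB hε h2 hrb hcyc in
/-- The trace function vanishes at elements of determinant one of the decomposition group. -/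
theorem IsKummer.phi_eq_zero (hloc : LocExt q κ) {F : GQ}
    (hF : F ∈ (padicPlace (q : ℕ)).decompositionSubgroup ℚ) (hdet : (r F).det = 1) :
    phi r B F = 0 := by
  obtain ⟨X, -, hBX⟩ := hB.exists_cobd_of_locExt q hε h2 hrb hcyc hloc
  obtain ⟨L, hLf, hLn, hKL, hyL⟩ := exists_level_values y
  obtain ⟨t, ht⟩ := (Local.mem_range_toGlobal_iff (q : ℕ) L (res L F)).mpr fun x hx => by
    rw [res_apply]
    exact map_mem_of_mem_decomposition hF hx
  obtain ⟨τ, hτ⟩ : ∃ τ : Ω q ≃ₐ[ℚ_[(q : ℕ)]] Ω q, res L (localGaloisToGlobal (q : ℕ) τ) = res L F :=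
    ⟨t.liftNormal (PadicAlgCl (q : ℕ)), ht⟩
  set g := localGaloisToGlobal (q : ℕ) τ
  have hagree : ∀ x ∈ L, g x = F x := fun x hx => by
    rw [← res_apply L g ⟨x, hx⟩, ← res_apply L F ⟨x, hx⟩, hτ]
  have hresK : res K g = res K F := AlgEquiv.ext fun x => Subtype.ext (by
    rw [res_apply, res_apply]
    exact hagree _ (hKL x.2))
  have e1 : B F = B g := hB.eq_of_agree hε h2 hresK.symm fun x => (hagree _ (hyL x)).symm
  have e2 : r F = r g := by rw [← hrb, ← hrb, hresK]
  rw [phi, e1, hBX, e2, ← phi, phi_cobd (by rw [← e2]; exact hdet)]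

end Fermat.Agent.CFT.Wiles
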