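import Fermat.Agent.CFT.Wiles.Sequence
import Fermat.Agent.CFT.Tangent.LocalPlace
import Fermat.Agent.CFT.Duality.Incl

/-!
# The fields of a representation and of a space of cocycles

The field cut out by a residual representation, the field over which a space of cocycles becomes
trivial, a finite set of primes generating the classes, and unramifiedness at finite level.
-/

set_option autoImplicit false
set_option linter.unusedSectionVars false
set_option linter.style.haveILetI false

noncomputable section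

namespace Fermat.Agent.CFT.Wiles

open ExtCitation Fermat.Agent.Arith IntermediateField Fermat.Agent.CFT.Local Fermat.Agent.CFT.Idele
open Fermat.Agent.CFT.Duality Fermat.Agent.Deform Fermat.Agent.CFT.Tangent

local instance factPrimeLevel (q : Nat.Primes) : Fact (q : ℕ).Prime := ⟨q.2⟩

variable {K : IntermediateField ℚ QBar} [FiniteDimensional ℚ K] [Normal ℚ K]

/-- Inertia fixing `K` gives unramifiedness of the completion. -/
theorem inertia_eq_bot_of_fix (q : Nat.Primes)
    (h : ∀ g ∈ (padicPlace (q : ℕ)).inertiaSubgroupIn ℚ, g ∈ K.fixingSubgroup) :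
    inertia (E K q) = ⊥ := by
  refine (Subgroup.eq_bot_iff_forall _).2 fun σ hσ => ?_
  obtain ⟨g, hg, e⟩ := Local.exists_inertia_of_mem_inertia (q : ℕ) K hσ
  refine Local.toGlobal_injective (q : ℕ) K (e.symm.trans ?_)
  rw [map_one]
  exact (res_eq_one_iff K).2 (h g hg)

/-- Finitely many primes generate the classes. -/
theorem exists_genClasses (S : Finset Nat.Primes) : ∃ T, S ⊆ T ∧ T.Nonempty ∧ GenClasses K T := by
  obtain ⟨T, hST, hT⟩ := exists_finset_idl_classes (L := K) (K := K) le_rfl
    (insert ⟨2, Nat.prime_two⟩ S)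
  refine ⟨T, (Finset.subset_insert _ _).trans hST, ⟨_, hST (Finset.mem_insert_self _ _)⟩,
    fun f => ?_⟩
  obtain ⟨c, hc, hcT⟩ := hT _ (f.toMul : idl K).2
  let a : Kˣ := Units.mk0 ⟨(c : QBar), hc⟩ fun h => c.ne_zero (congrArg Subtype.val h)
  refine ⟨Additive.ofMul a, fun q hq σ => ?_⟩
  rw [mem_unitGroup, norm_val _ q (res_lift K σ)]
  have e : Units.map K.val.toRingHom.toMonoidHom a = c := Units.ext rfl
  refine Eq.trans (congrArg norm ?_) (hcT q hq (lift K σ))
  have e' : (((f + diag K (Additive.ofMul a)).toMul : idl K) : PreIdele) =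
      ((f.toMul : idl K) : PreIdele) * prin c := by
    rw [toMul_add, ← e]
    rfl
  rw [e']

variable {k : Type} [Field k]

omit [FiniteDimensional ℚ K] in
theorem map_eq_of_res_eq {r : GQ →* M2 k} (hK : K.fixingSubgroup ≤ r.ker) {g g' : GQ}
    (h : res K g = res K g') : r g = r g' :=
  r.eq_iff.2 (hK ((res_eq_iff K).1 h.symm))

/-- A representation on the Galois group of a field over which it is trivial. -/
def levelRep (r : GQ →* M2 k) (hK : K.fixingSubgroup ≤ r.ker) : (K ≃ₐ[ℚ] K) →* M2 k :=
  { toFun := fun σ => r (lift K σ)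
    map_one' := hK ((res_eq_one_iff K).1 (res_lift K 1))
    map_mul' := fun σ τ => by
      rw [← map_mul]
      exact map_eq_of_res_eq hK (by simp only [map_mul, res_lift]) }

theorem levelRep_res (r : GQ →* M2 k) (hK : K.fixingSubgroup ≤ r.ker) (g : GQ) :
    levelRep r hK (res K g) = r g := map_eq_of_res_eq hK (res_lift K _)

/-- The field of a representation of finite level. -/
theorem exists_field_of_rep (r : GQ →* M2 k) (hr : GaloisFactorsThroughFiniteLevel r) :
    ∃ K : IntermediateField ℚ QBar, FiniteDimensional ℚ K ∧ Normal ℚ K ∧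
      K.fixingSubgroup = r.ker := by
  obtain ⟨L₀, hL₀, h⟩ := hr
  exact exists_field_of_normal r.ker L₀ h

/-- The field of a finite dimensional space of cocycles, an extension of `p`-power degree of the
field of the representation. -/
theorem exists_cocycle_field (p : ℕ) [Fact p.Prime] [CharP k p] {r : GQ →* M2 k}
    (hr : GaloisFactorsThroughFiniteLevel r) (V : Submodule k (GQ → M2 k)) [Module.Finite k V]
    (hcoc : ∀ b ∈ V, IsAdCocycle r b) (hlev : ∀ b ∈ V, IsFiniteLevel b)
    (hK : K.fixingSubgroup = r.ker) :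
    ∃ (L : IntermediateField ℚ QBar) (_ : FiniteDimensional ℚ L) (_ : Normal ℚ L) (h : K ≤ L),
      IsPGroup p (levelRes h).ker ∧
      ∀ σ, σ ∈ L.fixingSubgroup ↔ r σ = 1 ∧ ∀ b ∈ V, b σ = 0 := by
  obtain ⟨L, hLf, hLn, hmem⟩ := exists_kernel_field hr V hcoc hlev
  have hKL : K ≤ L := fun x hx => by
    refine (InfiniteGalois.fixedField_fixingSubgroup L).le ?_
    rw [IntermediateField.mem_fixedField_iff]
    intro σ hσ
    have h : σ ∈ K.fixingSubgroup := hK ▸ ((hmem σ).1 hσ).1
    exact (IntermediateField.mem_fixingSubgroup_iff _ _).1 h x hx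
  refine ⟨L, hLf, hLn, hKL, fun z => ⟨1, ?_⟩, hmem⟩
  obtain ⟨σ, hσ⟩ := z
  refine Subtype.ext ?_
  show σ ^ p ^ 1 = 1
  have hσK : r (lift L σ) = 1 := by
    have : lift L σ ∈ K.fixingSubgroup := (res_eq_one_iff K).1 hσ
    rwa [hK] at this
  rw [pow_one, ← res_lift L σ, ← map_pow, res_eq_one_iff L, hmem, map_pow, hσK, one_pow]
  refine ⟨rfl, fun b hb => ?_⟩
  rw [(hcoc b hb).pow_of_eq_one hσK, CharP.cast_eq_zero, zero_smul]

end Fermat.Agent.CFT.Wiles
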