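import Fermat.Agent.CFT.Wiles.LevelMap

/-!
# The auxiliary places and the infinite place at the level of a representation

Decomposition groups at primes with regular Frobenius and the fixed vectors of a conjugation.
-/

set_option autoImplicit false
set_option linter.unusedSectionVars false
set_option linter.style.haveILetI false

noncomputable section

namespace Fermat.Agent.CFT.Wiles

open ExtCitation Fermat.Agent.Arith IntermediateField Fermat.Agent.CFT.Local Fermat.Agent.CFT.Idele
open Fermat.Agent.CFT.Duality Fermat.Agent.CFT.Euler Fermat.Agent.Deform Fermat.Agent.CFT.Tangent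
open Module

local instance factPrimeLevelLocal (q : Nat.Primes) : Fact (q : ℕ).Prime := ⟨q.2⟩

variable {k : Type} [Field k] [Finite k] (p : ℕ) [Fact p.Prime] [CharP k p] {r : GQ →* M2 k}
  {ζ : QBar} (hζ : IsPrimitiveRoot ζ p)
  (hcyc : ∀ (σ : GQ) (a : ℕ), (∀ μ : QBar, μ ^ p = 1 → σ μ = μ ^ a) → (r σ).det = (a : k))

include hζ hcyc in
/-- The action on a root of unity is the determinant. -/
theorem exists_pow_det (σ : GQ) : ∃ a : ℕ, σ ζ = ζ ^ a ∧ (r σ).det = (a : k) := by
  haveI : NeZero p := ⟨(Fact.out : p.Prime).ne_zero⟩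
  obtain ⟨a, ha⟩ := Tangent.exists_pow_eq_on_roots p σ
  exact ⟨a, ha ζ hζ.pow_eq_one, hcyc σ a ha⟩

include hζ hcyc in
/-- Elements of determinant one fix the roots of unity. -/
theorem zeta_fixed_of_det (σ : GQ) (hσ : (r σ).det = 1) : σ ζ = ζ := by
  obtain ⟨a, ha, hdet⟩ := exists_pow_det p hζ hcyc σ
  rw [hσ, ← Nat.cast_one, CharP.natCast_eq_natCast k p] at hdet
  rw [ha]
  conv_rhs => rw [← pow_one ζ]
  rw [pow_eq_pow_mod a hζ.pow_eq_one, pow_eq_pow_mod 1 hζ.pow_eq_one, show a % p = 1 % p from hdet.symm]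

include hζ hcyc in
/-- The field of the representation contains the roots of unity. -/
theorem zeta_mem {K : IntermediateField ℚ QBar} (hK : K.fixingSubgroup = r.ker) : ζ ∈ K := by
  refine (InfiniteGalois.fixedField_fixingSubgroup K).le ?_
  rw [IntermediateField.mem_fixedField_iff]
  intro σ hσ
  rw [hK, MonoidHom.mem_ker] at hσ
  exact zeta_fixed_of_det p hζ hcyc σ (by rw [hσ, Matrix.det_one])

omit [Finite k] in
/-- The square of a two by two matrix of determinant `-1` is one only if its trace vanishes. -/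
theorem trace_eq_zero_of_involution {A : M2 k} (hA : A * A = 1) (hd : A.det = -1) :
    A.trace = 0 := by
  have h := TWPrimes.mul_self_eq A
  rw [hA, hd] at h
  have e : A.trace • A = 0 := by
    rw [neg_smul, one_smul, sub_neg_eq_add] at h
    exact add_eq_right.1 h.symm
  rcases smul_eq_zero.1 e with h0 | h0
  · exact h0
  · rw [h0, Matrix.trace_zero]

variable {K : IntermediateField ℚ QBar} [FiniteDimensional ℚ K] [Normal ℚ K]
  (hK : K.fixingSubgroup = r.ker)

include hζ hcyc in
/-- A complex conjugation fixes a line of trace zero matrices. -/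
theorem le_lpN_fixDual [Algebra (ZMod p) k] (hp2 : p ≠ 2) (h2 : (2 : k) ≠ 0)
    (w : NumberField.InfinitePlace K) :
    lpN p (Nat.card k) ≤ lpN p (Nat.card (fixDual p (MulAction.stabilizer (K ≃ₐ[ℚ] K) w)
      (Ad0 (levelRep r hK.le)))) := by
  have hζK := zeta_mem p hζ hcyc hK
  obtain ⟨hcard, hinv⟩ := card_stabilizer_place p hp2 hζ hζK w
  obtain ⟨s, hs1, huniq⟩ := (Nat.card_eq_two_iff' (1 : MulAction.stabilizer (K ≃ₐ[ℚ] K) w)).1 hcard
  have hs1' : (s : K ≃ₐ[ℚ] K) ≠ 1 := fun e => hs1 (Subtype.ext e)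
  have hgζ : lift K (s : K ≃ₐ[ℚ] K) ζ = ζ⁻¹ := by
    have h := congrArg Subtype.val (hinv _ s.2 hs1')
    rw [← res_lift K (s : K ≃ₐ[ℚ] K)] at h
    exact (AlgEquiv.restrictNormal_commutes (lift K (s : K ≃ₐ[ℚ] K)) K ⟨ζ, hζK⟩).symm.trans h
  set A := levelRep r hK.le (s : K ≃ₐ[ℚ] K) with hA
  have hdet : A.det = -1 := by
    show (r (lift K (s : K ≃ₐ[ℚ] K))).det = -1
    obtain ⟨a, ha, hd⟩ := exists_pow_det p hζ hcyc (lift K (s : K ≃ₐ[ℚ] K))
    have hz0 : ζ ≠ 0 := hζ.ne_zero (Fact.out : p.Prime).ne_zero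
    have h1 : ζ ^ (a + 1) = 1 := by rw [pow_succ, ← ha, hgζ, inv_mul_cancel₀ hz0]
    have h2' : ((a + 1 : ℕ) : k) = 0 := (CharP.cast_eq_zero_iff k p _).2 (hζ.dvd_of_pow_eq_one _ h1)
    rw [Nat.cast_add, Nat.cast_one] at h2'
    rw [hd]
    exact eq_neg_of_add_eq_zero_left h2'
  have hsq : (s : K ≃ₐ[ℚ] K) * s = 1 := by
    by_contra hne
    have e := huniq (s * s) fun e => hne (congrArg Subtype.val e)
    exact hs1' (mul_eq_left.1 (congrArg Subtype.val e : (s : K ≃ₐ[ℚ] K) * s = s))
  have hAA : A * A = 1 := by rw [hA, ← map_mul, hsq, map_one]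
  have hmem : A ∈ fixedOn (levelRep r hK.le) (MulAction.stabilizer (K ≃ₐ[ℚ] K) w) := by
    refine ⟨trace_eq_zero_of_involution hAA hdet, fun t ht => ?_⟩
    by_cases ht1 : (⟨t, ht⟩ : MulAction.stabilizer (K ≃ₐ[ℚ] K) w) = 1
    · rw [show t = 1 from congrArg Subtype.val ht1, inv_one, map_one, one_mul, mul_one]
    · rw [show t = s from congrArg Subtype.val (huniq _ ht1), ← hA, mul_assoc]
      rw [hA, Tangent.map_mul_inv, mul_one]
  have hA0 : A ≠ 0 := fun h0 => by
    rw [h0, mul_zero] at hAA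
    exact zero_ne_one hAA
  haveI : Finite (fixedOn (levelRep r hK.le) (MulAction.stabilizer (K ≃ₐ[ℚ] K) w)) :=
    Module.finite_of_finite k
  rw [card_fixDual p h2,
    lpN_card_eq p (k := k) (W := fixedOn (levelRep r hK.le) (MulAction.stabilizer (K ≃ₐ[ℚ] K) w))]
  refine le_mul_of_one_le_right (zero_le_one.trans (one_le_lpN_card p)) ?_
  exact_mod_cast (Submodule.one_le_finrank_iff).2 fun e => hA0 (by
    rw [e, Submodule.mem_bot] at hmem; exact hmem)

section Frobenius

variable {q : Nat.Primes} (hI : ∀ τ ∈ (padicPlace (q : ℕ)).inertiaSubgroupIn ℚ, r τ = 1)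
  {F : GQ} (hF : (padicPlace (q : ℕ)).IsFrobeniusAt F (q : ℕ))

include hK hI hF in
/-- The decomposition group at an unramified prime is generated by Frobenius. -/
theorem decomp_le_zpowers : decomp K q ≤ Subgroup.zpowers (res K F) := by
  intro d hd
  obtain ⟨g, hg, rfl⟩ := exists_decomp_lift K q hd
  obtain ⟨i, τ, hτ, he⟩ := exists_frobenius_mul_inertia K hF hg
  have e : res K g = res K (F ^ i * τ) := AlgEquiv.ext fun x => Subtype.ext (by
    refine (AlgEquiv.restrictNormal_commutes g K x).trans ?_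
    exact (he x x.2).trans (AlgEquiv.restrictNormal_commutes (F ^ i * τ) K x).symm)
  have hτ1 : res K τ = 1 := (res_eq_one_iff K).2 (by rw [hK]; exact hI τ hτ)
  rw [e, map_mul, hτ1, mul_one, map_pow]
  exact Subgroup.pow_mem _ (Subgroup.mem_zpowers _) i

include hK hI hF in
/-- The order of the decomposition group is prime to `p`. -/
theorem coprime_card_decomp {α β : k} (hαβ : α ≠ β)
    (hchar : (r F).charpoly = (Polynomial.X - Polynomial.C α) * (Polynomial.X - Polynomial.C β)) :
    Nat.Coprime p (Nat.card (decomp K q)) := by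
  haveI := Fintype.ofFinite k
  set N := Fintype.card k - 1
  have hdet : α * β ≠ 0 := by
    rw [← (TWPrimes.trace_det_of_charpoly hchar).2]
    exact det_map_ne_zero r F
  have hdvd : (r F).charpoly ∣ (Polynomial.X ^ N - 1 : Polynomial k) := by
    rw [hchar]
    refine IsCoprime.mul_dvd (Polynomial.isCoprime_X_sub_C_of_isUnit_sub
      (sub_ne_zero.2 hαβ).isUnit) ?_ ?_
    · rw [Polynomial.dvd_iff_isRoot]
      simp [FiniteField.pow_card_sub_one_eq_one α (left_ne_zero_of_mul hdet), N]
    · rw [Polynomial.dvd_iff_isRoot]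
      simp [FiniteField.pow_card_sub_one_eq_one β (right_ne_zero_of_mul hdet), N]
  have hpow : r F ^ N = 1 := by
    obtain ⟨P, hP⟩ := hdvd
    have h := congrArg (Polynomial.aeval (r F)) hP
    rw [map_mul, Matrix.aeval_self_charpoly, zero_mul, map_sub, map_pow, Polynomial.aeval_X,
      map_one, sub_eq_zero] at h
    exact h
  have hres : res K F ^ N = 1 := by
    rw [← map_pow, res_eq_one_iff K, hK, MonoidHom.mem_ker, map_pow, hpow]
  have hcard : Nat.card (decomp K q) ∣ N := by
    refine (Subgroup.card_dvd_of_le (decomp_le_zpowers hK hI hF)).trans ?_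
    rw [Nat.card_zpowers]
    exact orderOf_dvd_of_pow_eq_one hres
  refine Nat.Coprime.of_dvd_right hcard ?_
  refine (Nat.Prime.coprime_iff_not_dvd Fact.out).2 fun hp => ?_
  obtain ⟨n, -, hn⟩ := FiniteField.card k p
  have h1 : p ∣ Fintype.card k := hn ▸ dvd_pow_self p n.ne_zero
  have h2 : p ∣ Fintype.card k - N := Nat.dvd_sub h1 hp
  have h3 : Fintype.card k - N = 1 := by have := Fintype.card_pos (α := k); omega
  rw [h3, Nat.dvd_one] at h2
  exact (Fact.out : p.Prime).one_lt.ne' h2

include hF in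
/-- The fixed vectors at a prime with regular Frobenius form at most a line. -/
theorem finrank_fixedOn_decomp_le (h2 : (2 : k) ≠ 0) (hdet : (r F).det = 1)
    (htr : (r F).trace ^ 2 ≠ 4) :
    finrank k (fixedOn (levelRep r hK.le) (decomp K q)) ≤ 1 := by
  set C : M2 k := r F - ((r F).trace / 2) • 1 with hC
  have hC0 : C ≠ 0 := TWPrimes.sub_half_ne_zero h2 hdet htr
  have hCt : C.trace = 0 := TWPrimes.trace_sub_half h2 _
  refine (Submodule.finrank_mono (t := k ∙ C) ?_).trans (finrank_span_singleton hC0).le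
  rintro X ⟨hX, hX'⟩
  have e := hX' _ (res_mem_decomp_of_mem K q hF.1)
  rw [← map_inv, levelRep_res, levelRep_res] at e
  have e' : r F * X = X * r F := by
    conv_rhs => rw [← e, mul_assoc, Tangent.map_inv_mul, mul_one]
  obtain ⟨c, hc⟩ := TWPrimes.exists_smul_of_commute h2 hX hCt hC0 (by
    rw [hC, mul_sub, sub_mul, e', mul_smul_comm, smul_mul_assoc, mul_one, one_mul])
  exact Submodule.mem_span_singleton.2 ⟨c, hc.symm⟩

end Frobenius

end Fermat.Agent.CFT.Wiles
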