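import Fermat.Agent.CFT.Wiles.Level
import Fermat.Agent.CFT.Wiles.AdZero

/-!
# A space of classes at finite level

The transfer of a space of cocycles to the finite level, decomposition groups at finite level and
the comparison of the local terms.
-/

set_option autoImplicit false
set_option linter.unusedSectionVars false
set_option linter.style.haveILetI false

noncomputable section

namespace Fermat.Agent.CFT.Wiles

open ExtCitation Fermat.Agent.Arith IntermediateField Fermat.Agent.CFT.Local Fermat.Agent.CFT.Idele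
open Fermat.Agent.CFT.Duality Fermat.Agent.CFT.Euler Fermat.Agent.Deform Fermat.Agent.CFT.Tangent
open Module

local instance factPrimeLevelMap (q : Nat.Primes) : Fact (q : ℕ).Prime := ⟨q.2⟩

section Decomp

variable (L : IntermediateField ℚ QBar) [FiniteDimensional ℚ L] [Normal ℚ L]

/-- Restrictions of the decomposition group lie in the local Galois group. -/
theorem res_mem_decomp_of_mem (q : Nat.Primes) {g : GQ}
    (hg : g ∈ (padicPlace (q : ℕ)).decompositionSubgroup ℚ) : res L g ∈ decomp L q := by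
  refine (Local.mem_range_toGlobal_iff (q : ℕ) L (res L g)).2 fun x hx => ?_
  rw [show ((res L g x : L) : QBar) = g (x : QBar) from AlgEquiv.restrictNormal_commutes g L x]
  exact map_mem_of_mem_decomposition hg hx

/-- The local Galois group lifts to the decomposition group. -/
theorem exists_decomp_lift (q : Nat.Primes) {d : L ≃ₐ[ℚ] L} (hd : d ∈ decomp L q) :
    ∃ g ∈ (padicPlace (q : ℕ)).decompositionSubgroup ℚ, res L g = d := by
  obtain ⟨σ, rfl⟩ := hd
  exact ⟨localGaloisToGlobal (q : ℕ) (σ.liftNormal (PadicAlgCl (q : ℕ))),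
    localGaloisToGlobal_mem_decompositionSubgroup (q : ℕ) _, rfl⟩

end Decomp

variable {k : Type} [Field k] [Finite k] (p : ℕ) [Fact p.Prime] [CharP k p] {r : GQ →* M2 k}
  {K L : IntermediateField ℚ QBar} [FiniteDimensional ℚ K] [Normal ℚ K] [FiniteDimensional ℚ L]
  [Normal ℚ L]

/-- The cardinality of a space over a finite field, logarithmically. -/
theorem lpN_card_eq {W : Type} [AddCommGroup W] [Module k W] [Module.Finite k W] :
    lpN p (Nat.card W) = lpN p (Nat.card k) * finrank k W := by
  rw [Module.natCard_eq_pow_finrank (K := k) (V := W)]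
  show ((padicValNat p _ : ℕ) : ℤ) = _
  rw [padicValNat.pow, Nat.cast_mul, mul_comm]
  rfl

theorem one_le_lpN_card : 1 ≤ lpN p (Nat.card k) := by
  haveI := Fintype.ofFinite k
  obtain ⟨n, -, hc⟩ := FiniteField.card k p
  rw [Nat.card_eq_fintype_card, hc, lpN_pow]
  exact_mod_cast n.pos

variable (hK : K.fixingSubgroup = r.ker) (h : K ≤ L)

/-- The values of a cocycle through the finite level. -/
theorem eq_lift_of_fix {V : Submodule k (GQ → M2 k)}
    (hL : ∀ σ, σ ∈ L.fixingSubgroup ↔ r σ = 1 ∧ ∀ b ∈ V, b σ = 0)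
    (hcoc : ∀ b ∈ V, IsAdCocycle r b) {b : GQ → M2 k} (hb : b ∈ V) (g : GQ) :
    b (lift L (res L g)) = b g :=
  (hcoc b hb).congr (((hL _).1 ((res_eq_iff L).1 (res_lift L (res L g)).symm)).2 b hb)

variable (V : Submodule k (GQ → M2 k)) (hcoc : ∀ b ∈ V, IsAdCocycle r b)
  (htr : ∀ b ∈ V, ∀ σ, (b σ).trace = 0)
  (hL : ∀ σ, σ ∈ L.fixingSubgroup ↔ r σ = 1 ∧ ∀ b ∈ V, b σ = 0)

/-- A space of classes as cocycles on the finite level. -/
def toLevel : V →+ levelCocycles (levelRes h) (Ad0 (levelRep r hK.le)) :=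
  AddMonoidHom.mk' (fun b => ⟨fun σ => Ad0.mk (b.1 (lift L σ)) (htr b.1 b.2 _), fun σ τ =>
    Ad0.mat_injective (by
      show b.1 (lift L (σ * τ)) = levelRep r hK.le (levelRes h σ) * b.1 (lift L τ) *
        levelRep r hK.le (levelRes h σ)⁻¹ + b.1 (lift L σ)
      have e : b.1 (lift L (σ * τ)) = b.1 (lift L σ * lift L τ) := by
        rw [← eq_lift_of_fix hL hcoc b.2 (lift L σ * lift L τ), map_mul, res_lift, res_lift]
      have e1 : levelRes h σ = res K (lift L σ) := by rw [← levelRes_res h, res_lift]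
      rw [e, hcoc b.1 b.2, e1, levelRep_res, ← map_inv, levelRep_res])⟩)
    fun b c => Subtype.ext (funext fun σ => rfl)

theorem toLevel_apply (b : V) (g : GQ) :
    ((toLevel hK h V hcoc htr hL b).1 (res L g)).mat = b.1 g :=
  eq_lift_of_fix hL hcoc b.2 g

theorem toLevel_injective : Function.Injective (toLevel hK h V hcoc htr hL) := fun b c e =>
  Subtype.ext (funext fun g => by
    rw [← toLevel_apply hK h V hcoc htr hL b g, ← toLevel_apply hK h V hcoc htr hL c g, e])

/-- The image of a space of classes. -/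
def levelImg : AddSubgroup (levelCocycles (levelRes h) (Ad0 (levelRep r hK.le))) :=
  (toLevel hK h V hcoc htr hL).range

theorem card_levelImg : Nat.card (levelImg hK h V hcoc htr hL) = Nat.card V :=
  (Nat.card_congr (AddMonoidHom.ofInjective (toLevel_injective hK h V hcoc htr hL)).toEquiv).symm

theorem disjoint_levelImg (hcob : ∀ b ∈ V, ∀ X, b = cobdLin r X → b = 0) :
    Disjoint (levelImg hK h V hcoc htr hL) (levelCobd h (Ad0 (levelRep r hK.le))) := by
  rw [AddSubgroup.disjoint_def]
  rintro _ ⟨b, rfl⟩ ⟨x, hx⟩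
  have h0 : b.1 = cobdLin r x.mat := funext fun g => by
    rw [← toLevel_apply hK h V hcoc htr hL b g, hx _ trivial, map_sub, Ad0.mat_smul, levelRes_res,
      ← map_inv, levelRep_res, levelRep_res]
    rfl
  rw [show b = 0 from Subtype.ext (hcob b.1 b.2 _ h0), map_zero]

theorem mem_locTriv_of_mem_cobdOn (q : Nat.Primes) (b : V)
    (hb : b.1 ∈ cobdOn r ((padicPlace (q : ℕ)).decompositionSubgroup ℚ)) :
    (⟨toLevel hK h V hcoc htr hL b, ⟨b, rfl⟩⟩ : levelImg hK h V hcoc htr hL) ∈
      locTriv h (levelImg hK h V hcoc htr hL) q := by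
  obtain ⟨X, hX, hb⟩ := hb
  refine ⟨Ad0.mk X hX, fun d hd => Ad0.mat_injective ?_⟩
  obtain ⟨g, hg, rfl⟩ := exists_decomp_lift L q hd
  rw [map_sub, Ad0.mat_smul, levelRes_res, ← map_inv, levelRep_res, levelRep_res, Ad0.mat_mk]
  exact (toLevel_apply hK h V hcoc htr hL b g).trans (hb g hg)

theorem lpN_locTriv_index_le [Module.Finite k V] (q : Nat.Primes) :
    lpN p (locTriv h (levelImg hK h V hcoc htr hL) q).index + lpN p (Nat.card k) *
        finrank k (V ⊓ cobdOn r ((padicPlace (q : ℕ)).decompositionSubgroup ℚ) :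
          Submodule k (GQ → M2 k)) ≤
      lpN p (Nat.card k) * finrank k V := by
  set U : Submodule k (GQ → M2 k) := V ⊓ cobdOn r ((padicPlace (q : ℕ)).decompositionSubgroup ℚ)
  haveI : Module.Finite k U := Submodule.finiteDimensional_of_le inf_le_left
  haveI : Finite V := Module.finite_of_finite k
  haveI : Finite (levelImg hK h V hcoc htr hL) := Nat.finite_of_card_ne_zero (by
    rw [card_levelImg]; exact Nat.card_pos.ne')
  let φ : U →+ levelImg hK h V hcoc htr hL :=
    ((toLevel hK h V hcoc htr hL).rangeRestrict).comp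
      (Submodule.inclusion (inf_le_left : U ≤ V)).toAddMonoidHom
  have hφ : Function.Injective φ := fun a b e => Submodule.inclusion_injective (inf_le_left : U ≤ V)
    (toLevel_injective hK h V hcoc htr hL (congrArg Subtype.val e))
  have hrange : φ.range ≤ locTriv h (levelImg hK h V hcoc htr hL) q := by
    rintro _ ⟨b, rfl⟩
    exact mem_locTriv_of_mem_cobdOn hK h V hcoc htr hL q _ b.2.2
  have h1 := lpN_mono p (AddSubgroup.card_dvd_of_le hrange) Nat.card_pos.ne'
  rw [← Nat.card_congr (AddMonoidHom.ofInjective hφ).toEquiv, lpN_card_eq p (k := k) (W := U)] at h1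
  rw [← lpN_card_eq p (W := V), ← card_levelImg hK h V hcoc htr hL,
    ← AddSubgroup.index_mul_card (locTriv h (levelImg hK h V hcoc htr hL) q),
    lpN_mul p AddSubgroup.index_ne_zero_of_finite Nat.card_pos.ne']
  linarith

/-- The fixed vectors of a local Galois group. -/
theorem le_lpN_fixPts (q : Nat.Primes) :
    lpN p (Nat.card k) *
        finrank k (fixedOn r ((padicPlace (q : ℕ)).decompositionSubgroup ℚ)) ≤
      lpN p (Nat.card (fixPts (decomp K q) (Ad0 (levelRep r hK.le)))) := by
  rw [← lpN_card_eq p, card_fixPts]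
  haveI : Finite (fixedOn (levelRep r hK.le) (decomp K q)) := Module.finite_of_finite k
  refine lpN_mono p (AddSubgroup.card_dvd_of_le (H := (fixedOn r _).toAddSubgroup)
    (K := (fixedOn (levelRep r hK.le) (decomp K q)).toAddSubgroup) ?_) Nat.card_pos.ne'
  rintro X ⟨hX, hX'⟩
  refine ⟨hX, fun d hd => ?_⟩
  obtain ⟨g, hg, rfl⟩ := exists_decomp_lift K q hd
  rw [← map_inv, levelRep_res, levelRep_res]
  exact hX' g hg

end Fermat.Agent.CFT.Wiles
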