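import Fermat.Agent.CFT.Wiles.Assembly
import Fermat.Agent.CFT.Tangent.OrdinaryBound
import Fermat.Prelude.Def_GaloisRep_StrictOrdinary

/-!
# Taylor–Wiles primes for strictly ordinary deformations
-/

set_option autoImplicit false
set_option linter.unusedSectionVars false
set_option linter.style.haveILetI false

noncomputable section

namespace Fermat.Agent.CFT.Wiles

open ExtCitation Fermat.Agent.Arith Fermat.Agent.CFT.Tangent Module IsLocalRing Polynomial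

variable {𝒪 : Type} [CommRing 𝒪] [IsDomain 𝒪] [IsDiscreteValuationRing 𝒪]
  [IsAdicComplete (maximalIdeal 𝒪) 𝒪] [Finite (ResidueField 𝒪)]

/-- The residue characteristic. -/
theorem charP_residueField (p : ℕ) [hp : Fact p.Prime] (hp𝒪 : (p : 𝒪) ∈ maximalIdeal 𝒪) :
    CharP (ResidueField 𝒪) p := by
  refine (CharP.charP_iff_prime_eq_zero hp.out).2 ?_
  rw [← map_natCast (residue 𝒪) p]
  exact (residue_eq_zero_iff _).2 hp𝒪

/-- **Taylor–Wiles primes, strictly ordinary case.** -/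
theorem exists_taylorWiles_strictOrdinary (p : ℕ) [Fact p.Prime] (hp2 : p ≠ 2)
    (hp𝒪 : (p : 𝒪) ∈ maximalIdeal 𝒪) (ρbar : ResidualGaloisRep (ResidueField 𝒪))
    (habs : ρbar.IsAbsolutelyIrreducible)
    (hdet : (GaloisRepAdic.ofResidualGaloisRep ρbar).DetIsCyclotomic p)
    (hsplit : ∀ σ : GQ, ∃ α β : ResidueField 𝒪,
      LinearMap.charpoly (ρbar.ρ σ) = (X - C α) * (X - C β))
    (hTW : ∀ (K : Type) [Field K] [Algebra (ResidueField 𝒪) K] (G : Subgroup GQ), G.index = 2 →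
      ∀ V : Submodule K (ρbar.baseChange K).V,
        (∀ σ ∈ G, ∀ x ∈ V, (ρbar.baseChange K).ρ σ x ∈ V) → V = ⊥ ∨ V = ⊤)
    (S Smin : Finset ℕ) (hpSmin : p ∈ Smin) (hSmin : Smin ⊆ S)
    (hmin : ∀ q : ℕ, q.Prime → q ≠ p → (q ∈ Smin ↔ ¬ ρbar.IsUnramifiedAt q)) :
    ∃ r : ℕ, ∀ n : ℕ, ∃ qv : Fin r → ℕ, Function.Injective qv ∧
      (∀ i, (qv i).Prime ∧ qv i ∉ S ∧ p ^ (n + 1) ∣ qv i - 1) ∧
      (∀ i, ∀ P : ValuationSubring (AlgebraicClosure ℚ), P.LiesOverPrime (qv i) →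
        ∀ φ : AlgebraicClosure ℚ ≃ₐ[ℚ] AlgebraicClosure ℚ, P.IsFrobeniusAt φ (qv i) →
          ∃ α β : ResidueField 𝒪, α ≠ β ∧
            LinearMap.charpoly (ρbar.ρ φ) = (X - C α) * (X - C β)) ∧
      ∀ DQ : GaloisRep.DeformationRingData 𝒪 ρbar (fun _A _ _ _ ρ =>
          GaloisRep.strictOrdinaryCondition 𝒪 p (Smin ∪ Finset.univ.image qv) ρ ∧
            ∀ q ∈ Smin, q.Prime → q ≠ p → ρ.IsUnipotentOnInertiaAt q),
        ∃ γ : MvPowerSeries (Fin r) 𝒪 →ₐ[𝒪] DQ.R, Function.Surjective γ := by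
  haveI := charP_residueField p hp𝒪
  have h2 : (2 : ResidueField 𝒪) ≠ 0 := fun h => hp2
    ((Nat.prime_dvd_prime_iff_eq Fact.out Nat.prime_two).1
      ((CharP.cast_eq_zero_iff (ResidueField 𝒪) p 2).1 (by exact_mod_cast h)))
  obtain ⟨R, hR⟩ := exists_taylorWiles_surjective hp2 ρbar habs hdet hsplit hTW hpSmin hSmin hmin
    (fun A _ _ ρ => ρ.IsStrictOrdinaryAt p)
    (fun A B _ _ _ _ φ hφ ρ _ h => CFT.Tangent.IsStrictOrdinaryAt.baseChange φ hφ h)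
    (fun r hr hcyc _ V _ hcoc hlev _ hb => finrank_le_ordinary hp2 h2 hr hcyc V hcoc hlev hb)
  refine ⟨R, fun n => ?_⟩
  obtain ⟨qv, h1, h2', h3, h4⟩ := hR n
  exact ⟨qv, h1, h2', h3, fun DQ => h4 _ (fun A _ _ _ ρ => Iff.rfl) DQ⟩

end Fermat.Agent.CFT.Wiles
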