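import Fermat.Agent.CFT.Euler.UnitChar
import Fermat.Agent.CFT.Duality.Semilocal
import Fermat.Agent.CFT.Idele.FixedClasses
import Fermat.Agent.CFT.Local.ResidueCard

/-!
# Units outside a finite set of primes as a Galois lattice

The orders of `T`-units at the places over `T` have finite coindex.
-/

set_option autoImplicit false
set_option linter.unusedSectionVars false
set_option linter.style.haveILetI false

noncomputable section

namespace Fermat.Agent.CFT.Wiles

open ExtCitation Fermat.Agent.Arith IntermediateField Fermat.Agent.CFT.Local Fermat.Agent.CFT.Idele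
open Fermat.Agent.CFT.Duality Fermat.Agent.CFT.Euler

local instance factPrimeTUnits (q : Nat.Primes) : Fact (q : ℕ).Prime := ⟨q.2⟩

theorem index_ne_zero_of_nsmul_mem {M : Type*} [AddCommGroup M] [Module.Finite ℤ M]
    (S : AddSubgroup M) {n : ℕ} (hn : n ≠ 0) (h : ∀ x : M, n • x ∈ S) : S.index ≠ 0 := by
  haveI : AddGroup.FG M := Module.Finite.iff_addGroup_fg.mp inferInstance
  haveI : Finite (M ⧸ S) := AddCommGroup.finite_of_fg_isAddTorsion _ fun x =>
    isOfFinAddOrder_iff_nsmul_eq_zero.2 ⟨n, Nat.pos_of_ne_zero hn, by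
      induction x using QuotientAddGroup.induction_on with
      | H y => exact (QuotientAddGroup.eq_zero_iff _).2 (h y)⟩
  exact AddSubgroup.index_ne_zero_of_finite

/-- A finitely generated group has finite `p`-torsion and finite quotient by `p`. -/
theorem modPFinite_of_fg {p : ℕ} (hp : p ≠ 0) (M : Type*) [AddCommGroup M] [Module.Finite ℤ M] :
    ModPFinite p M := by
  let μ := (nsmulAddMonoidHom p : M →+ M)
  haveI : AddGroup.FG M := Module.Finite.iff_addGroup_fg.mp inferInstance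
  haveI : AddGroup.FG μ.ker := Module.Finite.iff_addGroup_fg.mp
    (inferInstanceAs (Module.Finite ℤ (AddSubgroup.toIntSubmodule μ.ker)))
  refine ⟨AddCommGroup.finite_of_fg_isAddTorsion _ fun x =>
    isOfFinAddOrder_iff_nsmul_eq_zero.2 ⟨p, Nat.pos_of_ne_zero hp, Subtype.ext x.2⟩, ?_⟩
  exact index_ne_zero_of_nsmul_mem _ hp fun y => ⟨y, rfl⟩

variable (K : IntermediateField ℚ QBar) [FiniteDimensional ℚ K] [Normal ℚ K]
  (T : Finset Nat.Primes)

/-- The units outside `T`. -/
def tUnits : AddSubgroup (Additive Kˣ) where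
  carrier := {x | ∀ q ∉ T, ∀ σ, val (prinL K x.toMul) q σ ∈ unitGroup (E K q)}
  zero_mem' q _ σ := by
    rw [toMul_zero, map_one, val_one]
    exact one_mem _
  add_mem' {x y} hx hy q hq σ := by
    rw [toMul_add, map_mul, val_mul]
    exact mul_mem (hx q hq σ) (hy q hq σ)
  neg_mem' {x} hx q hq σ := by
    rw [toMul_neg, map_inv, show val _ q σ = _ from map_inv (valHom q σ) _]
    exact inv_mem (hx q hq σ)

variable {K T}

theorem val_prinL_smul (σ : K ≃ₐ[ℚ] K) (x : Additive Kˣ) (q : Nat.Primes) (τ : K ≃ₐ[ℚ] K) :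
    val (prinL K (σ • x).toMul) q τ = val (prinL K x.toMul) q (τ * σ) := by
  rw [← val_smul, smul_prinL]
  rfl

theorem smul_mem_tUnits (σ : K ≃ₐ[ℚ] K) {x : Additive Kˣ} (hx : x ∈ tUnits K T) :
    σ • x ∈ tUnits K T := fun q hq τ => by
  rw [val_prinL_smul]
  exact hx q hq _

variable (K T) in
/-- The Galois action on the units outside `T`. -/
instance tUnitsAction : DistribMulAction (K ≃ₐ[ℚ] K) (tUnits K T) :=
  stableAction (fun σ _ hx => smul_mem_tUnits σ hx)

theorem coe_smul_tUnits (σ : K ≃ₐ[ℚ] K) (x : tUnits K T) :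
    ((σ • x : tUnits K T) : Additive Kˣ) = σ • (x : Additive Kˣ) := rfl

theorem ordZ_smul {q : Nat.Primes} (t : E K q ≃ₐ[ℚ_[(q : ℕ)]] E K q) (y : (E K q)ˣ) :
    ordZ (E K q) (t • y) = ordZ (E K q) y :=
  (norm_eq_norm_iff _ _ _).1 (norm_smul_unit t y)

theorem ordZ_val_mul_decomp (f : idl K) {q : Nat.Primes} {d : K ≃ₐ[ℚ] K}
    (hd : d ∈ decomp K q) (σ : K ≃ₐ[ℚ] K) :
    ordZ (E K q) (val f q (d * σ)) = ordZ (E K q) (val f q σ) := by
  obtain ⟨t, rfl⟩ := MonoidHom.mem_range.1 hd
  rw [val_toGlobal_mul, ordZ_smul]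

variable (T) in
/-- The orders of an idele at the places over `T`. -/
def ordFun : J K →+ ∀ q : {q // q ∈ T}, CoInd (decomp K q.1) (TrivZ (decomp K q.1)) :=
  AddMonoidHom.mk'
    (fun f q => CoInd.mk (fun σ => TrivZ.of (ordZ (E K q.1) (val f.toMul q.1 σ)))
      fun h σ => by
        show TrivZ.of (G := decomp K q.1) _ = TrivZ.of _
        rw [ordZ_val_mul_decomp _ h.2])
    fun f g => funext fun q => CoInd.ext fun σ => by
      rw [Pi.add_apply, map_add CoInd.fn]
      show TrivZ.of (G := decomp K q.1) _ = TrivZ.of _ + TrivZ.of _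
      rw [toMul_add, val_mul, ordZ_mul, map_add]

theorem fn_ordFun (f : J K) (q : {q // q ∈ T}) (σ : K ≃ₐ[ℚ] K) :
    CoInd.fn (ordFun T f q) σ = TrivZ.of (ordZ (E K q.1) (val f.toMul q.1 σ)) := rfl

theorem ordFun_smul (g : K ≃ₐ[ℚ] K) (f : J K) : ordFun T (g • f) = g • ordFun T f :=
  funext fun q => CoInd.ext fun σ => by
    show _ = CoInd.fn (g • ordFun T f q) σ
    rw [CoInd.fn_smul, fn_ordFun, fn_ordFun, val_smul_J]

variable (K T) in
/-- The orders of a `T`-unit at the places over `T`. -/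
def ordT : tUnits K T →+ ∀ q : {q // q ∈ T}, CoInd (decomp K q.1) (TrivZ (decomp K q.1)) :=
  (ordFun T).comp ((diag K).comp (tUnits K T).subtype)

theorem ordT_smul (g : K ≃ₐ[ℚ] K) (x : tUnits K T) : ordT K T (g • x) = g • ordT K T x := by
  show ordFun T (diag K ((g • x : tUnits K T) : Additive Kˣ)) = _
  rw [coe_smul_tUnits, diag_smul, ordFun_smul]
  rfl

theorem mem_unitsL_of_ordT {x : tUnits K T} (hx : ordT K T x = 0) :
    (x : Additive Kˣ).toMul ∈ unitsL K := by
  refine mem_unitIdl.2 fun q σ => ?_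
  by_cases hq : q ∈ T
  · have h : TrivZ.of (G := decomp K q) (ordZ (E K q) (val (prinL K _) q σ)) = 0 :=
      congrFun (congrArg CoInd.fn (congrFun hx ⟨q, hq⟩)) σ
    exact (ordZ_eq_zero_iff _).1 (TrivZ.of.injective (h.trans (map_zero _).symm))
  · exact x.2 q hq σ

theorem mem_tUnits_of_mem_unitsL {u : Kˣ} (hu : u ∈ unitsL K) :
    Additive.ofMul u ∈ tUnits K T := fun q _ σ => mem_unitIdl.1 hu q σ

/-- The orders of the idele of a uniformiser are the indicator of its place. -/
theorem trivZ_ordZ_locIdl [DecidableEq {q // q ∈ T}] {q : {q // q ∈ T}} {π : (E K q.1)ˣ}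
    (hπ : ordZ (E K q.1) π = 1) (j : {q // q ∈ T}) (σ : K ≃ₐ[ℚ] K) :
    TrivZ.of (G := decomp K j.1) (ordZ (E K j.1) (val (locIdl q.1 π) j.1 σ)) =
      CoInd.fn ((Pi.single q (CoInd.single (H := decomp K q.1) (TrivZ.of (1 : ℤ))) :
        ∀ i : {q // q ∈ T}, CoInd (decomp K i.1) (TrivZ (decomp K i.1))) j) σ := by
  classical
  rcases eq_or_ne j q with rfl | hne
  · rw [Pi.single_eq_same]
    by_cases hσ : σ ∈ decomp K j.1
    · rw [CoInd.fn_single_mem _ hσ]
      obtain ⟨t, rfl⟩ := MonoidHom.mem_range.1 hσ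
      rw [val_locIdl_self, ordZ_smul, hπ]
      rfl
    · rw [CoInd.fn_single_notMem _ hσ, val_locIdl_of_notMem _ _ hσ, ordZ_one, map_zero]
  · rw [Pi.single_eq_of_ne hne, map_zero CoInd.fn, val_locIdl_of_ne q.1 π
      (fun e => hne (Subtype.ext e)), ordZ_one, map_zero]
    rfl

/-- Some positive multiple of the indicator of a place over `T` is the order of a `T`-unit. -/
theorem exists_ordT_eq_single (q : {q // q ∈ T}) :
    ∃ h : ℕ, h ≠ 0 ∧ ∃ x, ordT K T x =
      h • Pi.single q (CoInd.single (TrivZ.of (1 : ℤ))) := by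
  classical
  obtain ⟨π, hπ⟩ := ord_surjective (E K q.1) (Multiplicative.ofAdd 1)
  have hπ1 : ordZ (E K q.1) π = 1 := by rw [ordZ, hπ]; rfl
  haveI := finite_classes_mod_units (L := K)
  set h := orderOf (QuotientGroup.mk (locIdl q.1 π) :
    idl K ⧸ (unitIdl K ⊔ (prinL K).range)) with hh
  have h0 : 0 < h := by
    rw [hh]; exact orderOf_pos (G := idl K ⧸ (unitIdl K ⊔ (prinL K).range)) _
  have hmem : locIdl q.1 π ^ h ∈ unitIdl K ⊔ (prinL K).range := by
    rw [← QuotientGroup.eq_one_iff, QuotientGroup.mk_pow, pow_orderOf_eq_one]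
  obtain ⟨u, hu, _, ⟨a, rfl⟩, hua⟩ := Subgroup.mem_sup.mp hmem
  have hval : ∀ q' σ, ordZ (E K q') (val (prinL K a) q' σ) =
      (h : ℤ) * ordZ (E K q') (val (locIdl q.1 π) q' σ) := fun q' σ => by
    have e : val u q' σ * val (prinL K a) q' σ = val (locIdl q.1 π) q' σ ^ h := by
      rw [← val_mul, hua]
      exact map_pow (valHom q' σ) _ h
    have e2 := congrArg (ordZ (E K q')) e
    rwa [ordZ_mul, ordZ_pow, (ordZ_eq_zero_iff _).2 (mem_unitIdl.1 hu q' σ), zero_add] at e2
  have hT : Additive.ofMul a ∈ tUnits K T := fun q' hq' σ => by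
    rw [← ordZ_eq_zero_iff, toMul_ofMul, hval,
      val_locIdl_of_ne q.1 π (fun e : q' = q.1 => hq' (by rw [e]; exact q.2)), ordZ_one, mul_zero]
  refine ⟨h, h0.ne', ⟨_, hT⟩, funext fun q' => CoInd.ext fun σ => ?_⟩
  show TrivZ.of (G := decomp K q'.1) (ordZ (E K q'.1) (val (prinL K a) q'.1 σ)) = _
  rw [hval, Pi.smul_apply, map_nsmul (CoInd.fn (H := decomp K q'.1) (N := TrivZ (decomp K q'.1))), Pi.smul_apply,
    ← nsmul_eq_mul, map_nsmul]
  congr 1
  exact trivZ_ordZ_locIdl hπ1 q' σ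

theorem coInd_finite (H : Subgroup (K ≃ₐ[ℚ] K)) :
    Module.Finite ℤ (CoInd H (TrivZ H)) := by
  haveI : Module.Finite ℤ (TrivZ H) := Module.Finite.equiv (TrivZ.of (G := H)).toIntLinearEquiv
  exact Module.Finite.of_injective
    (CoInd.fn (H := H) (N := TrivZ H)).toIntLinearMap fun F F' e =>
      CoInd.ext fun x => congrFun e x

theorem piCoInd_finite :
    Module.Finite ℤ (∀ q : {q // q ∈ T}, CoInd (decomp K q.1) (TrivZ (decomp K q.1))) := by
  haveI := fun q : {q // q ∈ T} => coInd_finite (K := K) (decomp K q.1)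
  infer_instance

/-- A stable subgroup with all indicators multiplied by `h` contains all functions at `q`
multiplied by `h |D_q|`. -/
theorem nsmul_single_mem (q : {q // q ∈ T}) {h : ℕ}
    (hs : ∀ n : TrivZ (decomp K q.1),
      h • Pi.single q (CoInd.single (H := decomp K q.1) n) ∈ (ordT K T).range)
    (F : CoInd (decomp K q.1) (TrivZ (decomp K q.1))) :
    (h * Nat.card (decomp K q.1)) • Pi.single q F ∈ (ordT K T).range := by
  haveI : Fintype (decomp K q.1) := Fintype.ofFinite _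
  let S := AddMonoidHom.single
    (fun i : {q // q ∈ T} => CoInd (decomp K i.1) (TrivZ (decomp K i.1))) q
  have hS : ∀ (g : K ≃ₐ[ℚ] K) (x : CoInd (decomp K q.1) (TrivZ (decomp K q.1))),
      g • S x = S (g • x) := fun g x => funext fun q' => by
    show g • (Pi.single q x : ∀ i : {q // q ∈ T}, CoInd (decomp K i.1) (TrivZ (decomp K i.1))) q' =
      (Pi.single q (g • x) : ∀ i : {q // q ∈ T}, CoInd (decomp K i.1) (TrivZ (decomp K i.1))) q'
    rcases eq_or_ne q' q with rfl | hne
    · rw [Pi.single_eq_same, Pi.single_eq_same]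
    · rw [Pi.single_eq_of_ne hne, Pi.single_eq_of_ne hne, smul_zero]
  have e : Fintype.card (decomp K q.1) • F =
      ∑ g : K ≃ₐ[ℚ] K, g • CoInd.single (CoInd.fn F g⁻¹) := by
    refine CoInd.ext fun σ => ?_
    rw [CoInd.fn_sum_single,
      map_nsmul (CoInd.fn (H := decomp K q.1) (N := TrivZ (decomp K q.1))), Pi.smul_apply]
    simp only [mul_inv_rev, inv_inv, TrivZ.smul_eq]
    rw [Finset.sum_congr rfl fun (d : decomp K q.1) _ =>
      show CoInd.fn F ((d : K ≃ₐ[ℚ] K)⁻¹ * σ) = CoInd.fn F σ from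
        CoInd.fn_equi F d⁻¹ σ, Finset.sum_const, Finset.card_univ]
  show (h * Nat.card (decomp K q.1)) • S F ∈ _
  rw [Nat.card_eq_fintype_card, mul_nsmul', ← map_nsmul S, e, map_sum S, Finset.smul_sum]
  refine AddSubgroup.sum_mem _ fun g _ => ?_
  obtain ⟨y, hy⟩ := hs (CoInd.fn F g⁻¹)
  refine ⟨g • y, ?_⟩
  rw [ordT_smul, hy, ← hS g]
  exact smul_comm g h _

theorem index_ordT_range : (ordT K T).range.index ≠ 0 := by
  classical
  haveI := piCoInd_finite (K := K) (T := T)
  choose h h0 x hx using fun q => exists_ordT_eq_single (K := K) (T := T) q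
  refine index_ne_zero_of_nsmul_mem _ (n := (∏ q, h q) * ∏ q : {q // q ∈ T},
    Nat.card (decomp K q.1)) (mul_ne_zero (Finset.prod_ne_zero_iff.2 fun q _ => h0 q)
      (Finset.prod_ne_zero_iff.2 fun q _ => Nat.card_pos.ne')) fun F => ?_
  rw [← Finset.univ_sum_single F, Finset.smul_sum]
  refine AddSubgroup.sum_mem _ fun q _ => ?_
  have hs : ∀ n : TrivZ (decomp K q.1),
      h q • Pi.single q (CoInd.single (H := decomp K q.1) n) ∈ (ordT K T).range := by
    intro n
    obtain ⟨z, rfl⟩ := TrivZ.of.surjective n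
    refine ⟨z • x q, ?_⟩
    rw [map_zsmul, hx, smul_comm]
    congr 1
    rw [← AddMonoidHom.single_apply, ← map_zsmul, ← map_zsmul, ← map_zsmul, smul_eq_mul, mul_one]
    rfl
  have key := nsmul_single_mem q hs (F q)
  set m := Nat.card (decomp K q.1)
  obtain ⟨a, ha⟩ := Finset.dvd_prod_of_mem h (Finset.mem_univ q)
  obtain ⟨b, hb⟩ := Finset.dvd_prod_of_mem
    (fun q : {q // q ∈ T} => Nat.card (decomp K q.1)) (Finset.mem_univ q)
  rw [ha, hb, show h q * a * (m * b) = (a * b) * (h q * m) by ring, mul_nsmul']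
  exact nsmul_mem key _

theorem modPFinite_tUnits {p : ℕ} [hp : Fact p.Prime] : ModPFinite p (tUnits K T) := by
  haveI := piCoInd_finite (K := K) (T := T)
  haveI : Module.Finite ℤ (ordT K T).range :=
    inferInstanceAs (Module.Finite ℤ (AddSubgroup.toIntSubmodule (ordT K T).range))
  haveI : AddGroup.FG (Additive (unitsL K)) := AddGroup.fg_of_group_fg
  haveI : Module.Finite ℤ (Additive (unitsL K)) := Module.Finite.iff_addGroup_fg.mpr inferInstance
  refine ModPFinite.ses
    (AddMonoidHom.mk' (fun u : Additive (unitsL K) =>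
      (⟨_, mem_tUnits_of_mem_unitsL u.toMul.2⟩ : tUnits K T)) fun _ _ => rfl)
    (ordT K T).rangeRestrict (fun u v e => ?_) (fun y hy => ?_)
    (ordT K T).rangeRestrict_surjective (fun u => ?_)
    (modPFinite_of_fg hp.out.ne_zero _) (modPFinite_of_fg hp.out.ne_zero _)
  · exact Additive.toMul.injective (Subtype.ext (congrArg (fun z : tUnits K T => (z : Additive Kˣ).toMul) e))
  · exact ⟨Additive.ofMul ⟨_, mem_unitsL_of_ordT (congrArg Subtype.val hy)⟩, rfl⟩
  · refine Subtype.ext (funext fun q => CoInd.ext fun σ => ?_)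
    show TrivZ.of (G := decomp K q.1) (ordZ (E K q.1) _) = 0
    show TrivZ.of (G := decomp K q.1)
      (ordZ (E K q.1) (val (prinL K (u.toMul : Kˣ)) q.1 σ)) = 0
    rw [(ordZ_eq_zero_iff _).2 (mem_unitIdl.1 u.toMul.2 q.1 σ), map_zero]

end Fermat.Agent.CFT.Wiles
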